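import Fermat.Agent.RT.LocalRing.Basic

/-!
# Local parametrisations at the primes of `Σ` (blueprint PATCH part 5): definitions

`P = O⟦entries of Φ_j - Φ0_j, Σ_j - Σ0_j; free variables⟧` carries no relations. Residual centres
are in normal form:

* `scalar ε`: `Φ0 = ε`, `Σ0 = 1`;
* `jordan ε`: `Φ0 = (ε, 1; 0, ε)`, `Σ0 = 1`;
* `steinberg β y₀`: `Φ0 = (qβ, y₀; 0, β)`, `Σ0 = (1, 1; 0, 1)`;
* `special β`: `Φ0 = (qβ, 0; 0, β)`, `Σ0 = 1` with `q² - 1` a unit; a point has `tr Φ = β (q + 1)`.
-/

set_option autoImplicit false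

noncomputable section

namespace Fermat.Agent.RT.LocalParam

open IsLocalRing Matrix Fermat.Agent.RT.LocalRing

/-- Residual shape of the pair (Frobenius, inertia) at a prime of `Σ`. -/
inductive Kind (O : Type) : Type
  | scalar (ε : O)
  | jordan (ε : O)
  | steinberg (β y₀ : O)
  | special (β : O)

variable {J τ O : Type} [CommRing O]

/-- The two primes types: `true` for the twisted primes `q ≡ 1 (mod p)`. -/
def Kind.isTwisted : Kind O → Bool
  | .scalar _ => true
  | .jordan _ => true
  | .steinberg _ _ => false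
  | .special _ => false

/-- The centre of the coordinates of `(Φ, Σ)`. -/
def Kind.centre : Kind O → ℕ → Mat O × Mat O
  | .scalar ε, _ => (ε • (1 : Mat O), 1)
  | .jordan ε, _ => (!![ε, 1; 0, ε], 1)
  | .steinberg β y₀, n => (!![(n : O) * β, y₀; 0, β], !![1, 1; 0, 1])
  | .special β, n => (!![(n : O) * β, 0; 0, β], 1)

/-- The data: at each `j` the residual shape and the norm `n j` of the prime. -/
structure Setup (J O : Type) [CommRing O] [IsLocalRing O] (p m : ℕ) where
  kind : J → Kind O
  n : J → ℕ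
  twisted : ∀ j, (kind j).isTwisted = true →
    (∀ ε, kind j = .scalar ε ∨ kind j = .jordan ε → ε * ε = 1) ∧ 1 ≤ n j ∧ p ∣ n j - 1
  steinberg : ∀ j β y₀, kind j = .steinberg β y₀ → β * β = 1 ∧ IsUnit ((n j : O))
  special : ∀ j β, kind j = .special β →
    β * β = 1 ∧ IsUnit (n j : O) ∧ IsUnit ((n j : O) * (n j : O) - 1)

section Point

variable [IsLocalRing O] {p m : ℕ} {B : Type} [CommRing B] [Algebra O B]

/-- Frobenius at `j`. -/
def phiAt (s : Setup J O p m) (v : Idx J τ → B) (j : J) : Mat B :=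
  ((s.kind j).centre (s.n j)).1.map (algebraMap O B) +
    Matrix.of fun a b => v (Sum.inl (j, false, a, b))

/-- Inertia at `j`. -/
def sigAt (s : Setup J O p m) (v : Idx J τ → B) (j : J) : Mat B :=
  ((s.kind j).centre (s.n j)).2.map (algebraMap O B) +
    Matrix.of fun a b => v (Sum.inl (j, true, a, b))

/-- A point satisfies the local conditions: at a twisted prime `Σ` has eigenvalues `z, z⁻¹` with
`z ≠ 1` a `p^m`-th root of unity, at the others it is unipotent; at a special one `Φ` has trace
`β (n + 1)`. -/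
def IsPoint (s : Setup J O p m) (v : Idx J τ → B) : Prop :=
  ∀ j, phiAt s v j * sigAt s v j = sigAt s v j ^ s.n j * phiAt s v j ∧
    (phiAt s v j).det = (s.n j : B) ∧ (sigAt s v j).det = 1 ∧
    ((s.kind j).isTwisted = true →
      ∃ z : B, z ^ p ^ m = 1 ∧ z ≠ 1 ∧ z * (sigAt s v j).trace = z * z + 1) ∧
    ((s.kind j).isTwisted = false → (sigAt s v j).trace = 2) ∧
    ∀ β, s.kind j = .special β → (phiAt s v j).trace = algebraMap O B β * ((s.n j : B) + 1)

/-- The element cutting out `tr Φ = ±(q + 1)`. -/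
def fAt (s : Setup J O p m) (v : Idx J τ → B) (j : J) : B :=
  (phiAt s v j).trace ^ 2 - ((s.n j : B) + 1) ^ 2

end Point

end Fermat.Agent.RT.LocalParam
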