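import Mathlib.RingTheory.LocalRing.MaximalIdeal.Basic
import Mathlib.RingTheory.RootsOfUnity.PrimitiveRoots
import Mathlib.Algebra.CharP.Lemmas
import Mathlib.Algebra.Ring.GeomSum
import Mathlib.RingTheory.LocalRing.ResidueField.Basic
import Mathlib.Tactic.LinearCombination

/-!
# Roots of unity of `p`-power order in a local ring of residue characteristic `p`
-/

set_option autoImplicit false

namespace Fermat.Agent.RT.LocalParam

open IsLocalRing

variable {R : Type*} [CommRing R] [IsLocalRing R] {p : ℕ}

theorem isUnit_two (hp : p.Prime) (hp2 : p ≠ 2) (hpR : (p : R) ∈ maximalIdeal R) :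
    IsUnit (2 : R) := by
  by_contra h
  obtain ⟨k, hk⟩ := hp.odd_of_ne_two hp2
  rw [← mem_nonunits_iff, ← IsLocalRing.mem_maximalIdeal] at h
  have h1 : (1 : R) ∈ maximalIdeal R := by
    have e : (1 : R) = (p : R) - 2 * k := by rw [hk]; push_cast; ring
    rw [e]
    exact sub_mem hpR (Ideal.mul_mem_right _ _ h)
  exact (IsLocalRing.mem_maximalIdeal 1).mp h1 isUnit_one

/-- A `p`-power root of unity is congruent to `1`. -/
theorem sub_one_mem_of_pow_eq_one (hp : p.Prime) (hpR : (p : R) ∈ maximalIdeal R) {z : R} {m : ℕ}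
    (hz : z ^ p ^ m = 1) : z - 1 ∈ maximalIdeal R := by
  have : Fact p.Prime := ⟨hp⟩
  have : CharP (ResidueField R) p := by
    have h0 : (p : ResidueField R) = 0 := by
      rw [← map_natCast (residue R), residue_eq_zero_iff]
      exact hpR
    exact (CharP.charP_iff_prime_eq_zero hp).mpr h0
  rw [← residue_eq_zero_iff, map_sub, map_one]
  refine eq_zero_of_pow_eq_zero (n := p ^ m) ?_
  rw [sub_pow_char_pow, one_pow, ← map_pow, hz, map_one, sub_self]

/-- `p = (z - 1) · (element of the maximal ideal)` for a non-trivial `p`-power root of unity. -/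
theorem exists_p_eq_sub_one_mul [IsDomain R] (hp : p.Prime) (hp2 : p ≠ 2)
    (hpR : (p : R) ∈ maximalIdeal R) {z : R} :
    ∀ {m : ℕ}, z ^ p ^ m = 1 → z ≠ 1 → ∃ e ∈ maximalIdeal R, (p : R) = (z - 1) * e := by
  intro m hz hz1
  induction m with
  | zero => simp at hz; exact absurd hz hz1
  | succ m ih =>
    by_cases h : z ^ p ^ m = 1
    · exact ih h
    set x := z ^ p ^ m with hx
    have hxp : x ^ p = 1 := by rw [hx, ← pow_mul, ← pow_succ, hz]
    have hx1 : x - 1 ∈ maximalIdeal R :=
      sub_one_mem_of_pow_eq_one hp hpR (m := 1) (by rw [pow_one]; exact hxp)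
    have hsum : ∑ k ∈ Finset.range p, x ^ k = 0 := by
      have h0 := geom_sum_mul x p
      rw [hxp, sub_self] at h0
      exact (mul_eq_zero.mp h0).resolve_right (sub_ne_zero.mpr h)
    set E := ∑ k ∈ Finset.range p, ∑ l ∈ Finset.range k, x ^ l with hE
    have hp' : (p : R) = (x - 1) * (-E) := by
      have : (x - 1) * E = ∑ k ∈ Finset.range p, (x ^ k - 1) := by
        rw [hE, Finset.mul_sum]
        exact Finset.sum_congr rfl fun k _ => by rw [mul_geom_sum]
      rw [Finset.sum_sub_distrib, hsum] at this
      simp only [Finset.sum_const, Finset.card_range, nsmul_eq_mul, mul_one, zero_sub] at this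
      linear_combination this
    have hEmem : E ∈ maximalIdeal R := by
      have hx1' : residue R x = 1 := by
        rw [← map_one (residue R), ← sub_eq_zero, ← map_sub, residue_eq_zero_iff]
        exact hx1
      rw [← residue_eq_zero_iff, hE, map_sum]
      simp only [map_sum, map_pow, hx1', one_pow, Finset.sum_const, Finset.card_range,
        nsmul_eq_mul, mul_one]
      have h2 := (isUnit_two hp hp2 hpR).map (residue R)
      have hp0 : (p : ResidueField R) = 0 := by
        rw [← map_natCast (residue R), residue_eq_zero_iff]; exact hpR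
      refine h2.mul_left_cancel ?_
      rw [mul_zero, map_ofNat, ← Nat.cast_sum, ← Nat.cast_two, ← Nat.cast_mul,
        mul_comm 2, Finset.sum_range_id_mul_two, Nat.cast_mul, hp0, zero_mul]
    refine ⟨(∑ k ∈ Finset.range (p ^ m), z ^ k) * (-E), ?_, ?_⟩
    · exact Ideal.mul_mem_left _ _ (neg_mem hEmem)
    · rw [← mul_assoc, mul_geom_sum, ← hx, hp']

end Fermat.Agent.RT.LocalParam
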