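import Fermat.Agent.RT.LocalParam.Coords
import Fermat.Agent.RT.LocalParam.Roots

/-!
# The charts

* scalar residue: split pairs `(u, a, e)`;
* Jordan residue: triangular pairs `(u, y, t)` on the circle `R = ρ(1+t)`, `L = σ/(1+t)` of the
  annulus `R L = z - z'`;
* Steinberg and special: triangular unipotent pairs `(u, y, b)`.
-/

set_option autoImplicit false

noncomputable section

namespace Fermat.Agent.RT.LocalParam

open IsLocalRing Matrix Fermat.Agent.RT.LocalRing

/-- The image of a pair of matrices. -/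
def mapPair {A B : Type} [CommRing A] [CommRing B] (f : A →+* B) (q : Mat A × Mat A) :
    Mat B × Mat B :=
  (q.1.map f, q.2.map f)

section Pairs

variable {A : Type} [CommRing A]

/-- A split pair. -/
def scalarPair (ε n z z' u e a₁ : A) : Mat A × Mat A :=
  up (uL u * uU e) z z' (ε * (1 + a₁)) (ε * n * Ring.inverse (1 + a₁)) 0 0

/-- The ratio `b / y` attached to the annulus coordinates. -/
def jordanLam (ε c R L : A) : A := L * (ε * (1 + R)) * Ring.inverse (2 + R - c * L)

/-- A triangular pair with residual Jordan block, in annulus coordinates. -/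
def jordanPair (ε n z z' c u y R L : A) : Mat A × Mat A :=
  up (uL u) z z' (ε * (1 + R)) (ε * n * Ring.inverse (1 + R)) (jordanLam ε c R L * (1 + y)) (1 + y)

/-- A triangular pair with unipotent inertia. -/
def steinbergPair (β y₀ n u y b : A) : Mat A × Mat A :=
  up (uL u) 1 1 (n * β) β (1 + b) (y₀ + y)

/-- A triangular pair with unipotent inertia, residually trivial. -/
def specialPair (β n u y b : A) : Mat A × Mat A :=
  up (uL u) 1 1 (n * β) β b y

variable {B : Type} [CommRing B] (f : A →+* B)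

theorem map_inverse_of_isUnit {x : A} (h : IsUnit x) : f (Ring.inverse x) = Ring.inverse (f x) := by
  obtain ⟨v, rfl⟩ := h
  rw [Ring.inverse_unit, show f (v : A) = (Units.map f.toMonoidHom v : B) from rfl,
    Ring.inverse_unit]
  rfl

theorem map_uL (u : A) : Units.map f.mapMatrix.toMonoidHom (uL u) = uL (f u) := by
  ext a b; fin_cases a <;> fin_cases b <;> simp [uL]

theorem map_uU (u : A) : Units.map f.mapMatrix.toMonoidHom (uU u) = uU (f u) := by
  ext a b; fin_cases a <;> fin_cases b <;> simp [uU]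

theorem mapPair_scalarPair (ε n z z' u e a₁ : A) (h : IsUnit (1 + a₁)) :
    mapPair f (scalarPair ε n z z' u e a₁) =
      scalarPair (f ε) (f n) (f z) (f z') (f u) (f e) (f a₁) := by
  simp only [mapPair, scalarPair, up, map_cj, map_mul, map_uL, map_uU, map_upT, map_add, map_one,
    map_zero, map_inverse_of_isUnit f h]

theorem mapPair_jordanPair (ε n z z' c u y R L : A) (h : IsUnit (1 + R))
    (h' : IsUnit (2 + R - c * L)) :
    mapPair f (jordanPair ε n z z' c u y R L) =
      jordanPair (f ε) (f n) (f z) (f z') (f c) (f u) (f y) (f R) (f L) := by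
  simp only [mapPair, jordanPair, jordanLam, up, map_cj, map_uL, map_upT, map_mul, map_add,
    map_one, map_sub, map_ofNat, map_inverse_of_isUnit f h, map_inverse_of_isUnit f h']

theorem mapPair_steinbergPair (β y₀ n u y b : A) :
    mapPair f (steinbergPair β y₀ n u y b) =
      steinbergPair (f β) (f y₀) (f n) (f u) (f y) (f b) := by
  simp only [mapPair, steinbergPair, up, map_cj, map_uL, map_upT, map_mul, map_add, map_one]

theorem mapPair_specialPair (β n u y b : A) :
    mapPair f (specialPair β n u y b) = specialPair (f β) (f n) (f u) (f y) (f b) := by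
  simp only [mapPair, specialPair, up, map_cj, map_uL, map_upT, map_mul, map_one]

theorem upT_one_pow (b : A) (k : ℕ) : (upT 1 1 b) ^ k = upT 1 1 ((k : A) * b) := by
  induction k with
  | zero => ext i j; fin_cases i <;> fin_cases j <;> simp [upT]
  | succ k ih =>
    rw [pow_succ, ih]
    ext i j
    fin_cases i <;> fin_cases j <;> simp [upT, Matrix.mul_apply, Fin.sum_univ_two]
    ring

theorem cj_pow (g : (Mat A)ˣ) (M : Mat A) (k : ℕ) : cj g M ^ k = cj g (M ^ k) := by
  induction k with
  | zero => simp [cj]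
  | succ k ih => rw [pow_succ, pow_succ, ih, cj_mul_cj]

/-- Conjugation by `(1, 0; u, 1)`. -/
theorem cj_uL (u : A) (M : Mat A) : cj (uL u) M =
    !![M 0 0 - u * M 0 1, M 0 1;
      u * (M 0 0 - M 1 1) - u ^ 2 * M 0 1 + M 1 0, M 1 1 + u * M 0 1] := by
  rw [Matrix.eta_fin_two M]
  simp only [cj, uL, Units.inv_mk, Matrix.mul_fin_two]
  ext i j
  fin_cases i <;> fin_cases j <;> simp <;> ring

theorem jordanLam_rel {ε n c R L π : A} (hε : ε * ε = 1) (hn : n = 1 + π * c) (hRL : R * L = π)
    (h : IsUnit (1 + R)) (h' : IsUnit (2 + R - c * L)) :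
    (ε * (1 + R) - ε * n * Ring.inverse (1 + R)) * jordanLam ε c R L = π := by
  unfold jordanLam
  linear_combination
    ((1 + R) ^ 2 * L * Ring.inverse (2 + R - c * L) -
      n * L * Ring.inverse (2 + R - c * L) * ((1 + R) * Ring.inverse (1 + R))) * hε -
    (n * L * Ring.inverse (2 + R - c * L)) * Ring.mul_inverse_cancel _ h +
    π * Ring.mul_inverse_cancel _ h' -
    L * Ring.inverse (2 + R - c * L) * hn +
    (2 + R) * Ring.inverse (2 + R - c * L) * hRL

/-- An upper triangular matrix does not change the diagonal. -/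
theorem exists_cj_upper [IsDomain A] {T : (Mat A)ˣ} (hT : (T : Mat A) 1 0 = 0) (w w' b : A) :
    ∃ b', cj T (upT w w' b) = upT w w' b' := by
  set M := cj T (upT w w' b) with hM
  have hMT : M * (T : Mat A) = (T : Mat A) * upT w w' b := by
    rw [hM, cj, mul_assoc, Units.inv_mul, mul_one]
  have hp : (T : Mat A) 0 0 ≠ 0 := by
    intro h0
    have := (Matrix.isUnit_iff_isUnit_det _).mp T.isUnit
    rw [Matrix.det_fin_two, h0, hT, zero_mul, mul_zero, sub_zero] at this
    exact not_isUnit_zero this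
  have e10 := congrFun (congrFun hMT 1) 0
  have e00 := congrFun (congrFun hMT 0) 0
  simp [Matrix.mul_apply, Fin.sum_univ_two, upT, hT] at e10 e00
  have h10 : M 1 0 = 0 := e10.resolve_right hp
  have h00 : M 0 0 = w := mul_right_cancel₀ hp (by linear_combination e00)
  have htr := trace_cj T (upT w w' b)
  rw [← hM, Matrix.trace_fin_two, trace_upT, h00] at htr
  have h11 := add_left_cancel htr
  refine ⟨M 0 1, ?_⟩
  ext i j
  fin_cases i <;> fin_cases j <;> simp [upT, h00, h10, h11]

theorem rel_of_comm {w w' a a' b y : A}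
    (h : upT a a' y * upT w w' b = upT w w' b * upT a a' y) : (w - w') * y = (a - a') * b := by
  have e := congrFun (congrFun h 0) 1
  simp [upT, Matrix.mul_apply, Fin.sum_univ_two] at e
  linear_combination -e

end Pairs

variable {J O : Type} [CommRing O] [IsLocalRing O] {p m : ℕ}

/-- The constants of a chart: `z, z'` inertia eigenvalues, `n = 1 + (z - z') c`, and radii with
`ρ σ = z - z'`. -/
structure Prm (O : Type) where
  z : O
  z' : O
  c : O
  ρ : O
  σ : O

/-- The degenerate constants, used for the reduction modulo `p`. -/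
def Prm.triv (O : Type) [CommRing O] : Prm O := ⟨1, 1, 0, 0, 0⟩

/-- The constants reduce to the degenerate ones. -/
def Prm.Small (pr : Prm O) : Prop :=
  pr.z - 1 ∈ maximalIdeal O ∧ pr.z' - 1 ∈ maximalIdeal O ∧ pr.c ∈ maximalIdeal O ∧
    pr.ρ ∈ maximalIdeal O ∧ pr.σ ∈ maximalIdeal O

theorem Prm.small_triv : (Prm.triv O).Small := by
  simp [Prm.Small, Prm.triv, -IsLocalRing.mem_maximalIdeal]

/-- The constants are valid at a prime of norm `n`. -/
structure Prm.Good (pr : Prm O) (n : ℕ) : Prop where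
  small : pr.Small
  z_mul : pr.z * pr.z' = 1
  z_ne : pr.z ≠ pr.z'
  n_eq : (n : O) = 1 + (pr.z - pr.z') * pr.c
  z_pow : pr.z ^ n = pr.z
  z'_pow : pr.z' ^ n = pr.z'
  rad : pr.ρ * pr.σ = pr.z - pr.z'

variable (s : Setup J O p m) {A : Type} [CommRing A] [Algebra O A]

/-- The chart at `j` with parameters `(u, t₁, t₂)`. -/
def chart (pr : Prm O) (j : J) (u t₁ t₂ : A) : Mat A × Mat A :=
  match s.kind j with
  | .scalar ε => scalarPair (algebraMap O A ε) (s.n j : A) (algebraMap O A pr.z)
      (algebraMap O A pr.z') u t₂ t₁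
  | .jordan ε => jordanPair (algebraMap O A ε) (s.n j : A) (algebraMap O A pr.z)
      (algebraMap O A pr.z') (algebraMap O A pr.c) u t₁ (algebraMap O A pr.ρ * (1 + t₂))
      (algebraMap O A pr.σ * Ring.inverse (1 + t₂))
  | .steinberg β y₀ => steinbergPair (algebraMap O A β) (algebraMap O A y₀) (s.n j : A) u t₁ t₂
  | .special β => specialPair (algebraMap O A β) (s.n j : A) u t₁ t₂

/-- The reduction chart at a prime where the annulus is degenerate: `L = 0`, `R = t₂` free. -/
def chartZero (j : J) (u t₁ t₂ : A) : Mat A × Mat A :=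
  match s.kind j with
  | .jordan ε => jordanPair (algebraMap O A ε) (s.n j : A) 1 1 0 u t₁ t₂ 0
  | _ => chart s (Prm.triv O) j u t₁ t₂

/-- The relations satisfied by a pair at `j` with inertia eigenvalues `z, z'`. -/
def Rel (j : J) (z z' : A) (q : Mat A × Mat A) : Prop :=
  q.1.det = (s.n j : A) ∧ q.2.det = 1 ∧
    ((s.kind j).isTwisted = true → q.1 * q.2 = q.2 * q.1 ∧ q.2.trace = z + z') ∧
    ((s.kind j).isTwisted = false → q.1 * q.2 = q.2 ^ s.n j * q.1 ∧ q.2.trace = 2) ∧
    ∀ β, s.kind j = .special β → q.1.trace = algebraMap O A β * ((s.n j : A) + 1)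

theorem rel_up_twisted {j : J} (hj : (s.kind j).isTwisted = true) (g : (Mat A)ˣ)
    {z z' a a' b y : A} (hz : z * z' = 1) (hdet : a * a' = (s.n j : A))
    (hrel : (z - z') * y = (a - a') * b) : Rel s j z z' (up g z z' a a' b y) := by
  refine ⟨?_, ?_, fun _ => ⟨fst_up_mul_snd_up g hrel, ?_⟩, fun h => ?_,
    fun β h => absurd hj (by rw [h]; simp [Kind.isTwisted])⟩
  · rw [up, det_cj, det_upT, hdet]
  · rw [up, det_cj, det_upT, hz]
  · rw [up, trace_cj, trace_upT]
  · rw [hj] at h; exact absurd h Bool.true_eq_false.mp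

variable [IsLocalRing A]

theorem isUnit_one_add {t : A} (ht : t ∈ maximalIdeal A) : IsUnit (1 + t) :=
  isUnit_of_sub_mem (b := 1) (by simpa using ht) isUnit_one

theorem isUnit_two_add (h2 : IsUnit (2 : A)) {t : A} (ht : t ∈ maximalIdeal A) :
    IsUnit (2 + t) :=
  isUnit_of_sub_mem (b := 2) (by simpa using ht) h2

variable [IsLocalHom (algebraMap O A)]

theorem algebraMap_mem {x : O} (h : x ∈ maximalIdeal O) : algebraMap O A x ∈ maximalIdeal A :=
  map_nonunit (algebraMap O A) x h

theorem n_sub_one_mem (hpO : (p : O) ∈ maximalIdeal O) {j : J}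
    (hj : (s.kind j).isTwisted = true) : (s.n j : A) - 1 ∈ maximalIdeal A := by
  obtain ⟨-, h1, h3⟩ := s.twisted j hj
  obtain ⟨k, hk⟩ := h3
  have : (s.n j : A) - 1 = algebraMap O A ((p : O) * k) := by
    rw [show s.n j = p * k + 1 by omega]
    push_cast
    simp
  rw [this]
  exact algebraMap_mem (Ideal.mul_mem_right _ _ hpO)

theorem eps_sq_of_kind {j : J} {ε : O} (h : s.kind j = .scalar ε ∨ s.kind j = .jordan ε) :
    algebraMap O A ε * algebraMap O A ε = 1 := by
  have hj : (s.kind j).isTwisted = true := by rcases h with h | h <;> rw [h] <;> rfl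
  rw [← map_mul, (s.twisted j hj).1 ε h, map_one]

theorem mul_inverse_sub_mem {ε n a : A} (ha : a ∈ maximalIdeal A) (hn : n - 1 ∈ maximalIdeal A) :
    ε * n * Ring.inverse (1 + a) - ε ∈ maximalIdeal A := by
  have h := Ring.mul_inverse_cancel _ (isUnit_one_add ha)
  have e : ε * n * Ring.inverse (1 + a) - ε =
      ε * Ring.inverse (1 + a) * (n - 1) - ε * Ring.inverse (1 + a) * a := by
    linear_combination ε * h
  rw [e]
  exact sub_mem (Ideal.mul_mem_left _ _ hn) (Ideal.mul_mem_left _ _ ha)

theorem near_scalarPair {ε₀ : O} {c : Mat O × Mat O} (hc : c = (ε₀ • (1 : Mat O), 1))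
    {n z z' u e a₁ : A} (hn : n - 1 ∈ maximalIdeal A) (hz : z - 1 ∈ maximalIdeal A)
    (hz' : z' - 1 ∈ maximalIdeal A) (ha : a₁ ∈ maximalIdeal A) :
    Near c (scalarPair (algebraMap O A ε₀) n z z' u e a₁) := by
  set ε := algebraMap O A ε₀
  have h1 : ε * (1 + a₁) - ε ∈ maximalIdeal A := by
    rw [mul_add, mul_one, add_sub_cancel_left]; exact Ideal.mul_mem_left _ _ ha
  obtain ⟨hm1, hm2⟩ := memMax_up (uL u * uU e) hz hz' h1 (mul_inverse_sub_mem (ε := ε) ha hn)
    (zero_mem _) (zero_mem _) (b := 0) (y := 0)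
  have e1 : (ε₀ • (1 : Mat O)).map (algebraMap O A) = ε • (1 : Mat A) := by
    ext i k; rcases eq_or_ne i k with rfl | h <;> simp_all [ε]
  subst hc
  refine ⟨?_, ?_⟩
  · rw [e1]; exact hm1
  · simpa [scalarPair] using hm2

theorem near_jordanPair {ε₀ : O} {c₀ : Mat O × Mat O} (hc : c₀ = (!![ε₀, 1; 0, ε₀], 1))
    {n z z' c u y R L : A} (hn : n - 1 ∈ maximalIdeal A) (hz : z - 1 ∈ maximalIdeal A)
    (hz' : z' - 1 ∈ maximalIdeal A) (hu : u ∈ maximalIdeal A) (hy : y ∈ maximalIdeal A)
    (hR : R ∈ maximalIdeal A) (hL : L ∈ maximalIdeal A) :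
    Near c₀ (jordanPair (algebraMap O A ε₀) n z z' c u y R L) := by
  set ε := algebraMap O A ε₀
  set β := ε * n * Ring.inverse (1 + R)
  have hβ : β - ε ∈ maximalIdeal A := mul_inverse_sub_mem hR hn
  have hα : ε * (1 + R) - ε ∈ maximalIdeal A := by
    rw [mul_add, mul_one, add_sub_cancel_left]; exact Ideal.mul_mem_left _ _ hR
  have hb : jordanLam ε c R L * (1 + y) ∈ maximalIdeal A :=
    Ideal.mul_mem_right _ _ (Ideal.mul_mem_right _ _ (Ideal.mul_mem_right _ _ hL))
  subst hc
  constructor <;> intro i k <;> fin_cases i <;> fin_cases k <;>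
    simp [jordanPair, up, cj_uL, upT, ← sub_eq_add_neg, -IsLocalRing.mem_maximalIdeal,
      -mem_nonunits_iff]
  · rw [show ε * (1 + R) - u * (1 + y) - ε = (ε * (1 + R) - ε) - u * (1 + y) by ring]
    exact sub_mem hα (Ideal.mul_mem_right _ _ hu)
  · simpa using hy
  · rw [show u ^ 2 * (1 + y) = u * (u * (1 + y)) by ring]
    exact sub_mem (Ideal.mul_mem_right _ _ hu) (Ideal.mul_mem_right _ _ hu)
  · rw [show β + u * (1 + y) - ε = (β - ε) + u * (1 + y) by ring]
    exact add_mem hβ (Ideal.mul_mem_right _ _ hu)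
  · rw [show z - u * (jordanLam ε c R L * (1 + y)) - 1 =
      (z - 1) - u * (jordanLam ε c R L * (1 + y)) by ring]
    exact sub_mem hz (Ideal.mul_mem_right _ _ hu)
  · exact hb
  · exact sub_mem (Ideal.mul_mem_right _ _ hu) (Ideal.mul_mem_left _ _ hb)
  · rw [show z' + u * (jordanLam ε c R L * (1 + y)) - 1 =
      (z' - 1) + u * (jordanLam ε c R L * (1 + y)) by ring]
    exact add_mem hz' (Ideal.mul_mem_right _ _ hu)

theorem near_steinbergPair {β₀ y₀ : O} {k : ℕ} {c₀ : Mat O × Mat O}
    (hc : c₀ = (!![(k : O) * β₀, y₀; 0, β₀], !![1, 1; 0, 1]))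
    {u y b : A} (hu : u ∈ maximalIdeal A) (hy : y ∈ maximalIdeal A) (hb : b ∈ maximalIdeal A) :
    Near c₀ (steinbergPair (algebraMap O A β₀) (algebraMap O A y₀) (k : A) u y b) := by
  subst hc
  constructor <;> intro i l <;> fin_cases i <;> fin_cases l <;>
    simp [steinbergPair, up, cj_uL, upT, hu, hy, hb, -IsLocalRing.mem_maximalIdeal,
      -mem_nonunits_iff]
  all_goals
    first
      | exact Ideal.mul_mem_right _ _ hu
      | exact sub_mem (Ideal.mul_mem_right _ _ hu) (Ideal.mul_mem_right _ _ (Ideal.pow_mem_of_mem _ hu 2 two_pos))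
      | exact Ideal.mul_mem_right _ _ (Ideal.pow_mem_of_mem _ hu 2 two_pos)

theorem near_specialPair {β₀ : O} {k : ℕ} {c₀ : Mat O × Mat O}
    (hc : c₀ = (!![(k : O) * β₀, 0; 0, β₀], 1))
    {u y b : A} (hu : u ∈ maximalIdeal A) (hy : y ∈ maximalIdeal A) (hb : b ∈ maximalIdeal A) :
    Near c₀ (specialPair (algebraMap O A β₀) (k : A) u y b) := by
  subst hc
  constructor <;> intro i l <;> fin_cases i <;> fin_cases l <;>
    simp [specialPair, up, cj_uL, upT, hu, hy, hb, -IsLocalRing.mem_maximalIdeal,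
      -mem_nonunits_iff]
  all_goals
    first
      | exact Ideal.mul_mem_right _ _ hu
      | exact sub_mem (Ideal.mul_mem_right _ _ hu) (Ideal.mul_mem_right _ _ (Ideal.pow_mem_of_mem _ hu 2 two_pos))
      | exact Ideal.mul_mem_right _ _ (Ideal.pow_mem_of_mem _ hu 2 two_pos)

theorem near_chart (hpO : (p : O) ∈ maximalIdeal O) {pr : Prm O} (hpr : pr.Small) (j : J)
    {u t₁ t₂ : A} (hu : u ∈ maximalIdeal A) (h1 : t₁ ∈ maximalIdeal A)
    (h2 : t₂ ∈ maximalIdeal A) : Near (s.cen j) (chart s pr j u t₁ t₂) := by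
  obtain ⟨hz, hz', -, hρ, hσ⟩ := hpr
  have h : ∀ {x : O}, x - 1 ∈ maximalIdeal O → algebraMap O A x - 1 ∈ maximalIdeal A := fun hx => by
    rw [← map_one (algebraMap O A), ← map_sub]; exact algebraMap_mem hx
  rcases hk : s.kind j with ε | ε | ⟨β, y₀⟩ | β
  · rw [chart, hk]
    exact near_scalarPair (by rw [Setup.cen, hk]; rfl)
      (n_sub_one_mem s hpO (by rw [hk]; rfl)) (h hz) (h hz') h1
  · rw [chart, hk]
    exact near_jordanPair (by rw [Setup.cen, hk]; rfl)
      (n_sub_one_mem s hpO (by rw [hk]; rfl)) (h hz) (h hz') hu h1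
      (Ideal.mul_mem_right _ _ (algebraMap_mem hρ)) (Ideal.mul_mem_right _ _ (algebraMap_mem hσ))
  · rw [chart, hk]
    exact near_steinbergPair (k := s.n j) (by rw [Setup.cen, hk]; rfl) hu h1 h2
  · rw [chart, hk]
    exact near_specialPair (k := s.n j) (by rw [Setup.cen, hk]; rfl) hu h1 h2

theorem near_chartZero (hpO : (p : O) ∈ maximalIdeal O) (j : J) {u t₁ t₂ : A}
    (hu : u ∈ maximalIdeal A) (h1 : t₁ ∈ maximalIdeal A) (h2 : t₂ ∈ maximalIdeal A) :
    Near (s.cen j) (chartZero s j u t₁ t₂) := by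
  have hg := near_chart s hpO (Prm.small_triv (O := O)) j hu h1 h2
  rcases hk : s.kind j with ε | ε | ⟨β, y₀⟩ | β
  · rwa [chartZero, hk]
  · rw [chartZero, hk]
    exact near_jordanPair (by rw [Setup.cen, hk]; rfl) (n_sub_one_mem s hpO (by rw [hk]; rfl))
      (by simp) (by simp) hu h1 h2 (zero_mem _)
  · rwa [chartZero, hk]
  · rwa [chartZero, hk]

theorem rel_chart (h2O : IsUnit (2 : O)) {j : J} {pr : Prm O}
    (hpr : (s.kind j).isTwisted = true → pr.Good (s.n j))
    {u t₁ t₂ : A} (h2 : t₂ ∈ maximalIdeal A) (h1 : t₁ ∈ maximalIdeal A) :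
    Rel s j (algebraMap O A pr.z) (algebraMap O A pr.z') (chart s pr j u t₁ t₂) := by
  rcases hk : s.kind j with ε | ε | ⟨β, y₀⟩ | β
  · have hg := hpr (by rw [hk]; rfl)
    rw [chart, hk]
    refine rel_up_twisted s (by rw [hk]; rfl) _ (by rw [← map_mul, hg.z_mul, map_one]) ?_
      (by ring)
    linear_combination ((s.n j : A) * (1 + t₁) * Ring.inverse (1 + t₁)) *
      eps_sq_of_kind (A := A) s (Or.inl hk) +
      (s.n j : A) * Ring.mul_inverse_cancel _ (isUnit_one_add h1)
  · have hg := hpr (by rw [hk]; rfl)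
    rw [chart, hk]
    set R := algebraMap O A pr.ρ * (1 + t₂)
    set L := algebraMap O A pr.σ * Ring.inverse (1 + t₂)
    have hR : R ∈ maximalIdeal A := Ideal.mul_mem_right _ _ (algebraMap_mem hg.small.2.2.2.1)
    have hL : L ∈ maximalIdeal A := Ideal.mul_mem_right _ _ (algebraMap_mem hg.small.2.2.2.2)
    have hu2 : IsUnit (2 + R - algebraMap O A pr.c * L) := by
      rw [add_sub_assoc]
      exact isUnit_two_add (by have := h2O.map (algebraMap O A); rwa [map_ofNat] at this)
        (sub_mem hR (Ideal.mul_mem_left _ _ hL))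
    refine rel_up_twisted s (by rw [hk]; rfl) _ (by rw [← map_mul, hg.z_mul, map_one]) ?_ ?_
    · linear_combination ((s.n j : A) * (1 + R) * Ring.inverse (1 + R)) *
        eps_sq_of_kind (A := A) s (Or.inr hk) +
        (s.n j : A) * Ring.mul_inverse_cancel _ (isUnit_one_add hR)
    · have hRL : R * L = algebraMap O A pr.z - algebraMap O A pr.z' := by
        rw [← map_sub, ← hg.rad, map_mul]
        linear_combination algebraMap O A pr.ρ * algebraMap O A pr.σ *
          Ring.mul_inverse_cancel _ (isUnit_one_add h2)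
      have hn : (s.n j : A) = 1 + (algebraMap O A pr.z - algebraMap O A pr.z') *
          algebraMap O A pr.c := by
        rw [← map_natCast (algebraMap O A), hg.n_eq]; simp
      linear_combination (-(1 + t₁)) * jordanLam_rel (eps_sq_of_kind (A := A) s (Or.inr hk))
        hn hRL (isUnit_one_add hR) hu2
  · rw [chart, hk]
    obtain ⟨hβ, -⟩ := s.steinberg j β y₀ hk
    refine ⟨?_, ?_, fun h => absurd h (by rw [hk]; simp [Kind.isTwisted]), fun _ => ⟨?_, ?_⟩,
      fun β' h => absurd h (by rw [hk]; simp)⟩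
    · have hβ' : algebraMap O A β * algebraMap O A β = 1 := by rw [← map_mul, hβ, map_one]
      simp only [steinbergPair, up, det_cj, det_upT]
      linear_combination (s.n j : A) * hβ'
    · simp only [steinbergPair, up, det_cj, det_upT, one_mul]
    · simp only [steinbergPair, up, cj_pow, cj_mul_cj, upT_one_pow]
      congr 1
      ext i l
      fin_cases i <;> fin_cases l <;> simp [upT, Matrix.mul_apply, Fin.sum_univ_two]
      ring
    · simp only [steinbergPair, up, trace_cj, trace_upT, one_add_one_eq_two]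
  · rw [chart, hk]
    obtain ⟨hβ, -⟩ := s.special j β hk
    refine ⟨?_, ?_, fun h => absurd h (by rw [hk]; simp [Kind.isTwisted]), fun _ => ⟨?_, ?_⟩,
      fun β' h => ?_⟩
    · have hβ' : algebraMap O A β * algebraMap O A β = 1 := by rw [← map_mul, hβ, map_one]
      simp only [specialPair, up, det_cj, det_upT]
      linear_combination (s.n j : A) * hβ'
    · simp only [specialPair, up, det_cj, det_upT, one_mul]
    · simp only [specialPair, up, cj_pow, cj_mul_cj, upT_one_pow]
      congr 1
      ext i l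
      fin_cases i <;> fin_cases l <;> simp [upT, Matrix.mul_apply, Fin.sum_univ_two]
      ring
    · simp only [specialPair, up, trace_cj, trace_upT, one_add_one_eq_two]
    · obtain rfl := Kind.special.inj (hk.symm.trans h)
      simp only [specialPair, up, trace_cj, trace_upT]
      ring

end Fermat.Agent.RT.LocalParam
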