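import Fermat.Agent.EichlerShimura.FiniteDVR
import Fermat.Prelude.Sol.S_IsLocalRing_isAdicComplete_of_module_finite
import Fermat.Agent.RT.LocalParam.Charts
import Mathlib.RingTheory.AdjoinRoot
import Mathlib.RingTheory.Polynomial.Cyclotomic.Roots
import Mathlib.RingTheory.TensorProduct.Free
import Mathlib.RingTheory.Flat.Basic
import Mathlib.RingTheory.Ideal.GoingUp

/-!
# Finite extensions of the base containing the constants of the charts
-/

set_option autoImplicit false

noncomputable section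

namespace Fermat.Agent.RT.LocalParam

open IsLocalRing Polynomial

/-- A finite algebra containing the base has a prime meeting it trivially. -/
theorem exists_prime_over_bot {O R : Type*} [CommRing O] [IsDomain O] [CommRing R] [Algebra O R]
    [Module.Finite O R] (hinj : Function.Injective (algebraMap O R)) :
    ∃ P : Ideal R, P.IsPrime ∧ ∀ a : O, algebraMap O R a ∈ P → a = 0 := by
  obtain ⟨P, -, hP, hPc⟩ := Ideal.exists_ideal_over_prime_of_isIntegral (⊥ : Ideal O) (⊥ : Ideal R)
    (by rw [Ideal.comap_bot_of_injective _ hinj])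
  refine ⟨P, hP, fun a ha => ?_⟩
  rwa [← Ideal.mem_comap, hPc, Ideal.mem_bot] at ha

/-- A finite extension with a root of a monic polynomial. -/
theorem exists_ext_root (O : Type) [CommRing O] [IsDomain O] [IsDiscreteValuationRing O]
    [IsAdicComplete (maximalIdeal O) O] [Finite (ResidueField O)] [CharZero O]
    (f : O[X]) (hf : f.Monic) (hd : f.natDegree ≠ 0) :
    ∃ (O' : Type) (_ : CommRing O') (_ : IsDomain O') (_ : IsDiscreteValuationRing O')
      (_ : IsAdicComplete (maximalIdeal O') O') (_ : Finite (ResidueField O')) (_ : CharZero O')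
      (_ : Algebra O O') (_ : Module.Finite O O') (_ : IsLocalHom (algebraMap O O')),
      Function.Injective (algebraMap O O') ∧ ∃ x : O', aeval x f = 0 := by
  have : Module.Finite O (AdjoinRoot f) := hf.finite_adjoinRoot
  have hinj : Function.Injective (algebraMap O (AdjoinRoot f)) :=
    AdjoinRoot.of.injective_of_degree_ne_zero (by
      rw [degree_eq_natDegree hf.ne_zero]
      exact_mod_cast hd)
  obtain ⟨P, hP, hPO⟩ := exists_prime_over_bot hinj
  obtain ⟨O', i1, i2, i3, i4, i5, i6, i7, i8, i9, hO', g, -⟩ :=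
    Fermat.Agent.EichlerShimura.exists_finiteDVR_extension O (AdjoinRoot f) P hPO
  refine ⟨O', i1, i2, i3, i4, i5, i6, i7, i8, i9, hO', g (AdjoinRoot.root f), ?_⟩
  rw [aeval_algHom_apply, AdjoinRoot.aeval_eq, AdjoinRoot.mk_self, map_zero]

/-- A finite extension with a primitive `p ^ m`-th root of unity over which every `ζ² - 1` is a
product of two non-units. -/
theorem exists_base (O : Type) [CommRing O] [IsDomain O] [IsDiscreteValuationRing O]
    [IsAdicComplete (maximalIdeal O) O] [Finite (ResidueField O)] [CharZero O]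
    {p : ℕ} (hp : p.Prime) (hpO : (p : O) ∈ maximalIdeal O) (m : ℕ) :
    ∃ (O' : Type) (_ : CommRing O') (_ : IsDomain O') (_ : IsDiscreteValuationRing O')
      (_ : IsAdicComplete (maximalIdeal O') O') (_ : Finite (ResidueField O')) (_ : CharZero O')
      (_ : Algebra O O') (_ : Module.Finite O O') (_ : IsLocalHom (algebraMap O O')),
      Function.Injective (algebraMap O O') ∧ ∃ ζ : O', IsPrimitiveRoot ζ (p ^ m) ∧
        ∀ z : O', z ^ p ^ m = 1 →
          ∃ ρ σ : O', ρ ∈ maximalIdeal O' ∧ σ ∈ maximalIdeal O' ∧ ρ * σ = z * z - 1 := by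
  have hpos : 0 < p ^ m := pow_pos hp.pos m
  obtain ⟨O₁, j1, j2, j3, j4, j5, j6, j7, j8, j9, hinj₁, ζ, hζ⟩ :=
    exists_ext_root O (cyclotomic (p ^ m) O) (cyclotomic.monic _ _)
      (by rw [natDegree_cyclotomic]; exact (Nat.totient_pos.mpr hpos).ne')
  have hprim : IsPrimitiveRoot ζ (p ^ m) := by
    rw [aeval_def, eval₂_eq_eval_map, map_cyclotomic] at hζ
    exact (isRoot_cyclotomic_iff_charZero hpos).mp hζ
  obtain ⟨ϖ, hϖ⟩ := IsDiscreteValuationRing.exists_irreducible O₁
  obtain ⟨O₂, k1, k2, k3, k4, k5, k6, k7, k8, k9, hinj₂, r, hr⟩ :=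
    exists_ext_root O₁ (X ^ 2 - C ϖ) (monic_X_pow_sub_C ϖ two_ne_zero) (by simp)
  simp [sub_eq_zero] at hr
  letI : Algebra O O₂ := ((algebraMap O₁ O₂).comp (algebraMap O O₁)).toAlgebra
  haveI : IsScalarTower O O₁ O₂ := IsScalarTower.of_algebraMap_eq' rfl
  haveI : Module.Finite O O₂ := Module.Finite.trans O₁ O₂
  have hloc : IsLocalHom (algebraMap O O₂) := RingHom.isLocalHom_comp _ _
  refine ⟨O₂, k1, k2, k3, k4, k5, k6, inferInstance, inferInstance, hloc, hinj₂.comp hinj₁,
    algebraMap O₁ O₂ ζ, hprim.map_of_injective hinj₂, fun z hz => ?_⟩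
  have : NeZero (p ^ m) := ⟨hpos.ne'⟩
  obtain ⟨i, -, rfl⟩ := (hprim.map_of_injective hinj₂).eq_pow_of_pow_eq_one hz
  have hmem : ζ ^ i * ζ ^ i - 1 ∈ maximalIdeal O₁ := by
    have hp₁ : (p : O₁) ∈ maximalIdeal O₁ := by
      rw [← map_natCast (algebraMap O O₁)]; exact map_nonunit _ _ hpO
    refine sub_one_mem_of_pow_eq_one hp hp₁ (m := m) ?_
    rw [← pow_add, ← pow_mul, mul_comm, pow_mul, hprim.pow_eq_one, one_pow]
  rw [hϖ.maximalIdeal_eq, Ideal.mem_span_singleton] at hmem
  obtain ⟨a, ha⟩ := hmem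
  have hrm : r ∈ maximalIdeal O₂ := by
    rw [IsLocalRing.mem_maximalIdeal, mem_nonunits_iff]
    intro hu
    exact hϖ.not_isUnit (isUnit_of_map_unit (algebraMap O₁ O₂) ϖ (hr ▸ hu.pow 2))
  refine ⟨r, r * algebraMap O₁ O₂ a, hrm, Ideal.mul_mem_right _ _ hrm, ?_⟩
  rw [← mul_assoc, ← sq, hr, ← map_mul, ← ha, map_sub, map_mul, map_pow, map_one]

/-- Valid constants at a twisted prime from a root of unity. -/
theorem exists_prm {R : Type} [CommRing R] [IsDomain R] [IsLocalRing R] {p m : ℕ} (hp : p.Prime)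
    (hp2 : p ≠ 2) (hpR : (p : R) ∈ maximalIdeal R)
    (hsq : ∀ z : R, z ^ p ^ m = 1 →
      ∃ ρ σ : R, ρ ∈ maximalIdeal R ∧ σ ∈ maximalIdeal R ∧ ρ * σ = z * z - 1)
    {z : R} (hz : z ^ p ^ m = 1) (hz1 : z ≠ 1) {n : ℕ} (hn1 : 1 ≤ n) (hzn : z ^ n = z)
    (hn' : p ∣ n - 1) :
    ∃ pr : Prm R, pr.Good n ∧ pr.z = z ∧ pr.z ^ p ^ m = 1 ∧ pr.z' ^ p ^ m = 1 := by
  obtain ⟨q, hq⟩ : ∃ q, p ^ m = q + 1 := ⟨p ^ m - 1, (Nat.sub_add_cancel (pow_pos hp.pos m)).symm⟩
  set z' := z ^ q with hz'def
  have hzz : z * z' = 1 := by rw [hz'def, ← pow_succ', ← hq, hz]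
  have hz' : z' ^ p ^ m = 1 := by rw [hz'def, ← pow_mul, mul_comm, pow_mul, hz, one_pow]
  have hne : z * z ≠ 1 := fun h2 => hz1 (by
    obtain ⟨k, hk⟩ := (hp.odd_of_ne_two hp2).pow (n := m)
    rw [hk, pow_succ, pow_mul, sq, h2, one_pow, one_mul] at hz
    exact hz)
  have hπ : z - z' = z' * (z * z - 1) := by linear_combination (-z) * hzz
  obtain ⟨ρ, σ, hρ, hσ, hρσ⟩ := hsq z hz
  obtain ⟨e, he, hpe⟩ := exists_p_eq_sub_one_mul hp hp2 hpR (z := z * z) (m := m)
    (by rw [mul_pow, hz, one_mul]) hne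
  obtain ⟨k, hk⟩ := hn'
  refine ⟨⟨z, z', z * e * k, z' * ρ, σ⟩, ⟨⟨?_, ?_, ?_, ?_, hσ⟩, hzz, ?_, ?_, ?_, ?_, ?_⟩, rfl, hz,
    hz'⟩
  · exact sub_one_mem_of_pow_eq_one hp hpR hz
  · exact sub_one_mem_of_pow_eq_one hp hpR hz'
  · exact Ideal.mul_mem_right _ _ (Ideal.mul_mem_left _ _ he)
  · exact Ideal.mul_mem_left _ _ hρ
  · intro h2
    exact hne (by dsimp only at h2; rw [h2] at hzz ⊢; exact hzz)
  · have : (n : R) = 1 + (p : R) * k := by
      rw [show n = 1 + p * k by omega]; push_cast; ring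
    rw [this, hπ]
    linear_combination (k : R) * hpe - ((z * z - 1) * e * k) * hzz
  · exact hzn
  · show z' ^ n = z'
    rw [hz'def, pow_right_comm, hzn]
  · show z' * ρ * σ = z - z'
    rw [mul_assoc, hρσ, hπ]

/-- Two finite extensions of `O` are contained in a common one. -/
theorem exists_compositum (O : Type) [CommRing O] [IsDomain O] [IsDiscreteValuationRing O]
    [IsAdicComplete (maximalIdeal O) O] [Finite (ResidueField O)] [CharZero O]
    (O' : Type) [CommRing O'] [IsDomain O'] [IsDiscreteValuationRing O'] [CharZero O'] [Algebra O O']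
    [Module.Finite O O'] [IsLocalHom (algebraMap O O')] (hinj : Function.Injective (algebraMap O O'))
    (V : Type) [CommRing V] [IsDomain V] [IsDiscreteValuationRing V]
    [IsAdicComplete (maximalIdeal V) V] [Algebra O V] [Module.Finite O V]
    [IsLocalHom (algebraMap O V)] (hV : Function.Injective (algebraMap O V))
    {p : ℕ} (hp0 : p ≠ 0) (hpO' : (p : O') ∈ maximalIdeal O') :
    ∃ (V' : Type) (_ : CommRing V') (_ : IsDomain V') (_ : IsDiscreteValuationRing V')
      (_ : IsAdicComplete (maximalIdeal V') V') (_ : Algebra O V') (_ : Algebra O' V')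
      (_ : IsScalarTower O O' V') (_ : IsLocalHom (algebraMap O' V')),
      Function.Injective (algebraMap O' V') ∧
        ∃ g : V →ₐ[O] V', Function.Injective g ∧ ∀ x ∈ maximalIdeal V, g x ∈ maximalIdeal V' := by
  have : Finite (ResidueField V) := ResidueField.finite_of_finite (R := O) (S := V) inferInstance
  have : CharZero V := charZero_of_injective_ringHom hV
  have : FaithfulSMul O V := (faithfulSMul_iff_algebraMap_injective O V).mpr hV
  have : Module.IsTorsionFree O V := inferInstance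
  have : Module.Free O V := Module.free_of_finite_type_torsion_free'
  have hD : Function.Injective (algebraMap V (TensorProduct O V O')) :=
    Algebra.TensorProduct.includeLeft_injective (S := O) (A := V) (B := O') hinj
  obtain ⟨P, hP, hPV⟩ := exists_prime_over_bot hD
  obtain ⟨V', l1, l2, l3, l4, l5, l6, l7, l8, l9, hV', f, -⟩ :=
    Fermat.Agent.EichlerShimura.exists_finiteDVR_extension V (TensorProduct O V O') P hPV
  letI : Algebra O V' := ((algebraMap V V').comp (algebraMap O V)).toAlgebra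
  haveI : IsScalarTower O V V' := IsScalarTower.of_algebraMap_eq' rfl
  let e : O' →+* V' := f.toRingHom.comp
    (Algebra.TensorProduct.includeRight (R := O) (A := V) (B := O')).toRingHom
  letI : Algebra O' V' := e.toAlgebra
  haveI : IsScalarTower O O' V' := IsScalarTower.of_algebraMap_eq fun a => by
    show algebraMap V V' (algebraMap O V a) =
      f ((Algebra.TensorProduct.includeRight (R := O) (A := V)) (algebraMap O O' a))
    rw [AlgHom.commutes, ← f.commutes, Algebra.TensorProduct.algebraMap_apply]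
    rfl
  have hlV : IsLocalHom (algebraMap O V') := by
    rw [IsScalarTower.algebraMap_eq O V V']
    exact RingHom.isLocalHom_comp _ _
  have hloc : IsLocalHom (algebraMap O' V') := by
    obtain ⟨N, hN⟩ :=
      P2MW.S_IsLocalRing_isAdicComplete_of_module_finite.M4cP1X1.exists_maximalIdeal_pow_le_map
        (𝒪 := O) (T := O')
    refine ⟨fun y hy => ?_⟩
    by_contra hyn
    have h1 : algebraMap O' V' (y ^ N) ∈ maximalIdeal V' := by
      have h2 := Ideal.mem_map_of_mem (algebraMap O' V')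
        (hN (Ideal.pow_mem_pow ((IsLocalRing.mem_maximalIdeal y).mpr hyn) N))
      rw [Ideal.map_map, ← IsScalarTower.algebraMap_eq O O' V'] at h2
      have hle : (maximalIdeal O).map (algebraMap O V') ≤ maximalIdeal V' :=
        Ideal.map_le_iff_le_comap.mpr fun a ha => Ideal.mem_comap.mpr (map_nonunit _ a ha)
      exact hle h2
    rw [map_pow] at h1
    exact (IsLocalRing.mem_maximalIdeal _).mp h1 (hy.pow N)
  refine ⟨V', l1, l2, l3, l4, inferInstance, inferInstance, inferInstance, hloc, ?_,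
    IsScalarTower.toAlgHom O V V', hV', fun x hx => map_nonunit (algebraMap V V') x hx⟩
  refine (injective_iff_map_eq_zero _).mpr fun y hy => ?_
  by_contra hy0
  obtain ⟨ϖ, hϖ⟩ := IsDiscreteValuationRing.exists_irreducible O'
  obtain ⟨k, u, rfl⟩ := IsDiscreteValuationRing.eq_unit_mul_pow_irreducible hy0 hϖ
  rw [map_mul, map_pow] at hy
  have hϖ0 : algebraMap O' V' ϖ = 0 :=
    eq_zero_of_pow_eq_zero ((mul_eq_zero.mp hy).resolve_left (u.isUnit.map _).ne_zero)
  rw [hϖ.maximalIdeal_eq, Ideal.mem_span_singleton] at hpO'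
  obtain ⟨w, hw⟩ := hpO'
  have := congrArg (algebraMap O' V') hw
  rw [map_natCast, map_mul, hϖ0, zero_mul, Nat.cast_eq_zero] at this
  exact hp0 this

end Fermat.Agent.RT.LocalParam
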