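import Fermat.Agent.RT.LocalParam.Killed

/-!
# A prime over `p` containing all kernels, with `tr Φ ≠ ±(q + 1)` at a given twisted prime

The reduction of the product of charts, where at a Jordan prime `j₀` the annulus coordinates become
`R = t`, `L = 0`.
-/

set_option autoImplicit false

noncomputable section

namespace Fermat.Agent.RT.LocalParam

open IsLocalRing Matrix Fermat.Agent.RT.LocalRing

variable {J τ O : Type} [CommRing O] [IsLocalRing O] {p m : ℕ} {s : Setup J O p m}
  {pr : J → Prm O}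

/-- The reduced parameter ring. -/
abbrev Ombar (J τ O : Type) [CommRing O] [IsLocalRing O] : Type :=
  MvPowerSeries ((J × Fin 3) ⊕ τ) (ResidueField O)

variable (J τ O) in
/-- Reduction of the parameter ring. -/
def redOm : Om J τ O →ₐ[O] Ombar J τ O where
  toRingHom := MvPowerSeries.map (residue O)
  commutes' c := by simp [MvPowerSeries.algebraMap_apply]

theorem isAdicComplete_residueField :
    IsAdicComplete (maximalIdeal (ResidueField O)) (ResidueField O) := by
  rw [IsLocalRing.maximalIdeal_eq_bot]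
  infer_instance

theorem redOm_X (i : (J × Fin 3) ⊕ τ) : redOm J τ O (MvPowerSeries.X i) = MvPowerSeries.X i :=
  MvPowerSeries.map_X _ _

theorem algebraMap_ombar_eq_zero {c : O} (hc : c ∈ maximalIdeal O) :
    algebraMap O (Ombar J τ O) c = 0 := by
  rw [IsScalarTower.algebraMap_apply O (ResidueField O) (Ombar J τ O), ResidueField.algebraMap_eq,
    (residue_eq_zero_iff c).mpr hc, map_zero]

theorem algebraMap_ombar_eq_one {c : O} (hc : c - 1 ∈ maximalIdeal O) :
    algebraMap O (Ombar J τ O) c = 1 := by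
  rw [← sub_eq_zero, ← map_one (algebraMap O (Ombar J τ O)), ← map_sub]
  exact algebraMap_ombar_eq_zero hc

theorem isLocalHom_ombar : IsLocalHom (algebraMap O (Ombar J τ O)) :=
  ⟨fun c hc => by
    rw [IsScalarTower.algebraMap_apply O (ResidueField O) (Ombar J τ O), ResidueField.algebraMap_eq,
      MvPowerSeries.algebraMap_apply, MvPowerSeries.isUnit_iff_constantCoeff,
      MvPowerSeries.constantCoeff_C, Algebra.algebraMap_self, RingHom.id_apply] at hc
    exact isUnit_of_map_unit (residue O) c hc⟩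

variable (τ) in
/-- The family with the degenerate chart at `j₀` and the reduced charts elsewhere. -/
def zeroCfg [DecidableEq J] (s : Setup J O p m) (j₀ : J) {A : Type} [CommRing A] [Algebra O A]
    (X : (J × Fin 3) ⊕ τ → A) : Cfg J τ A :=
  (fun j => if j = j₀ then chartZero s j (X (Sum.inl (j, 0))) (X (Sum.inl (j, 1))) (X (Sum.inl (j, 2)))
      else chart s (Prm.triv O) j (X (Sum.inl (j, 0))) (X (Sum.inl (j, 1))) (X (Sum.inl (j, 2))),
    fun t => X (Sum.inr t))

/-- Modulo `p` all constants are the degenerate ones. -/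
theorem chart_ombar (pr₁ : Prm O) (hpr : pr₁.Small) (j : J) (u t₁ t₂ : Ombar J τ O) :
    chart s pr₁ j u t₁ t₂ = chart s (Prm.triv O) j u t₁ t₂ := by
  obtain ⟨h1, h2, h3, h4, h5⟩ := hpr
  rcases hk : s.kind j with ε | ε | ⟨β, y₀⟩ | β <;>
    simp only [chart, hk, Prm.triv, algebraMap_ombar_eq_one h1, algebraMap_ombar_eq_one h2,
      algebraMap_ombar_eq_zero h3, algebraMap_ombar_eq_zero h4, algebraMap_ombar_eq_zero h5,
      map_one, map_zero]

variable [IsAdicComplete (maximalIdeal O) O] [Finite J] [Finite τ] [DecidableEq J]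

variable (τ) in
theorem exists_zeroHom (hpO : (p : O) ∈ maximalIdeal O) (s : Setup J O p m) (j₀ : J) :
    ∃ F : PSR J τ O →ₐ[O] Ombar J τ O,
      ∀ i, F (MvPowerSeries.X i) = coordsC s.cen (zeroCfg τ s j₀ MvPowerSeries.X) i := by
  have := isAdicComplete_residueField (O := O)
  have := mvPowerSeries_isAdicComplete (O := ResidueField O) (σ := (J × Fin 3) ⊕ τ)
  have := isLocalHom_ombar (J := J) (τ := τ) (O := O)
  refine exists_hom s (fun j => ?_) fun t => X_mem _
  by_cases hj : j = j₀
  · simp only [zeroCfg, hj, if_true]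
    exact near_chartZero s hpO j₀ (X_mem _) (X_mem _) (X_mem _)
  · simp only [zeroCfg, hj, if_false]
    exact near_chart s hpO Prm.small_triv j (X_mem _) (X_mem _) (X_mem _)

variable (τ) in
/-- The degenerate reduced parametrisation. -/
def zeroHom (hpO : (p : O) ∈ maximalIdeal O) (s : Setup J O p m) (j₀ : J) :
    PSR J τ O →ₐ[O] Ombar J τ O :=
  (exists_zeroHom τ hpO s j₀).choose

variable (τ) in
/-- The prime over `p` attached to `j₀`. -/
def zeroPrime (hpO : (p : O) ∈ maximalIdeal O) (s : Setup J O p m) (j₀ : J) :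
    Ideal (PSR J τ O) :=
  RingHom.ker (zeroHom τ hpO s j₀)

theorem isPrime_zeroPrime (hpO : (p : O) ∈ maximalIdeal O) (j₀ : J) :
    (zeroPrime τ hpO s j₀).IsPrime :=
  have := isDomain_series (V := ResidueField O) (σ := (J × Fin 3) ⊕ τ)
  RingHom.ker_isPrime _

theorem map_maximalIdeal_le_zeroPrime (hpO : (p : O) ∈ maximalIdeal O) (j₀ : J) :
    (maximalIdeal O).map (algebraMap O (PSR J τ O)) ≤ zeroPrime τ hpO s j₀ := by
  refine Ideal.map_le_iff_le_comap.mpr fun c hc => ?_
  rw [Ideal.mem_comap, zeroPrime, RingHom.mem_ker, AlgHom.commutes, algebraMap_ombar_eq_zero hc]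

theorem natCast_mem_zeroPrime (hpO : (p : O) ∈ maximalIdeal O) (j₀ : J) :
    (p : PSR J τ O) ∈ zeroPrime τ hpO s j₀ := by
  rw [← map_natCast (algebraMap O (PSR J τ O))]
  exact map_maximalIdeal_le_zeroPrime hpO j₀ (Ideal.mem_map_of_mem _ hpO)

/-- Two local presentations with the same coordinates agree. -/
theorem eq_zero_of_cfg_eq (hpO : (p : O) ∈ maximalIdeal O) {j₀ : J} {B : Type} [CommRing B]
    [Algebra O B] {xB : Cfg J τ B} {H : PSR J τ O →ₐ[O] B}
    (hH : ∀ i, H (MvPowerSeries.X i) = coordsC s.cen xB i) {E : B →ₐ[O] Ombar J τ O}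
    (hE : mapCfg E xB = zeroCfg τ s j₀ MvPowerSeries.X) {f : PSR J τ O} (hf : E (H f) = 0) :
    f ∈ zeroPrime τ hpO s j₀ := by
  have := isAdicComplete_residueField (O := O)
  have := mvPowerSeries_isAdicComplete (O := ResidueField O) (σ := (J × Fin 3) ⊕ τ)
  have := isLocalHom_ombar (J := J) (τ := τ) (O := O)
  have hX := (exists_zeroHom τ hpO s j₀).choose_spec
  have e : zeroHom τ hpO s j₀ = E.comp H := by
    refine algHom_ext_X (fun i => ?_) fun i => ?_
    · rw [zeroHom, hX]
      refine coordsC_mem (fun j => ?_) (fun t => X_mem _) i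
      by_cases hj : j = j₀
      · simp only [zeroCfg, hj, if_true]
        exact near_chartZero s hpO j₀ (X_mem _) (X_mem _) (X_mem _)
      · simp only [zeroCfg, hj, if_false]
        exact near_chart s hpO Prm.small_triv j (X_mem _) (X_mem _) (X_mem _)
    · rw [zeroHom, hX, AlgHom.comp_apply, hH, map_coordsC, hE]
  rw [zeroPrime, RingHom.mem_ker, e, AlgHom.comp_apply, hf]

omit [Finite J] [Finite τ] [IsAdicComplete (maximalIdeal O) O] [DecidableEq J] in
theorem red_chart (h : Admissible s pr) (j : J) :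
    (((omCfg (τ := τ) s pr).1 j).1.map (redOm J τ O),
      ((omCfg (τ := τ) s pr).1 j).2.map (redOm J τ O)) =
      chart s (Prm.triv O) j (MvPowerSeries.X (Sum.inl (j, 0))) (MvPowerSeries.X (Sum.inl (j, 1)))
        (MvPowerSeries.X (Sum.inl (j, 2))) := by
  have := isLocalHom_series (O := O) (V := O) (σ := (J × Fin 3) ⊕ τ)
  refine (map_chart h (redOm J τ O) j _ (X_mem _) (X_mem _)).trans ?_
  rw [chart_ombar _ (h.small j), redOm_X, redOm_X, redOm_X]

/-- At a prime with scalar residual Frobenius the degenerate family is the reduction of the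
universal one. -/
theorem chartKer_le_of_scalar (h : Admissible s pr) {j₀ : J} {ε₀ : O}
    (hk : s.kind j₀ = .scalar ε₀) : chartKer τ h ≤ zeroPrime τ h.prime_mem s j₀ := by
  intro f hf
  refine eq_zero_of_cfg_eq h.prime_mem (omHom_X h) (E := redOm J τ O) ?_
    (by rw [RingHom.mem_ker.mp hf, map_zero])
  refine Prod.ext (funext fun j => ?_) (funext fun t => redOm_X _)
  refine (red_chart h j).trans ?_
  by_cases hj : j = j₀
  · subst hj
    simp only [zeroCfg, if_true, chartZero, hk]
  · simp only [zeroCfg, hj, if_false]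

omit [DecidableEq J] in
/-- Two presentations with the same local coordinates agree. -/
theorem hom_apply_eq {D : Type} [CommRing D] [IsLocalRing D] [IsAdicComplete (maximalIdeal D) D]
    [Algebra O D] {cen : J → Mat O × Mat O} {B₁ B₂ : Type} [CommRing B₁] [Algebra O B₁]
    [CommRing B₂] [Algebra O B₂] {x₁ : Cfg J τ B₁} {x₂ : Cfg J τ B₂} {x : Cfg J τ D}
    (hn : ∀ j, Near (cen j) (x.1 j)) (ht : ∀ t, x.2 t ∈ maximalIdeal D)
    {H₁ : PSR J τ O →ₐ[O] B₁} {H₂ : PSR J τ O →ₐ[O] B₂}
    (h₁ : ∀ i, H₁ (MvPowerSeries.X i) = coordsC cen x₁ i)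
    (h₂ : ∀ i, H₂ (MvPowerSeries.X i) = coordsC cen x₂ i)
    {E₁ : B₁ →ₐ[O] D} {E₂ : B₂ →ₐ[O] D} (e₁ : mapCfg E₁ x₁ = x) (e₂ : mapCfg E₂ x₂ = x)
    (f : PSR J τ O) : E₁ (H₁ f) = E₂ (H₂ f) := by
  have e : E₁.comp H₁ = E₂.comp H₂ := by
    refine algHom_ext_X (fun i => ?_) fun i => ?_
    · rw [AlgHom.comp_apply, h₁, map_coordsC, e₁]
      exact coordsC_mem hn ht i
    · rw [AlgHom.comp_apply, AlgHom.comp_apply, h₁, h₂, map_coordsC, map_coordsC, e₁, e₂]
  exact AlgHom.congr_fun e f

section Annulus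

variable {C : Type} [CommRing C] [IsLocalRing C] [Algebra O C] [IsLocalHom (algebraMap O C)]

/-- A family over `C⟦R, L⟧` with annulus coordinates `(u, y, R, L)` at `j₀`. -/
def annCfg (s : Setup J O p m) (pr : J → Prm O) (j₀ : J) (ε₀ : O) (x : Cfg J τ C) (u y : C) :
    Cfg J τ (MvPowerSeries (Fin 2) C) :=
  (Function.update (fun i => ((x.1 i).1.map (algebraMap C (MvPowerSeries (Fin 2) C)),
      (x.1 i).2.map (algebraMap C (MvPowerSeries (Fin 2) C)))) j₀
    (jordanPair (algebraMap O _ ε₀) (s.n j₀ : MvPowerSeries (Fin 2) C)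
      (algebraMap O _ (pr j₀).z) (algebraMap O _ (pr j₀).z') (algebraMap O _ (pr j₀).c)
      (algebraMap C _ u) (algebraMap C _ y) (MvPowerSeries.X 0) (MvPowerSeries.X 1)),
    fun t => algebraMap C _ (x.2 t))

omit [IsAdicComplete (maximalIdeal O) O] [Finite J] [Finite τ] in
theorem near_annCfg (h : Admissible s pr) {j₀ : J} {ε₀ : O} (hk : s.kind j₀ = .jordan ε₀)
    {x : Cfg J τ C} (hx : ∀ i, Near (s.cen i) (x.1 i)) {u y : C} (hu : u ∈ maximalIdeal C)
    (hy : y ∈ maximalIdeal C) (i : J) : Near (s.cen i) ((annCfg s pr j₀ ε₀ x u y).1 i) := by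
  have := isLocalHom_series (O := O) (V := C) (σ := Fin 2)
  by_cases hi : i = j₀
  · subst hi
    simp only [annCfg, Function.update_self]
    refine near_jordanPair (by rw [Setup.cen, hk]; rfl)
      (n_sub_one_mem s h.prime_mem (by rw [hk]; rfl)) ?_ ?_ (C_mem hu) (C_mem hy) (X_mem 0)
      (X_mem 1)
    · rw [← map_one (algebraMap O (MvPowerSeries (Fin 2) C)), ← map_sub]
      exact algebraMap_mem (h.small i).1
    · rw [← map_one (algebraMap O (MvPowerSeries (Fin 2) C)), ← map_sub]
      exact algebraMap_mem (h.small i).2.1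
  · simp only [annCfg, Function.update_of_ne hi]
    exact (hx i).map (IsScalarTower.toAlgHom O C _) fun v hv => C_mem hv

omit [IsAdicComplete (maximalIdeal O) O] [Finite J] [Finite τ] in
theorem map_annCfg (h : Admissible s pr) {j₀ : J} {ε₀ : O} {x : Cfg J τ C} {u y : C}
    {D : Type} [CommRing D] [Algebra O D] [Algebra C D] [IsScalarTower O C D]
    (E : MvPowerSeries (Fin 2) C →ₐ[C] D) :
    mapCfg (E.restrictScalars O) (annCfg s pr j₀ ε₀ x u y) =
      (Function.update (fun i => ((x.1 i).1.map (algebraMap C D), (x.1 i).2.map (algebraMap C D))) j₀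
        (jordanPair (algebraMap O D ε₀) (s.n j₀ : D) (algebraMap O D (pr j₀).z)
          (algebraMap O D (pr j₀).z') (algebraMap O D (pr j₀).c) (algebraMap C D u)
          (algebraMap C D y) (E (MvPowerSeries.X 0)) (E (MvPowerSeries.X 1))),
        fun t => algebraMap C D (x.2 t)) := by
  have := isLocalHom_series (O := O) (V := C) (σ := Fin 2)
  have h2B : IsUnit (2 : MvPowerSeries (Fin 2) C) := by
    have := h.two.map (algebraMap O (MvPowerSeries (Fin 2) C))
    rwa [map_ofNat] at this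
  refine Prod.ext (funext fun i => ?_) (funext fun t => E.commutes _)
  by_cases hi : i = j₀
  · subst hi
    simp only [mapCfg, annCfg, Function.update_self]
    show mapPair (E : MvPowerSeries (Fin 2) C →+* D) _ = _
    rw [mapPair_jordanPair _ _ _ _ _ _ _ _ _ _ (isUnit_one_add (X_mem 0)) ?_]
    · simp only [RingHom.coe_coe, AlgHom.commutes, map_natCast,
        IsScalarTower.algebraMap_apply O C (MvPowerSeries (Fin 2) C)]
      simp only [← IsScalarTower.algebraMap_apply O C D]
    · rw [add_sub_assoc]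
      exact isUnit_two_add h2B (sub_mem (X_mem 0) (Ideal.mul_mem_left _ _ (X_mem 1)))
  · simp only [mapCfg, annCfg, Function.update_of_ne hi]
    refine Prod.ext ?_ ?_ <;> (ext k l; exact E.commutes _)

omit [IsAdicComplete (maximalIdeal O) O] [Finite J] [Finite τ] in
/-- Restriction to the circle gives the chart. -/
theorem map_annCfg_circle (h : Admissible s pr) {j₀ : J} {ε₀ : O}
    (hk : s.kind j₀ = .jordan ε₀) {x : Cfg J τ C} {u y : C}
    (Ev : MvPowerSeries (Fin 2) C →ₐ[C] MvPowerSeries Unit C)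
    (h0 : Ev (MvPowerSeries.X 0) = algebraMap C _ (algebraMap O C (pr j₀).ρ) *
      (1 + MvPowerSeries.X ()))
    (h1 : Ev (MvPowerSeries.X 1) = algebraMap C _ (algebraMap O C (pr j₀).σ) *
      Ring.inverse (1 + MvPowerSeries.X ())) :
    mapCfg (Ev.restrictScalars O) (annCfg s pr j₀ ε₀ x u y) =
      (Function.update (fun i => ((x.1 i).1.map (algebraMap C (MvPowerSeries Unit C)),
          (x.1 i).2.map (algebraMap C (MvPowerSeries Unit C)))) j₀
        (chart s (pr j₀) j₀ (algebraMap C _ u) (algebraMap C _ y) (MvPowerSeries.X ())),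
        fun t => algebraMap C _ (x.2 t)) := by
  rw [map_annCfg h Ev, h0, h1]
  simp only [chart, hk, ← IsScalarTower.algebraMap_apply O C (MvPowerSeries Unit C)]

end Annulus

/-- At a prime with residual Jordan block the annulus equation `R L = ρσ` degenerates to `L = 0`,
`R` free. -/
theorem chartKer_le_of_jordan [IsDomain O] (h : Admissible s pr) {j₀ : J} {ε₀ : O}
    (hk : s.kind j₀ = .jordan ε₀) : chartKer τ h ≤ zeroPrime τ h.prime_mem s j₀ := by
  have hg := h.good j₀ (by rw [hk]; rfl)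
  have hπ0 : (pr j₀).ρ * (pr j₀).σ ≠ 0 := hg.rad ▸ sub_ne_zero.mpr hg.z_ne
  intro f hf
  have := mvPowerSeries_isAdicComplete (O := O) (σ := (J × Fin 3) ⊕ τ)
  have := isDomain_series (V := O) (σ := (J × Fin 3) ⊕ τ)
  have := isLocalHom_series (O := O) (V := O) (σ := (J × Fin 3) ⊕ τ)
  have := mvPowerSeries_isAdicComplete (O := Om J τ O) (σ := Fin 2)
  have := mvPowerSeries_isAdicComplete (O := Om J τ O) (σ := Unit)
  have := isLocalHom_series (O := O) (V := Om J τ O) (σ := Unit)
  set x := omCfg (τ := τ) s pr with hx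
  set u : Om J τ O := MvPowerSeries.X (Sum.inl (j₀, 0)) with hu
  set y : Om J τ O := MvPowerSeries.X (Sum.inl (j₀, 1)) with hy
  obtain ⟨H, hH⟩ := exists_hom s
    (near_annCfg (u := u) (y := y) h hk (near_omCfg (τ := τ) h) (X_mem _) (X_mem _))
    fun t => C_mem (X_mem _)
  set ρ := algebraMap O (Om J τ O) (pr j₀).ρ with hρdef
  set σ := algebraMap O (Om J τ O) (pr j₀).σ with hσdef
  have hρm : ρ ∈ maximalIdeal (Om J τ O) := algebraMap_mem (h.small j₀).2.2.2.1
  have hσm : σ ∈ maximalIdeal (Om J τ O) := algebraMap_mem (h.small j₀).2.2.2.2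
  have hne : ∀ {c : O}, c ≠ 0 → algebraMap O (Om J τ O) c ≠ 0 := fun hc e => hc (by
    simpa [MvPowerSeries.algebraMap_apply] using congrArg MvPowerSeries.constantCoeff e)
  obtain ⟨Ev, hEv⟩ := exists_eval (L := Om J τ O) (R := MvPowerSeries Unit (Om J τ O))
    (σ := Fin 2)
    ![algebraMap (Om J τ O) _ ρ * (1 + MvPowerSeries.X ()),
      algebraMap (Om J τ O) _ σ * Ring.inverse (1 + MvPowerSeries.X ())]
    (fun i => by fin_cases i <;> exact Ideal.mul_mem_right _ _ (C_mem (by assumption)))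
  let g : (J × Fin 3) ⊕ τ → MvPowerSeries Unit (Om J τ O) :=
    Sum.elim (fun q => if q = (j₀, 2) then MvPowerSeries.X () else
        algebraMap (Om J τ O) _ (MvPowerSeries.X (Sum.inl q)))
      (fun t => algebraMap (Om J τ O) _ (MvPowerSeries.X (Sum.inr t)))
  have hgm : ∀ i, g i ∈ maximalIdeal _ := by
    rintro (q | t)
    · by_cases hi : q = (j₀, 2)
      · simp only [g, Sum.elim_inl, hi, if_true]; exact X_mem _
      · simp only [g, Sum.elim_inl, hi, if_false]; exact C_mem (X_mem _)
    · exact C_mem (X_mem _)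
  obtain ⟨ι, hι⟩ := exists_eval (L := O) (R := MvPowerSeries Unit (Om J τ O)) g hgm
  have eι : mapCfg ι x = (fun j => chart s (pr j) j (g (Sum.inl (j, 0))) (g (Sum.inl (j, 1)))
      (g (Sum.inl (j, 2))), fun t => g (Sum.inr t)) := by
    refine Prod.ext (funext fun j => ?_) (funext fun t => hι _)
    refine (map_chart h ι j _ (X_mem _) (X_mem _)).trans ?_
    rw [hι, hι, hι]
  have eEv : mapCfg (Ev.restrictScalars O) (annCfg s pr j₀ ε₀ x u y) = mapCfg ι x := by
    rw [eι, map_annCfg_circle h hk Ev (hEv 0) (hEv 1)]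
    refine Prod.ext (funext fun j => ?_) rfl
    by_cases hj : j = j₀
    · subst hj
      simp [g, hu, hy, Function.update_self]
    · simp only [Function.update_of_ne hj]
      refine (map_chart h (IsScalarTower.toAlgHom O (Om J τ O) (MvPowerSeries Unit (Om J τ O))) j _
        (X_mem _) (X_mem _)).trans ?_
      simp [g, hj]
  have hcirc : Ev (H f) = 0 := by
    have := hom_apply_eq (cen := s.cen) (x := mapCfg ι x)
      (fun j => by rw [eι]; exact near_chart s h.prime_mem (h.small j) j (hgm _) (hgm _) (hgm _))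
      (fun t => by rw [eι]; exact hgm (Sum.inr t)) hH (omHom_X h) eEv rfl f
    rwa [RingHom.mem_ker.mp hf, map_zero] at this
  obtain ⟨G, hG⟩ := mem_of_circle hρm hσm (hne (left_ne_zero_of_mul hπ0))
    (hne (right_ne_zero_of_mul hπ0)) (H f) Ev (hEv 0) (hEv 1) hcirc
  obtain ⟨E₂, hE₂⟩ := exists_eval (L := Om J τ O) (R := Om J τ O) (σ := Fin 2)
    ![MvPowerSeries.X (Sum.inl (j₀, 2)), 0]
    (fun i => by fin_cases i <;> first | exact X_mem _ | exact zero_mem _)
  refine eq_zero_of_cfg_eq h.prime_mem hH (E := (redOm J τ O).comp (E₂.restrictScalars O)) ?_ ?_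
  · rw [← mapCfg_comp, map_annCfg h E₂]
    refine Prod.ext (funext fun j => ?_) (funext fun t => redOm_X _)
    by_cases hj : j = j₀
    · subst hj
      simp only [mapCfg, Function.update_self, zeroCfg, if_true, chartZero, hk]
      show mapPair (redOm J τ O : Om J τ O →+* Ombar J τ O) _ = _
      have h2 : IsUnit (2 : Om J τ O) := by
        have := h.two.map (algebraMap O (Om J τ O))
        rwa [map_ofNat] at this
      rw [hE₂, hE₂, mapPair_jordanPair _ _ _ _ _ _ _ _ _ _ (isUnit_one_add (X_mem _)) ?_]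
      · simp [redOm_X, hu, hy, algebraMap_ombar_eq_one (h.small j).1,
          algebraMap_ombar_eq_one (h.small j).2.1, algebraMap_ombar_eq_zero (h.small j).2.2.1]
      · simpa using isUnit_two_add h2 (X_mem _)
    · simp only [mapCfg, Function.update_of_ne hj, zeroCfg, hj, if_false]
      refine Eq.trans ?_ (red_chart h j)
      refine Prod.ext ?_ ?_ <;> (ext k l; rfl)
  · rw [hG, AlgHom.comp_apply, AlgHom.restrictScalars_apply, map_mul E₂, map_sub E₂, map_mul E₂,
      hE₂, hE₂, show E₂ (MvPowerSeries.C (ρ * σ)) = ρ * σ from E₂.commutes _]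
    simp [hρdef, algebraMap_ombar_eq_zero (h.small j₀).2.2.2.1]

theorem chartKer_le_zeroPrime [IsDomain O] (h : Admissible s pr) {j₀ : J}
    (hj : (s.kind j₀).isTwisted = true) : chartKer τ h ≤ zeroPrime τ h.prime_mem s j₀ := by
  rcases hk : s.kind j₀ with ε | ε | ⟨β, y₀⟩ | β
  · exact chartKer_le_of_scalar h hk
  · exact chartKer_le_of_jordan h hk
  · simp [hk, Kind.isTwisted] at hj
  · simp [hk, Kind.isTwisted] at hj

/-- `tr Φ ≠ ± (q + 1)` at `j₀` on this prime. -/
theorem fAt_notMem_zeroPrime (hpO : (p : O) ∈ maximalIdeal O) (h2 : IsUnit (2 : O)) {j₀ : J}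
    (hj : (s.kind j₀).isTwisted = true) :
    fAt s (MvPowerSeries.X : Idx J τ → PSR J τ O) j₀ ∉ zeroPrime τ hpO s j₀ := by
  have := isAdicComplete_residueField (O := O)
  have := mvPowerSeries_isAdicComplete (O := ResidueField O) (σ := (J × Fin 3) ⊕ τ)
  have := isLocalHom_ombar (J := J) (τ := τ) (O := O)
  have := isDomain_series (V := ResidueField O) (σ := (J × Fin 3) ⊕ τ)
  set F := zeroHom τ hpO s j₀
  have hX : ∀ i, F (MvPowerSeries.X i) = coordsC s.cen (zeroCfg τ s j₀ MvPowerSeries.X) i :=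
    (exists_zeroHom τ hpO s j₀).choose_spec
  obtain ⟨ε, a, t, ht, hε, hphi⟩ : ∃ ε a t : Ombar J τ O, (∃ i, t = MvPowerSeries.X i) ∧
      ε * ε = 1 ∧ ((zeroCfg τ s j₀ (MvPowerSeries.X (R := ResidueField O))).1 j₀).1.trace =
        ε * (1 + t) + ε * a * Ring.inverse (1 + t) ∧ a = (s.n j₀ : Ombar J τ O) := by
    rcases hk : s.kind j₀ with ε | ε | ⟨β, y₀⟩ | β
    · refine ⟨_, _, _, ⟨Sum.inl (j₀, 1), rfl⟩, eps_sq_of_kind s (Or.inl hk), ?_, rfl⟩
      simp only [zeroCfg, if_true, chartZero, chart, hk, scalarPair, up, trace_cj, trace_upT]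
    · refine ⟨_, _, _, ⟨Sum.inl (j₀, 2), rfl⟩, eps_sq_of_kind s (Or.inr hk), ?_, rfl⟩
      simp only [zeroCfg, if_true, chartZero, hk, jordanPair, up, trace_cj, trace_upT]
    · simp [hk, Kind.isTwisted] at hj
    · simp [hk, Kind.isTwisted] at hj
  obtain ⟨htr, rfl⟩ := hphi
  obtain ⟨i, rfl⟩ := ht
  have hn : (s.n j₀ : Ombar J τ O) = 1 := by
    obtain ⟨-, h1, ⟨k, hk⟩⟩ := s.twisted j₀ hj
    rw [show s.n j₀ = p * k + 1 by omega]
    have := algebraMap_ombar_eq_zero (J := J) (τ := τ) hpO
    rw [map_natCast] at this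
    push_cast
    rw [this, zero_mul, zero_add]
  intro hmem
  rw [zeroPrime, RingHom.mem_ker] at hmem
  have hF : F (fAt s (MvPowerSeries.X : Idx J τ → PSR J τ O) j₀) =
      ((zeroCfg τ s j₀ (MvPowerSeries.X (R := ResidueField O))).1 j₀).1.trace ^ 2 -
        ((s.n j₀ : Ombar J τ O) + 1) ^ 2 := by
    rw [fAt, map_sub, map_pow, map_pow, map_add, map_natCast, map_one]
    congr 2
    have e : (phiAt s (MvPowerSeries.X : Idx J τ → PSR J τ O) j₀).map F =
        ((zeroCfg τ s j₀ (MvPowerSeries.X (R := ResidueField O))).1 j₀).1 := by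
      have e1 := mapCfg_cfgC F s.cen (MvPowerSeries.X : Idx J τ → PSR J τ O)
      rw [show F ∘ MvPowerSeries.X = coordsC s.cen (zeroCfg τ s j₀ MvPowerSeries.X) from funext hX,
        cfgC_coordsC] at e1
      exact congrArg (fun x : Cfg J τ _ => (x.1 j₀).1) e1
    rw [← e]
    exact AddMonoidHom.map_trace F.toRingHom.toAddMonoidHom _
  rw [hF, htr, hn, mul_one] at hmem
  set X : Ombar J τ O := MvPowerSeries.X i with hXdef
  have hu := isUnit_one_add (show X ∈ maximalIdeal _ from X_mem i)
  have hprod : X * X * ((2 + X) * (2 + X)) = 0 := by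
    linear_combination (1 + X) ^ 2 * hmem -
      ((1 + X) ^ 2 + 1) ^ 2 * hε +
      (-(ε ^ 2 * (2 * (1 + X) ^ 2 + (1 + X) * Ring.inverse (1 + X) + 1))) *
        Ring.mul_inverse_cancel _ hu
  have h2' : IsUnit (2 + X) := by
    refine isUnit_two_add ?_ (X_mem i)
    have := h2.map (algebraMap O (Ombar J τ O))
    rwa [map_ofNat] at this
  rcases mul_eq_zero.mp hprod with h0 | h0
  · have hX0 : X ≠ 0 := fun e => by
      have := congrArg (MvPowerSeries.coeff (Finsupp.single i 1)) e
      simp [hXdef, MvPowerSeries.coeff_X] at this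
    exact hX0 ((mul_eq_zero.mp h0).elim id id)
  · exact (h2'.mul h2').ne_zero h0

end Fermat.Agent.RT.LocalParam
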