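import Fermat.Agent.RT.LocalParam.Coords
import Fermat.Prelude.Sol.S_IsLocalRing_isAdicComplete_of_module_finite
import Mathlib.LinearAlgebra.Matrix.CharP
import Mathlib.Algebra.CharP.Lemmas
import Mathlib.RingTheory.Finiteness.Basic

/-!
# Quotients by the kernels are finite over `3|J| + |τ|` variables

Every prime containing the relations, `𝔪_O` and three explicit linear forms at each prime contains
all variables.
-/

set_option autoImplicit false

noncomputable section

namespace Fermat.Agent.RT.LocalParam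

open IsLocalRing Matrix Fermat.Agent.RT.LocalRing Fermat.Agent.Deformation

section Nakayama

/-- Complete Nakayama: a local algebra with the same residue field, whose maximal ideal has a
power generated by the base, is a finite module. -/
theorem finite_of_pow_le {A D : Type*} [CommRing A] [IsLocalRing A]
    [IsPrecomplete (maximalIdeal A) A] [CommRing D] [IsLocalRing D] [IsNoetherianRing D]
    [Algebra A D] (hres : ∀ x : D, ∃ c : A, x - algebraMap A D c ∈ maximalIdeal D)
    (hle : (maximalIdeal A).map (algebraMap A D) ≤ maximalIdeal D) {N : ℕ}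
    (hN : maximalIdeal D ^ N ≤ (maximalIdeal A).map (algebraMap A D)) : Module.Finite A D := by
  classical
  have hgen : ∀ k : ℕ, ∃ s : Finset D, ∀ x : D,
      ∃ y ∈ Submodule.span A (s : Set D), x - y ∈ maximalIdeal D ^ k := by
    intro k
    induction k with
    | zero => exact ⟨∅, fun x => ⟨0, zero_mem _, by simp⟩⟩
    | succ k ih =>
      obtain ⟨s, hs⟩ := ih
      obtain ⟨t, ht⟩ := IsNoetherian.noetherian (maximalIdeal D ^ k)
      refine ⟨s ∪ t, fun x => ?_⟩
      obtain ⟨y, hy, hxy⟩ := hs x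
      have hsub : ∀ z ∈ maximalIdeal D ^ k, ∃ y ∈ Submodule.span A (t : Set D),
          z - y ∈ maximalIdeal D ^ (k + 1) := by
        intro z hz
        rw [← ht] at hz
        induction hz using Submodule.span_induction with
        | mem z hz => exact ⟨z, Submodule.subset_span hz, by simp⟩
        | zero => exact ⟨0, zero_mem _, by simp⟩
        | add a b _ _ ha hb =>
          obtain ⟨ya, hya, ha⟩ := ha
          obtain ⟨yb, hyb, hb⟩ := hb
          exact ⟨ya + yb, add_mem hya hyb, by rw [add_sub_add_comm]; exact add_mem ha hb⟩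
        | smul a z hz ih =>
          obtain ⟨yz, hyz, hz'⟩ := ih
          obtain ⟨c, hc⟩ := hres a
          refine ⟨c • yz, Submodule.smul_mem _ c hyz, ?_⟩
          have hzk : z ∈ maximalIdeal D ^ k := ht ▸ hz
          have e : a • z - c • yz = (a - algebraMap A D c) * z + algebraMap A D c * (z - yz) := by
            rw [smul_eq_mul, Algebra.smul_def]; ring
          rw [e]
          exact add_mem (pow_succ' (maximalIdeal D) k ▸ Ideal.mul_mem_mul hc hzk)
            (Ideal.mul_mem_left _ _ hz')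
      obtain ⟨y', hy', hxy'⟩ := hsub _ hxy
      refine ⟨y + y', add_mem (Submodule.span_mono (by simp) hy)
        (Submodule.span_mono (by simp) hy'), ?_⟩
      rwa [← sub_sub]
  obtain ⟨s, hs⟩ := hgen N
  have : IsHausdorff (maximalIdeal A) D :=
    IsHausdorff.map_algebraMap_iff (S := D).mp
      (IsHausdorff.of_isLocalRing _ D (ne_top_of_le_ne_top (maximalIdeal.isMaximal D).ne_top hle))
  let l : (s → A) →ₗ[A] D := Fintype.linearCombination A (fun i : s => (i : D))
  have hl : Function.Surjective ((Submodule.mkQ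
      (maximalIdeal A • (⊤ : Submodule A D))).comp l) := by
    intro q
    obtain ⟨x, rfl⟩ := Submodule.mkQ_surjective _ q
    obtain ⟨y, hy, hxy⟩ := hs x
    have : y ∈ LinearMap.range l := by
      rw [Fintype.range_linearCombination]
      simpa using hy
    obtain ⟨v, rfl⟩ := this
    refine ⟨v, ?_⟩
    rw [LinearMap.comp_apply, Submodule.mkQ_apply, Submodule.mkQ_apply, eq_comm,
      Submodule.Quotient.eq, Ideal.smul_top_eq_map, Submodule.restrictScalars_mem]
    exact hN hxy
  have : IsPrecomplete (maximalIdeal A) (s → A) :=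
    P2MW.S_IsLocalRing_isAdicComplete_of_module_finite.M4cP1X1.isPrecomplete_of_module_finite _
  exact Module.Finite.of_surjective l (surjective_of_mkQ_comp_surjective (I := maximalIdeal A) hl)

end Nakayama

variable {J τ O : Type} [CommRing O] [IsLocalRing O] {p m : ℕ} {s : Setup J O p m}
  {B C : Type} [CommRing B] [CommRing C] [Algebra O B] [Algebra O C]

/-- The relations used for finiteness. -/
def Core (s : Setup J O p m) (v : Idx J τ → B) : Prop :=
  ∀ j, phiAt s v j * sigAt s v j = sigAt s v j ^ s.n j * phiAt s v j ∧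
    (phiAt s v j).det = (s.n j : B) ∧ (sigAt s v j).det = 1 ∧
    ((s.kind j).isTwisted = true → sigAt s v j ^ p ^ m = 1) ∧
    ((s.kind j).isTwisted = false → (sigAt s v j).trace = 2) ∧
    ∀ β, s.kind j = .special β → (phiAt s v j).trace = algebraMap O B β * ((s.n j : B) + 1)

theorem map_phiAt (f : B →ₐ[O] C) (v : Idx J τ → B) (j : J) :
    f.toRingHom.mapMatrix (phiAt s v j) = phiAt s (f ∘ v) j := by
  ext a b; simp [phiAt]

theorem map_sigAt (f : B →ₐ[O] C) (v : Idx J τ → B) (j : J) :
    f.toRingHom.mapMatrix (sigAt s v j) = sigAt s (f ∘ v) j := by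
  ext a b; simp [sigAt]

theorem Core.map {v : Idx J τ → B} (h : Core s v) (f : B →ₐ[O] C) : Core s (f ∘ v) := by
  intro j
  obtain ⟨h1, h2, h3, h4, h5, h6⟩ := h j
  rw [← map_phiAt, ← map_sigAt]
  refine ⟨?_, ?_, ?_, fun ht => ?_, fun ht => ?_, fun β hβ => ?_⟩
  · rw [← map_mul, h1, map_mul, map_pow]
  · rw [← RingHom.map_det, h2, map_natCast]
  · rw [← RingHom.map_det, h3, map_one]
  · rw [← map_pow, h4 ht, map_one]
  · refine (AddMonoidHom.map_trace f.toRingHom.toAddMonoidHom _).symm.trans ?_
    exact (congrArg f (h5 ht)).trans (map_ofNat f 2)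
  · refine (AddMonoidHom.map_trace f.toRingHom.toAddMonoidHom _).symm.trans ?_
    exact (congrArg f (h6 β hβ)).trans (by simp)

theorem Core.of_injective {v : Idx J τ → B} (f : B →ₐ[O] C) (hf : Function.Injective f)
    (h : Core s (f ∘ v)) : Core s v := by
  intro j
  obtain ⟨h1, h2, h3, h4, h5, h6⟩ := h j
  simp only [← map_phiAt, ← map_sigAt] at h1 h2 h3 h4 h5 h6
  have hinj : Function.Injective (f.toRingHom.mapMatrix : Mat B →+* Mat C) := fun M N e =>
    Matrix.ext fun a b => hf (congrFun (congrFun e a) b)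
  refine ⟨hinj ?_, hf ?_, hf ?_, fun ht => hinj ?_, fun ht => hf ?_, fun β hβ => hf ?_⟩
  · rw [map_mul, h1, map_mul, map_pow]
  · rw [map_natCast]; exact (RingHom.map_det f.toRingHom _).trans h2
  · rw [map_one]; exact (RingHom.map_det f.toRingHom _).trans h3
  · rw [map_pow, h4 ht, map_one]
  · rw [map_ofNat]
    exact (AddMonoidHom.map_trace f.toRingHom.toAddMonoidHom _).trans (h5 ht)
  · rw [map_mul, map_add, map_natCast, map_one, AlgHom.commutes]
    exact (AddMonoidHom.map_trace f.toRingHom.toAddMonoidHom _).trans (h6 β hβ)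

theorem Core.map_comp {P : Type} [CommRing P] [Algebra O P] {v : Idx J τ → P} {g : P →ₐ[O] B}
    (h : Core s (g ∘ v)) (f : B →ₐ[O] C) : Core s (f.comp g ∘ v) :=
  h.map f

theorem Core.quotient_ker {P : Type} [CommRing P] [Algebra O P] {v : Idx J τ → P}
    (G : P →ₐ[O] C) (h : Core s (G ∘ v)) :
    Core s (Ideal.Quotient.mkₐ O (RingHom.ker G) ∘ v) := by
  refine Core.of_injective (Ideal.kerLiftAlg G) (Ideal.kerLiftAlg_injective G) ?_
  rw [show (⇑(Ideal.kerLiftAlg G) ∘ (⇑(Ideal.Quotient.mkₐ O (RingHom.ker G)) ∘ v)) = ⇑G ∘ v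
    from funext fun i => Ideal.kerLiftAlg_mk G (v i)]
  exact h

/-- The three linear forms at a prime, indexed by the entries `(Φ, Σ)`. -/
def lin (s : Setup J O p m) (v : Idx J τ → B) (j : J) : Fin 3 → B :=
  let f := fun a b => v (Sum.inl (j, false, a, b))
  let N := fun a b => v (Sum.inl (j, true, a, b))
  match s.kind j with
  | .scalar _ => ![f 0 0 - f 1 1, 2 * f 0 1 + 3 * N 0 1 - N 1 0, 2 * f 1 0 + 3 * N 1 0 - N 0 1]
  | .jordan _ => ![f 0 0 - f 1 1, f 0 1, f 1 0 + N 0 1]
  | .steinberg _ _ => ![N 0 0, N 0 1, f 0 1]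
  | .special _ => ![f 1 0, f 0 1, N 0 1]

section Field

variable {L : Type} [CommRing L] [IsDomain L]

/-- Nilpotent `N` commuting with `ε + f`, `det (ε + f) = 1`: the three forms cut out the origin. -/
theorem twisted_zero (h2 : (2 : L) ≠ 0) {ε : L} (hε : ε * ε = 1) {f N : Mat L}
    (hN : N 1 1 = -N 0 0) (hNd : N 0 0 * N 0 0 + N 0 1 * N 1 0 = 0) (hdiag : f 0 0 = f 1 1)
    (hu : f 0 0 + 2 * ε ≠ 0) {ν : L} (hcomm : (ε • (1 : Mat L) + !![0, ν; 0, 0] + f) * N =
      N * (ε • (1 : Mat L) + !![0, ν; 0, 0] + f))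
    (hdet : (ε • (1 : Mat L) + !![0, ν; 0, 0] + f).det = 1)
    (hforms : (ν = 0 ∧ 2 * f 0 1 + 3 * N 0 1 = N 1 0 ∧ 2 * f 1 0 + 3 * N 1 0 = N 0 1) ∨
      (ν = 1 ∧ f 0 1 = 0 ∧ f 1 0 + N 0 1 = 0)) : f = 0 ∧ N = 0 := by
  have e00 := congrFun (congrFun hcomm 0) 0
  have e01 := congrFun (congrFun hcomm 0) 1
  have e10 := congrFun (congrFun hcomm 1) 0
  simp [Matrix.mul_apply, Fin.sum_univ_two, Matrix.det_fin_two, hN, ← hdiag] at e00 e01 e10 hdet
  have hA : (ν + f 0 1) * N 1 0 = N 0 1 * f 1 0 := by linear_combination e00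
  have hB : (ν + f 0 1) * N 0 0 = 0 :=
    (mul_eq_zero.mp (show (2 : L) * ((ν + f 0 1) * N 0 0) = 0 by linear_combination -e01)
      ).resolve_left h2
  have hC : f 1 0 * N 0 0 = 0 :=
    (mul_eq_zero.mp (show (2 : L) * (f 1 0 * N 0 0) = 0 by linear_combination e10)).resolve_left h2
  have key : f 0 1 = 0 ∧ f 1 0 = 0 ∧ N 0 0 = 0 ∧ N 0 1 = 0 ∧ N 1 0 = 0 := by
    rcases hforms with ⟨rfl, hf1, hf2⟩ | ⟨rfl, hf1, hf2⟩
    · simp only [zero_add] at hA hB
      by_cases hN0 : N 0 0 = 0
      · rw [hN0, mul_zero, zero_add] at hNd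
        rcases mul_eq_zero.mp hNd with h | h
        · rw [h, zero_mul] at hA
          rw [h] at hf1 hf2
          have h01 : f 0 1 = 0 := by
            rcases mul_eq_zero.mp hA with h' | h'
            · exact h'
            · rw [h'] at hf1
              exact (mul_eq_zero.mp (show (2 : L) * f 0 1 = 0 by linear_combination hf1)
                ).resolve_left h2
          rw [h01] at hf1
          have h10 : N 1 0 = 0 := by linear_combination -hf1
          rw [h10] at hf2
          exact ⟨h01, (mul_eq_zero.mp (show (2 : L) * f 1 0 = 0 by linear_combination hf2)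
            ).resolve_left h2, hN0, h, h10⟩
        · rw [h, mul_zero] at hA
          rw [h] at hf1 hf2
          have h10 : f 1 0 = 0 := by
            rcases mul_eq_zero.mp hA.symm with h' | h'
            · rw [h'] at hf2
              exact (mul_eq_zero.mp (show (2 : L) * f 1 0 = 0 by linear_combination hf2)
                ).resolve_left h2
            · exact h'
          rw [h10] at hf2
          have h01 : N 0 1 = 0 := by linear_combination -hf2
          rw [h01] at hf1
          exact ⟨(mul_eq_zero.mp (show (2 : L) * f 0 1 = 0 by linear_combination hf1)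
            ).resolve_left h2, h10, hN0, h01, h⟩
      · exfalso
        have h01 := (mul_eq_zero.mp hB).resolve_right hN0
        have h10 := (mul_eq_zero.mp hC).resolve_right hN0
        rw [h01] at hf1
        rw [h10] at hf2
        have hn : N 0 1 = 0 := (mul_eq_zero.mp (show ((2 : L) * 2 * 2) * N 0 1 = 0 by
          linear_combination 3 * hf1 + hf2)).resolve_left (by simp [h2])
        exact hN0 (mul_self_eq_zero.mp (by linear_combination hNd - N 1 0 * hn))
    · rw [hf1, add_zero, one_mul] at hA hB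
      rw [hB, mul_zero, zero_add] at hNd
      have hn : N 0 1 = 0 := eq_zero_of_pow_eq_zero (n := 3) (by
        linear_combination -hNd + N 0 1 * hA + (N 0 1) ^ 2 * hf2)
      refine ⟨hf1, by linear_combination hf2 - hn, hB, hn, ?_⟩
      rw [hn, zero_mul] at hA
      exact hA
  obtain ⟨k1, k2, k3, k4, k5⟩ := key
  have ha : f 0 0 = 0 := by
    rw [k1, k2] at hdet
    exact (mul_eq_zero.mp (show f 0 0 * (f 0 0 + 2 * ε) = 0 by
      linear_combination hdet - hε)).resolve_right hu
  constructor <;> ext i j <;> fin_cases i <;> fin_cases j <;>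
    simp [k1, k2, k3, k4, k5, ha, hN, ← hdiag]

omit [IsDomain L] in
theorem sq_eq_zero_of_trace_det {N : Mat L} (hN : N 1 1 = -N 0 0)
    (hNd : N 0 0 * N 0 0 + N 0 1 * N 1 0 = 0) : N * N = 0 := by
  ext i j
  fin_cases i <;> fin_cases j <;> simp [Matrix.mul_apply, Fin.sum_univ_two, hN]
  · linear_combination hNd
  · ring
  · ring
  · linear_combination hNd

omit [IsDomain L] in
theorem one_add_pow_eq {N : Mat L} (h : N * N = 0) (k : ℕ) : (1 + N) ^ k = 1 + k • N := by
  induction k with
  | zero => simp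
  | succ k ih =>
    rw [pow_succ, ih, mul_add, mul_one, add_mul, one_mul, smul_mul_assoc, h, smul_zero, add_zero,
      succ_nsmul, add_assoc]

/-- Unipotent inertia: the three forms cut out the origin. -/
theorem steinberg_zero {n β y₀ : L} (hn : n ≠ 0) (hβ : β * β = 1) {f N : Mat L}
    (h00 : N 0 0 = 0) (h01 : N 0 1 = 0) (hf : f 0 1 = 0) (k : ℕ) (hk : (k : L) = n)
    (hu : f 1 1 + 2 * β ≠ 0) (htr : (!![1, 1; 0, 1] + N).trace = 2)
    (hSd : (!![1, 1; 0, 1] + N).det = 1)
    (hcomm : (!![n * β, y₀; 0, β] + f) * (!![1, 1; 0, 1] + N) =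
      (!![1, 1; 0, 1] + N) ^ k * (!![n * β, y₀; 0, β] + f))
    (hdet : (!![n * β, y₀; 0, β] + f).det = n) : f = 0 ∧ N = 0 := by
  simp [Matrix.trace_fin_two, Matrix.det_fin_two, h00, h01] at htr hSd
  have h11 : N 1 1 = 0 := by linear_combination htr
  rw [h11] at hSd
  have h10 : N 1 0 = 0 := by linear_combination -hSd
  have hS : !![1, 1; 0, 1] + N = upT 1 1 (1 : L) := by
    ext i j; fin_cases i <;> fin_cases j <;> simp [upT, h00, h01, h10, h11]
  have hSk : ∀ l : ℕ, (upT 1 1 (1 : L)) ^ l = upT 1 1 (l : L) := by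
    intro l
    induction l with
    | zero => ext i j; fin_cases i <;> fin_cases j <;> simp [upT]
    | succ l ih =>
      rw [pow_succ, ih]
      ext i j
      fin_cases i <;> fin_cases j <;> simp [upT, Matrix.mul_apply, Fin.sum_univ_two]
      ring
  rw [hS, hSk, hk] at hcomm
  have e00 := congrFun (congrFun hcomm 0) 0
  have e01 := congrFun (congrFun hcomm 0) 1
  simp [Matrix.mul_apply, Fin.sum_univ_two, Matrix.det_fin_two, upT, hf] at e00 e01 hdet
  have hf10 : f 1 0 = 0 := e00.resolve_left hn
  rw [hf10] at hdet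
  have hf00 : f 0 0 = n * f 1 1 := by linear_combination e01
  rw [hf00] at hdet
  have h1 : f 1 1 = 0 := (mul_eq_zero.mp (show f 1 1 * (f 1 1 + 2 * β) = 0 from
    mul_left_cancel₀ hn (by linear_combination hdet - n * hβ))).resolve_right hu
  constructor <;> ext i j <;> fin_cases i <;> fin_cases j <;>
    simp [h00, h01, h10, h11, hf, hf10, hf00, h1]

/-- A special place: the three forms cut out the origin. -/
theorem special_zero {n β : L} (hn : IsUnit n) (hn2 : IsUnit (n * n - 1)) (hβ : β * β = 1)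
    {f N : Mat L} (hf10 : f 1 0 = 0) (hf01 : f 0 1 = 0) (h01 : N 0 1 = 0) (k : ℕ) (hk : (k : L) = n)
    (hu : f 0 0 + β * (n - 1) ≠ 0) (htr : (1 + N).trace = 2) (hSd : (1 + N).det = 1)
    (hcomm : (upT (n * β) β 0 + f) * (1 + N) = (1 + N) ^ k * (upT (n * β) β 0 + f))
    (hdet : (upT (n * β) β 0 + f).det = n)
    (htrF : (upT (n * β) β 0 + f).trace = β * (n + 1)) : f = 0 ∧ N = 0 := by
  simp [Matrix.trace_fin_two, upT] at htrF
  have h11 : f 1 1 = -f 0 0 := by linear_combination htrF
  simp [Matrix.det_fin_two, upT, hf10, hf01, h11] at hdet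
  have h00 : f 0 0 = 0 := (mul_eq_zero.mp (show f 0 0 * (f 0 0 + β * (n - 1)) = 0 by
    linear_combination -hdet + n * hβ)).resolve_right hu
  have hf : f = 0 := by
    ext i j; fin_cases i <;> fin_cases j <;> simp [hf10, hf01, h00, h11]
  rw [hf, add_zero] at hcomm
  have hM := special_unipotent hk hn hn2 hβ htr hSd hcomm
  refine ⟨hf, ?_⟩
  have e : (1 : Mat L) + N = 1 := by
    rw [hM]
    ext i j; fin_cases i <;> fin_cases j <;> simp [upT, h01]
  exact add_left_cancel (e.trans (add_zero 1).symm)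

/-- Over a domain of characteristic `p` the relations and the forms cut out the origin. -/
theorem eq_zero_of_core [Fact p.Prime] (hp : p ≠ 2) [Algebra O L]
    (hO : ∀ c ∈ maximalIdeal O, algebraMap O L c = 0) (hpO : (p : O) ∈ maximalIdeal O)
    {v : Idx J τ → L} (hcore : Core s v)
    (hu : ∀ i, ∀ c : O, IsUnit c → v i + algebraMap O L c ≠ 0)
    (hlin : ∀ j k, lin s v j k = 0) (j : J) (b : Bool) (x y : Fin 2) :
    v (Sum.inl (j, b, x, y)) = 0 := by
  obtain ⟨h1, h2, h3, h4, h5, h6⟩ := hcore j
  have hp0 : (p : L) = 0 := by rw [← map_natCast (algebraMap O L)]; exact hO _ hpO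
  have hcL : CharP L p := (CharP.charP_iff_prime_eq_zero Fact.out).mpr hp0
  have h2L : (2 : L) ≠ 0 := by
    intro e
    rw [← Nat.cast_two, CharP.cast_eq_zero_iff L p] at e
    exact hp ((Nat.prime_dvd_prime_iff_eq Fact.out Nat.prime_two).mp e)
  have h2O : IsUnit (2 : O) := by
    by_contra hh
    exact h2L (by
      rw [← map_ofNat (algebraMap O L) 2]
      exact hO _ ((IsLocalRing.mem_maximalIdeal _).mpr hh))
  set f : Mat L := Matrix.of fun a b => v (Sum.inl (j, false, a, b)) with hf
  set N : Mat L := Matrix.of fun a b => v (Sum.inl (j, true, a, b)) with hN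
  have hl := hlin j
  suffices hfN : f = 0 ∧ N = 0 by
    cases b
    · exact congrFun (congrFun hfN.1 x) y
    · exact congrFun (congrFun hfN.2 x) y
  by_cases htw : (s.kind j).isTwisted = true
  · obtain ⟨heps, hn1, ⟨k', hk'⟩⟩ := s.twisted j htw
    have hnL : (s.n j : L) = 1 := by
      rw [show s.n j = p * k' + 1 by omega]; push_cast; rw [hp0]; ring
    have hS : sigAt s v j = 1 + N := by
      rcases hkd : s.kind j with ε | ε | ⟨β, y₀⟩ | β
      · simp [sigAt, hkd, Kind.centre, hN]
      · simp [sigAt, hkd, Kind.centre, hN]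
      · simp [hkd, Kind.isTwisted] at htw
      · simp [hkd, Kind.isTwisted] at htw
    have hNil : IsNilpotent N := by
      refine ⟨p ^ m, ?_⟩
      have := h4 htw
      rw [hS, add_pow_char_pow_of_commute p m (Commute.one_left N), one_pow] at this
      exact add_left_cancel (this.trans (add_zero 1).symm)
    have htrN : N 1 1 = -N 0 0 := by
      have := (Matrix.isNilpotent_trace_of_isNilpotent hNil).eq_zero
      rw [Matrix.trace_fin_two] at this
      linear_combination this
    have hdetN : N 0 0 * N 0 0 + N 0 1 * N 1 0 = 0 := by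
      obtain ⟨k0, hk0⟩ := hNil
      have h0 : N.det = 0 := by
        have e : N.det ^ (k0 + 1) = 0 := by
          rw [pow_succ, ← Matrix.det_pow, hk0, Matrix.det_zero, zero_mul]
        exact eq_zero_of_pow_eq_zero e
      rw [Matrix.det_fin_two, htrN] at h0
      linear_combination -h0
    have hpow : sigAt s v j ^ s.n j = sigAt s v j := by
      rw [hS, one_add_pow_eq (sq_eq_zero_of_trace_det htrN hdetN), ← Nat.cast_smul_eq_nsmul L,
        hnL, one_smul]
    rw [hpow, hS, mul_add, add_mul, mul_one, one_mul, add_right_inj] at h1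
    rw [hnL] at h2
    rcases hkd : s.kind j with ε | ε | ⟨β, y₀⟩ | β
    · have hε : algebraMap O L ε * algebraMap O L ε = 1 := by
        rw [← map_mul, heps ε (Or.inl hkd), map_one]
      have hP : phiAt s v j = algebraMap O L ε • (1 : Mat L) + !![0, (0 : L); 0, 0] + f := by
        ext a b; fin_cases a <;> fin_cases b <;> simp [phiAt, hkd, Kind.centre, hf, Algebra.algebraMap_eq_smul_one]
      rw [hP] at h1 h2
      simp only [lin, hkd] at hl
      have l0 := hl 0
      have l1 := hl 1
      have l2 := hl 2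
      simp only [Matrix.cons_val_zero, Matrix.cons_val_one, Matrix.cons_val] at l0 l1 l2
      refine twisted_zero h2L hε htrN hdetN (by simpa [hf] using sub_eq_zero.mp l0) ?_ h1 h2
        (Or.inl ⟨rfl, sub_eq_zero.mp l1, sub_eq_zero.mp l2⟩)
      have := hu (Sum.inl (j, false, 0, 0)) (2 * ε)
        (h2O.mul (IsUnit.of_mul_eq_one _ (heps ε (Or.inl hkd))))
      rwa [map_mul, map_ofNat] at this
    · have hε : algebraMap O L ε * algebraMap O L ε = 1 := by
        rw [← map_mul, heps ε (Or.inr hkd), map_one]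
      have hP : phiAt s v j = algebraMap O L ε • (1 : Mat L) + !![0, (1 : L); 0, 0] + f := by
        ext a b; fin_cases a <;> fin_cases b <;> simp [phiAt, hkd, Kind.centre, hf, Algebra.algebraMap_eq_smul_one]
      rw [hP] at h1 h2
      simp only [lin, hkd] at hl
      have l0 := hl 0
      have l1 := hl 1
      have l2 := hl 2
      simp only [Matrix.cons_val_zero, Matrix.cons_val_one, Matrix.cons_val] at l0 l1 l2
      refine twisted_zero h2L hε htrN hdetN (by simpa [hf] using sub_eq_zero.mp l0) ?_ h1 h2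
        (Or.inr ⟨rfl, l1, l2⟩)
      have := hu (Sum.inl (j, false, 0, 0)) (2 * ε)
        (h2O.mul (IsUnit.of_mul_eq_one _ (heps ε (Or.inr hkd))))
      rwa [map_mul, map_ofNat] at this
    · simp [hkd, Kind.isTwisted] at htw
    · simp [hkd, Kind.isTwisted] at htw
  · rw [Bool.not_eq_true] at htw
    rcases hkd : s.kind j with ε | ε | ⟨β, y₀⟩ | β
    · simp [hkd, Kind.isTwisted] at htw
    · simp [hkd, Kind.isTwisted] at htw
    rotate_left
    · obtain ⟨hβ, hnu, hn2⟩ := s.special j β hkd
      have hn : IsUnit (s.n j : L) := by simpa using hnu.map (algebraMap O L)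
      have hn2' : IsUnit ((s.n j : L) * (s.n j : L) - 1) := by
        simpa using hn2.map (algebraMap O L)
      have hP : phiAt s v j =
          upT ((s.n j : L) * algebraMap O L β) (algebraMap O L β) 0 + f := by
        ext a b; fin_cases a <;> fin_cases b <;> simp [phiAt, hkd, Kind.centre, hf, upT]
      have hS : sigAt s v j = 1 + N := by simp [sigAt, hkd, Kind.centre, hN]
      have htrF := h6 β hkd
      have htr := h5 htw
      rw [hP, hS] at h1
      rw [hP] at h2 htrF
      rw [hS] at h3 htr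
      simp only [lin, hkd] at hl
      have l0 := hl 0
      have l1 := hl 1
      have l2 := hl 2
      simp only [Matrix.cons_val_zero, Matrix.cons_val_one, Matrix.cons_val] at l0 l1 l2
      refine special_zero hn hn2' (by rw [← map_mul, hβ, map_one]) l0 l1 l2 (s.n j) rfl ?_ htr h3
        h1 h2 htrF
      have hn1 : IsUnit ((s.n j : O) - 1) := isUnit_of_mul_isUnit_left (y := (s.n j : O) + 1)
        (by convert hn2 using 1; ring)
      have := hu (Sum.inl (j, false, 0, 0)) (β * ((s.n j : O) - 1))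
        ((IsUnit.of_mul_eq_one _ hβ).mul hn1)
      simpa [hf] using this
    obtain ⟨hβ, hnu⟩ := s.steinberg j β y₀ hkd
    have hn0 : (s.n j : L) ≠ 0 := by
      have := hnu.map (algebraMap O L)
      rw [map_natCast] at this
      exact this.ne_zero
    have hP : phiAt s v j =
        !![(s.n j : L) * algebraMap O L β, algebraMap O L y₀; 0, algebraMap O L β] + f := by
      ext a b; fin_cases a <;> fin_cases b <;> simp [phiAt, hkd, Kind.centre, hf]
    have hS : sigAt s v j = !![(1 : L), 1; 0, 1] + N := by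
      ext a b; fin_cases a <;> fin_cases b <;> simp [sigAt, hkd, Kind.centre, hN]
    rw [hP, hS] at h1
    rw [hP] at h2
    rw [hS] at h3
    have htr := h5 htw
    rw [hS] at htr
    simp only [lin, hkd] at hl
    have l0 := hl 0
    have l1 := hl 1
    have l2 := hl 2
    simp only [Matrix.cons_val_zero, Matrix.cons_val_one, Matrix.cons_val] at l0 l1 l2
    refine steinberg_zero hn0 (by rw [← map_mul, hβ, map_one]) l0 l1 l2 (s.n j) rfl ?_ htr h3 h1 h2
    have := hu (Sum.inl (j, false, 1, 1)) (2 * β) (h2O.mul (IsUnit.of_mul_eq_one _ hβ))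
    rwa [map_mul, map_ofNat] at this

end Field

section Prime

/-- A prime of a local algebra satisfying the relations which contains `𝔪_O` and the forms contains
all the coordinates. -/
theorem coord_mem_of_core [Fact p.Prime] (hp : p ≠ 2) (hpO : (p : O) ∈ maximalIdeal O)
    {P : Type} [CommRing P] [IsLocalRing P] [Algebra O P] {v : Idx J τ → P}
    (hvm : ∀ i, v i ∈ maximalIdeal P) (hcore : Core s v) (Q : Ideal P) [Q.IsPrime]
    (hQO : ∀ c ∈ maximalIdeal O, algebraMap O P c ∈ Q) (hlin : ∀ j k, lin s v j k ∈ Q)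
    (hτ : ∀ t, v (Sum.inr t) ∈ Q) (i : Idx J τ) : v i ∈ Q := by
  let π : P →ₐ[O] P ⧸ Q := Ideal.Quotient.mkₐ O Q
  rcases i with ⟨j, b, x, y⟩ | t
  · refine Ideal.Quotient.eq_zero_iff_mem.mp (eq_zero_of_core (s := s) (v := π ∘ v) hp ?_ hpO
      (hcore.map π) ?_ ?_ j b x y)
    · intro c hc
      rw [← π.commutes]
      exact Ideal.Quotient.eq_zero_iff_mem.mpr (hQO c hc)
    · intro i c hc e
      have hu : IsUnit (v i + algebraMap O P c) :=
        isUnit_of_sub_mem (b := algebraMap O P c) (by simpa using hvm i) (hc.map _)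
      apply (hu.map π).ne_zero
      rw [map_add, AlgHom.commutes]
      exact e
    · intro j k
      have e : lin s (π ∘ v) j k = π (lin s v j k) := by
        simp only [lin]
        cases s.kind j <;> fin_cases k <;> simp [map_ofNat]
      rw [e]
      exact Ideal.Quotient.eq_zero_iff_mem.mpr (hlin j k)
  · exact hτ t

end Prime

section Finite

variable [IsNoetherianRing O] [IsAdicComplete (maximalIdeal O) O] [Finite J] [Finite τ]

/-- The quotient by the kernel of a family satisfying the relations is finite over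
`3|J| + |τ|` variables. -/
theorem finite_of_core [Fact p.Prime] (hp : p ≠ 2) (hpO : (p : O) ∈ maximalIdeal O)
    {D : Type} [CommRing D] [Algebra O D] [Nontrivial D] (G : PSR J τ O →ₐ[O] D)
    (hcore : Core s (G ∘ MvPowerSeries.X)) :
    ∃ ψ : MvPowerSeries ((J × Fin 3) ⊕ τ) O →ₐ[O] PSR J τ O,
      ((Ideal.Quotient.mk (RingHom.ker G)).comp ψ.toRingHom).Finite := by
  have := mvPowerSeries_isAdicComplete (O := O) (σ := Idx J τ)
  have := mvPowerSeries_isAdicComplete (O := O) (σ := (J × Fin 3) ⊕ τ)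
  let X : Idx J τ → PSR J τ O := MvPowerSeries.X
  let g : (J × Fin 3) ⊕ τ → PSR J τ O :=
    Sum.elim (fun q => lin s X q.1 q.2) (fun t => X (Sum.inr t))
  have hgm : ∀ i, g i ∈ maximalIdeal (PSR J τ O) := by
    rintro (⟨j, k⟩ | t)
    · have hX : ∀ i, X i ∈ maximalIdeal (PSR J τ O) := X_mem_maximalIdeal
      simp only [g, Sum.elim_inl, lin]
      cases s.kind j <;> fin_cases k <;> simp [-IsLocalRing.mem_maximalIdeal] <;>
        first
          | exact hX _
          | exact sub_mem (hX _) (hX _)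
          | exact add_mem (hX _) (hX _)
          | exact sub_mem (add_mem (Ideal.mul_mem_left _ _ (hX _)) (Ideal.mul_mem_left _ _ (hX _)))
              (hX _)
    · exact X_mem_maximalIdeal _
  obtain ⟨ψ, hψ⟩ := exists_eval (L := O) (R := PSR J τ O) g hgm
  refine ⟨ψ, ?_⟩
  set K := RingHom.ker G
  have hK : K ≠ ⊤ := RingHom.ker_ne_top _
  have : Nontrivial (PSR J τ O ⧸ K) := Ideal.Quotient.nontrivial_iff.mpr hK
  have : IsLocalRing (PSR J τ O ⧸ K) :=
    .of_surjective' (Ideal.Quotient.mk K) Ideal.Quotient.mk_surjective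
  set φ := (Ideal.Quotient.mk K).comp ψ.toRingHom with hφ
  letI := φ.toAlgebra
  show Module.Finite (MvPowerSeries ((J × Fin 3) ⊕ τ) O) (PSR J τ O ⧸ K)
  have halg : ∀ a, algebraMap (MvPowerSeries ((J × Fin 3) ⊕ τ) O) (PSR J τ O ⧸ K) a =
      Ideal.Quotient.mk K (ψ a) := fun a => rfl
  have hloc : IsLocalHom (algebraMap O (PSR J τ O)) := isLocalHom_algebraMap_psr
  have hψm : ∀ a ∈ maximalIdeal (MvPowerSeries ((J × Fin 3) ⊕ τ) O),
      ψ a ∈ maximalIdeal (PSR J τ O) := by
    intro a ha
    rw [← sub_add_cancel a (algebraMap O _ (MvPowerSeries.constantCoeff a)), map_add]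
    refine add_mem ?_ ?_
    · have h := Ideal.mem_map_of_mem ψ (sub_algebraMap_constantCoeff_mem a)
      rw [Ideal.map_span] at h
      refine Ideal.span_le.mpr ?_ h
      rintro _ ⟨_, ⟨i, rfl⟩, rfl⟩
      exact (hψ i).symm ▸ hgm i
    · rw [AlgHom.commutes]
      refine map_nonunit (algebraMap O (PSR J τ O)) _ ?_
      rw [IsLocalRing.mem_maximalIdeal, mem_nonunits_iff] at ha ⊢
      exact fun hu => ha (MvPowerSeries.isUnit_iff_constantCoeff.mpr hu)
  have hmk : ∀ a ∈ maximalIdeal (PSR J τ O),
      Ideal.Quotient.mk K a ∈ maximalIdeal (PSR J τ O ⧸ K) := fun a ha =>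
    have := IsLocalHom.of_surjective (Ideal.Quotient.mk K) Ideal.Quotient.mk_surjective
    map_nonunit (Ideal.Quotient.mk K) a ha
  -- every prime containing the relations and the parameters contains all variables
  set M := (maximalIdeal (MvPowerSeries ((J × Fin 3) ⊕ τ) O)).map
    (algebraMap (MvPowerSeries ((J × Fin 3) ⊕ τ) O) (PSR J τ O ⧸ K)) with hM
  have hlin : ∀ j k, lin s (Ideal.Quotient.mkₐ O K ∘ X) j k =
      Ideal.Quotient.mkₐ O K (lin s X j k) := fun j k => by
    simp only [lin]
    cases s.kind j <;> fin_cases k <;> simp [map_ofNat]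
  have hrad : maximalIdeal (PSR J τ O ⧸ K) ≤ M.radical := by
    rw [Ideal.radical_eq_sInf]
    refine le_sInf fun Q hQ => ?_
    have := hQ.2
    have hψQ : ∀ a ∈ maximalIdeal (MvPowerSeries ((J × Fin 3) ⊕ τ) O),
        Ideal.Quotient.mk K (ψ a) ∈ Q := fun a ha => hQ.1 (by
      rw [← halg]; exact Ideal.mem_map_of_mem _ ha)
    have hgQ : ∀ i, Ideal.Quotient.mk K (g i) ∈ Q := fun i => hψ i ▸ hψQ _ (by
      rw [IsLocalRing.mem_maximalIdeal, mem_nonunits_iff, MvPowerSeries.isUnit_iff_constantCoeff,
        MvPowerSeries.constantCoeff_X]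
      exact not_isUnit_zero)
    have hOQ : ∀ c ∈ maximalIdeal O, algebraMap O (PSR J τ O ⧸ K) c ∈ Q := fun c hc => by
      have := hψQ (algebraMap O _ c) (by
        rw [IsLocalRing.mem_maximalIdeal, mem_nonunits_iff, MvPowerSeries.algebraMap_apply,
          MvPowerSeries.isUnit_iff_constantCoeff, MvPowerSeries.constantCoeff_C]
        exact hc)
      rwa [AlgHom.commutes, Ideal.Quotient.mk_algebraMap] at this
    have hXQ := coord_mem_of_core (s := s) (v := Ideal.Quotient.mkₐ O K ∘ X) hp hpO
      (fun i => hmk _ (X_mem_maximalIdeal i)) (Core.quotient_ker (v := X) G hcore) Q hOQ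
      (fun j k => hlin j k ▸ hgQ (Sum.inl (j, k))) (fun t => hgQ (Sum.inr t))
    intro d hd
    obtain ⟨a, rfl⟩ := Ideal.Quotient.mk_surjective d
    have ha : a ∈ maximalIdeal (PSR J τ O) := by
      rw [IsLocalRing.mem_maximalIdeal, mem_nonunits_iff] at hd ⊢
      exact fun hu => hd (hu.map _)
    rw [← sub_add_cancel a (algebraMap O _ (MvPowerSeries.constantCoeff a)), map_add]
    refine add_mem ?_ ?_
    · have h := Ideal.mem_map_of_mem (Ideal.Quotient.mk K) (sub_algebraMap_constantCoeff_mem a)
      rw [Ideal.map_span] at h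
      refine Ideal.span_le.mpr ?_ h
      rintro _ ⟨_, ⟨i, rfl⟩, rfl⟩
      exact hXQ i
    · rw [Ideal.Quotient.mk_algebraMap]
      refine hOQ _ ?_
      rw [IsLocalRing.mem_maximalIdeal, mem_nonunits_iff] at ha ⊢
      exact fun hu => ha (MvPowerSeries.isUnit_iff_constantCoeff.mpr hu)
  obtain ⟨N, hN⟩ := Ideal.exists_pow_le_of_le_radical_of_fg hrad (IsNoetherian.noetherian _)
  refine finite_of_pow_le (fun x => ?_) ?_ hN
  · obtain ⟨a, rfl⟩ := Ideal.Quotient.mk_surjective x
    refine ⟨algebraMap O _ (MvPowerSeries.constantCoeff a), ?_⟩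
    rw [halg, AlgHom.commutes, ← map_sub]
    refine hmk _ ?_
    rw [IsLocalRing.mem_maximalIdeal, mem_nonunits_iff, MvPowerSeries.isUnit_iff_constantCoeff,
      map_sub, MvPowerSeries.algebraMap_apply, MvPowerSeries.constantCoeff_C]
    simp
  · refine Ideal.map_le_iff_le_comap.mpr fun a ha => ?_
    rw [Ideal.mem_comap, halg]
    exact hmk _ (hψm a ha)

end Finite

end Fermat.Agent.RT.LocalParam
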