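import Fermat.Agent.RT.LocalParam.Killed
import Fermat.Agent.RT.LocalParam.Finite

/-!
# Change of base of a setup, and the relations on the universal family of charts
-/

set_option autoImplicit false

noncomputable section

namespace Fermat.Agent.RT.LocalParam

open IsLocalRing Matrix Fermat.Agent.RT.LocalRing

variable {J τ O : Type} [CommRing O] [IsLocalRing O] {p m : ℕ}

/-- The image of a residual shape. -/
def Kind.map {O' : Type} (f : O → O') : Kind O → Kind O'
  | .scalar ε => .scalar (f ε)
  | .jordan ε => .jordan (f ε)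
  | .steinberg β y₀ => .steinberg (f β) (f y₀)
  | .special β => .special (f β)

omit [CommRing O] [IsLocalRing O] in
theorem Kind.isTwisted_map {O' : Type} (f : O → O') (k : Kind O) :
    (k.map f).isTwisted = k.isTwisted := by
  cases k <;> rfl

variable {O' : Type} [CommRing O'] [IsLocalRing O'] [Algebra O O'] (s : Setup J O p m)

variable (O') in
/-- The setup over an extension of the base. -/
def Setup.extend : Setup J O' p m where
  kind j := (s.kind j).map (algebraMap O O')
  n := s.n
  twisted j hj := by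
    rw [Kind.isTwisted_map] at hj
    obtain ⟨h1, h2, h3⟩ := s.twisted j hj
    refine ⟨fun ε hε => ?_, h2, h3⟩
    rcases hk : s.kind j with e | e | ⟨b, y⟩ | b
    · rw [hk] at hε
      simp [Kind.map] at hε
      subst hε
      rw [← map_mul, h1 e (Or.inl hk), map_one]
    · rw [hk] at hε
      simp [Kind.map] at hε
      subst hε
      rw [← map_mul, h1 e (Or.inr hk), map_one]
    · rw [hk] at hj; simp [Kind.isTwisted] at hj
    · rw [hk] at hj; simp [Kind.isTwisted] at hj
  steinberg j β y₀ h := by
    rcases hk : s.kind j with e | e | ⟨b, y⟩ | b <;> rw [hk] at h <;> simp [Kind.map] at h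
    obtain ⟨rfl, rfl⟩ := h
    obtain ⟨h1, h2⟩ := s.steinberg j b y hk
    refine ⟨by rw [← map_mul, h1, map_one], ?_⟩
    simpa using h2.map (algebraMap O O')
  special j β h := by
    rcases hk : s.kind j with e | e | ⟨b, y⟩ | b <;> rw [hk] at h <;> simp [Kind.map] at h
    subst h
    obtain ⟨h1, h2, h3⟩ := s.special j b hk
    refine ⟨by rw [← map_mul, h1, map_one], ?_, ?_⟩
    · simpa using h2.map (algebraMap O O')
    · simpa using h3.map (algebraMap O O')

theorem isTwisted_extend (j : J) :
    ((s.extend O').kind j).isTwisted = (s.kind j).isTwisted :=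
  Kind.isTwisted_map _ _

section Scalars

variable {B : Type} [CommRing B] [Algebra O B] [Algebra O' B] [IsScalarTower O O' B]

theorem phiAt_extend (v : Idx J τ → B) (j : J) : phiAt (s.extend O') v j = phiAt s v j := by
  rcases hk : s.kind j with e | e | ⟨b, y⟩ | b <;>
    (ext a c; fin_cases a <;> fin_cases c <;>
      simp [phiAt, Setup.extend, Kind.map, Kind.centre, hk, Algebra.smul_def, Matrix.algebraMap_matrix_apply,
        ← IsScalarTower.algebraMap_apply O O' B])

theorem sigAt_extend (v : Idx J τ → B) (j : J) : sigAt (s.extend O') v j = sigAt s v j := by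
  rcases hk : s.kind j with e | e | ⟨b, y⟩ | b <;>
    (ext a c; fin_cases a <;> fin_cases c <;>
      simp [sigAt, Setup.extend, Kind.map, Kind.centre, hk])

theorem fAt_extend (v : Idx J τ → B) (j : J) : fAt (s.extend O') v j = fAt s v j := by
  rw [fAt, fAt, phiAt_extend]
  rfl

theorem Core.of_extend {v : Idx J τ → B} (h : Core (s.extend O') v) : Core s v := by
  intro j
  obtain ⟨h1, h2, h3, h4, h5, h6⟩ := h j
  rw [phiAt_extend, sigAt_extend] at h1
  rw [phiAt_extend] at h2
  rw [sigAt_extend] at h3 h4 h5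
  rw [isTwisted_extend] at h4 h5
  refine ⟨h1, h2, h3, h4, h5, fun β hβ => ?_⟩
  have := h6 (algebraMap O O' β) (by simp [Setup.extend, Kind.map, hβ])
  rwa [phiAt_extend, ← IsScalarTower.algebraMap_apply] at this

end Scalars

section Map

variable {B C : Type} [CommRing B] [CommRing C] [Algebra O B] [Algebra O C]

theorem map_fAt (f : B →ₐ[O] C) (v : Idx J τ → B) (j : J) :
    f (fAt s v j) = fAt s (f ∘ v) j := by
  rw [fAt, fAt, map_sub, map_pow, map_pow, map_add, map_natCast, map_one, ← map_phiAt]
  congr 2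
  exact AddMonoidHom.map_trace f.toRingHom.toAddMonoidHom _

theorem IsPoint.map {v : Idx J τ → B} {s : Setup J O p m} (h : IsPoint s v) (f : B →ₐ[O] C)
    (hf : Function.Injective f) : IsPoint s (f ∘ v) := by
  intro j
  obtain ⟨h1, h2, h3, h4, h5, h6⟩ := h j
  rw [← map_phiAt, ← map_sigAt]
  refine ⟨?_, ?_, ?_, fun ht => ?_, fun ht => ?_, fun β hβ => ?_⟩
  · rw [← map_mul, h1, map_mul, map_pow]
  · rw [← RingHom.map_det, h2, map_natCast]
  · rw [← RingHom.map_det, h3, map_one]
  · obtain ⟨z, hz, hz1, hz2⟩ := h4 ht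
    refine ⟨f z, by rw [← map_pow, hz, map_one], fun e => hz1 (hf (e.trans (map_one f).symm)), ?_⟩
    have : (f.toRingHom.mapMatrix (sigAt s v j)).trace = f (sigAt s v j).trace :=
      (AddMonoidHom.map_trace f.toRingHom.toAddMonoidHom _).symm
    rw [this, ← map_mul, hz2, map_add, map_mul, map_one]
  · refine (AddMonoidHom.map_trace f.toRingHom.toAddMonoidHom _).symm.trans ?_
    exact (congrArg f (h5 ht)).trans (map_ofNat f 2)
  · refine (AddMonoidHom.map_trace f.toRingHom.toAddMonoidHom _).symm.trans ?_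
    exact (congrArg f (h6 β hβ)).trans (by simp)

end Map

section Trace

variable {R : Type} [CommRing R]

theorem trace_pow_eq {S : Mat R} {z z' : R} (ht : S.trace = z + z') (hd : S.det = z * z') :
    ∀ k : ℕ, (S ^ k).trace = z ^ k + z' ^ k
  | 0 => by simp [Matrix.trace_one, one_add_one_eq_two]
  | 1 => by simpa using ht
  | k + 2 => by
    have hS : S * S = (z + z') • S - (z * z') • (1 : Mat R) := by
      rw [Matrix.trace_fin_two] at ht
      rw [Matrix.det_fin_two] at hd
      ext i j
      fin_cases i <;> fin_cases j <;> simp [Matrix.mul_apply, Fin.sum_univ_two, ← ht, ← hd] <;> ring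
    rw [pow_succ, pow_succ, mul_assoc, hS, mul_sub, mul_smul_comm, mul_smul_comm, mul_one,
      ← pow_succ, Matrix.trace_sub, Matrix.trace_smul, Matrix.trace_smul,
      trace_pow_eq ht hd (k + 1), trace_pow_eq ht hd k, smul_eq_mul, smul_eq_mul]
    ring

/-- An eigenvalue of `p`-power order of inertia is fixed by the `n`-th power map, `n ≡ 1 mod p`. -/
theorem pow_eq_self_of_rel [IsDomain R] (hp : p.Prime) (hp2 : p ≠ 2) {Φ S : Mat R} {n : ℕ}
    (hn1 : 1 ≤ n) (hn : p ∣ n - 1) (hrel : Φ * S = S ^ n * Φ) (hΦ : Φ.det ≠ 0) {z z' : R}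
    (hz : z ^ p ^ m = 1) (hz1 : z ≠ 1) (hzz : z * z' = 1) (ht : S.trace = z + z')
    (hd : S.det = 1) : z ^ n = z := by
  have hpow := trace_pow_eq ht (hd.trans hzz.symm) n
  have hsim : (S ^ n).trace = S.trace := by
    refine mul_left_cancel₀ hΦ ?_
    calc Φ.det * (S ^ n).trace = (S ^ n * Φ * Φ.adjugate).trace := by
          rw [mul_assoc, Matrix.mul_adjugate, mul_smul_comm, mul_one, Matrix.trace_smul, smul_eq_mul]
      _ = (Φ.adjugate * Φ * S).trace := by rw [← hrel, Matrix.trace_mul_cycle]
      _ = Φ.det * S.trace := by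
          rw [Matrix.adjugate_mul, smul_mul_assoc, one_mul, Matrix.trace_smul, smul_eq_mul]
  rw [hsim, ht] at hpow
  have hzn : z ^ n * z' ^ n = 1 := by rw [← mul_pow, hzz, one_pow]
  rcases mul_eq_zero.mp (show (z ^ n - z) * (z ^ n * z - 1) = 0 by
      linear_combination (-(z * z ^ n)) * hpow - z * hzn + z ^ n * hzz) with h | h
  · exact sub_eq_zero.mp h
  · exfalso
    have h1 : z ^ (n + 1) = 1 := by rw [pow_succ]; exact sub_eq_zero.mp h
    have hcop : Nat.Coprime (p ^ m) (n + 1) := by
      refine (Nat.Coprime.pow_left m ((Nat.Prime.coprime_iff_not_dvd hp).mpr fun hd' => hp2 ?_))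
      have h2 := Nat.dvd_sub hd' hn
      rw [show n + 1 - (n - 1) = 2 by omega] at h2
      exact (Nat.prime_dvd_prime_iff_eq hp Nat.prime_two).mp h2
    have h3 := pow_gcd_eq_one.mpr ⟨hz, h1⟩
    rw [Nat.Coprime] at hcop
    rw [hcop, pow_one] at h3
    exact hz1 h3

end Trace

section Omega

variable [IsDomain O] [Finite J] [Finite τ] [IsAdicComplete (maximalIdeal O) O] {pr : J → Prm O}
  {s}

/-- The universal family of charts satisfies the relations. -/
theorem core_omHom (h : Admissible s pr)
    (hroot : ∀ j, (s.kind j).isTwisted = true → (pr j).z ^ p ^ m = 1 ∧ (pr j).z' ^ p ^ m = 1) :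
    Core s (omHom τ h ∘ MvPowerSeries.X) := by
  have := isLocalHom_series (O := O) (V := O) (σ := (J × Fin 3) ⊕ τ)
  have := isDomain_series (V := O) (σ := (J × Fin 3) ⊕ τ)
  rw [show (⇑(omHom τ h) ∘ MvPowerSeries.X) = coordsC s.cen (omCfg s pr) from funext (omHom_X h)]
  intro j
  rw [phiAt_eq, sigAt_eq, cfgC_coordsC]
  have hrel : Rel s j (algebraMap O (Om J τ O) (pr j).z) (algebraMap O (Om J τ O) (pr j).z')
      ((omCfg s pr).1 j) := rel_chart s h.two (h.good j) (X_mem _) (X_mem _)
  obtain ⟨hdet, hSdet, ht, hnt, hsp⟩ := hrel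
  by_cases htw : (s.kind j).isTwisted = true
  · obtain ⟨hcomm, htr⟩ := ht htw
    have hg := h.good j htw
    set z := algebraMap O (Om J τ O) (pr j).z with hz
    set z' := algebraMap O (Om J τ O) (pr j).z' with hz'
    have hne : z ≠ z' := fun e => hg.z_ne (by
      simpa [z, z', MvPowerSeries.algebraMap_apply] using congrArg MvPowerSeries.constantCoeff e)
    have hd : ((omCfg (τ := τ) s pr).1 j).2.det = z * z' := by
      rw [hSdet, hz, hz', ← map_mul, hg.z_mul, map_one]
    refine ⟨?_, hdet, hSdet, fun _ => ?_, fun h' => absurd htw (by rw [h']; simp), hsp⟩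
    · rw [pow_eq_self hne htr hd (by rw [hz, ← map_pow, hg.z_pow])
        (by rw [hz', ← map_pow, hg.z'_pow])]
      exact hcomm
    · obtain ⟨r1, r2⟩ := hroot j htw
      have e := pow_eq_self (n := p ^ m + 1) hne htr hd
        (by rw [hz, pow_succ, ← map_pow, r1, map_one, one_mul])
        (by rw [hz', pow_succ, ← map_pow, r2, map_one, one_mul])
      have hu : IsUnit ((omCfg (τ := τ) s pr).1 j).2 :=
        (Matrix.isUnit_iff_isUnit_det _).mpr (hSdet ▸ isUnit_one)
      exact hu.mul_right_cancel ((pow_succ _ _).symm.trans (e.trans (one_mul _).symm))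
  · rw [Bool.not_eq_true] at htw
    obtain ⟨hcomm, htr⟩ := hnt htw
    exact ⟨hcomm, hdet, hSdet, fun h' => absurd h' (by rw [htw]; simp), fun _ => htr, hsp⟩

end Omega

end Fermat.Agent.RT.LocalParam
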