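import Fermat.Agent.RT.LocalParam.Cover
import Fermat.Agent.RT.LocalParam.Q0
import Fermat.Agent.RT.LocalParam.Transfer
import Fermat.Agent.RT.LocalParam.Extension

/-!
# Local parametrisations at the primes of `Σ`: the output

A finite family of primes `K` of characteristic zero such that every point kills one of them, each
`P/K` is finite over a power series ring in `3|J| + |τ|` variables, and for each twisted `j₀` one
prime over `p` contains all of them and omits `(tr Φ)² - (q+1)²` at `j₀`.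

The `K` are the kernels of the products of charts over an extension `O'` containing the `p ^ m`-th
roots of unity, one for each choice of inertia eigenvalues at the twisted primes.
-/

set_option autoImplicit false

noncomputable section

namespace Fermat.Agent.RT.LocalParam

open IsLocalRing Fermat.Agent.RT.LocalRing

theorem exists_kernels {O : Type} [CommRing O] [IsDomain O] [IsDiscreteValuationRing O]
    [IsAdicComplete (maximalIdeal O) O] [Finite (ResidueField O)] [CharZero O]
    {p : ℕ} [Fact p.Prime] (hp : p ≠ 2) (hpO : (p : O) ∈ maximalIdeal O) {m : ℕ}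
    {J τ : Type} [Finite J] [Finite τ] (s : Setup J O p m) :
    ∃ 𝒦 : Finset (Ideal (PSR J τ O)),
      (∀ K ∈ 𝒦, K.IsPrime ∧
        (∀ a : O, algebraMap O (PSR J τ O) a ∈ K → a = 0) ∧
        ∃ ψ : MvPowerSeries ((J × Fin 3) ⊕ τ) O →ₐ[O] PSR J τ O,
          ((Ideal.Quotient.mk K).comp ψ.toRingHom).Finite) ∧
      (∀ j₀, (s.kind j₀).isTwisted = true →
        ∃ Q₀ : Ideal (PSR J τ O), Q₀.IsPrime ∧ (p : PSR J τ O) ∈ Q₀ ∧
          (maximalIdeal O).map (algebraMap O (PSR J τ O)) ≤ Q₀ ∧
          fAt s (MvPowerSeries.X : Idx J τ → PSR J τ O) j₀ ∉ Q₀ ∧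
          ∀ K ∈ 𝒦, K ≤ Q₀) ∧
      ∀ (V : Type) [CommRing V] [IsDomain V] [IsDiscreteValuationRing V]
        [IsAdicComplete (maximalIdeal V) V] [Algebra O V] [IsLocalHom (algebraMap O V)]
        [Module.Finite O V],
        Function.Injective (algebraMap O V) →
        ∀ F : PSR J τ O →ₐ[O] V, (∀ i, F (MvPowerSeries.X i) ∈ maximalIdeal V) →
          IsPoint s (F ∘ MvPowerSeries.X) → ∃ K ∈ 𝒦, K ≤ RingHom.ker F := by
  classical
  have hprime : p.Prime := Fact.out
  obtain ⟨O', _, _, _, _, _, _, _, _, _, hinj, ζ, hζ, hsq⟩ := exists_base O hprime hpO m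
  have hpO' : (p : O') ∈ maximalIdeal O' := by
    rw [← map_natCast (algebraMap O O')]
    exact map_nonunit _ _ hpO
  have h2 : IsUnit (2 : O') := isUnit_two hprime hp hpO'
  let s' := s.extend O'
  -- the finitely many choices of constants
  have : NeZero (p ^ m) := ⟨(pow_pos hprime.pos m).ne'⟩
  let T : Set O' := {z | z ^ p ^ m = 1 ∧ z ≠ 1}
  have : Finite T := ((Set.finite_range fun i : Fin (p ^ m) => ζ ^ (i : ℕ)).subset fun z hz => by
    obtain ⟨i, hi, rfl⟩ := hζ.eq_pow_of_pow_eq_one hz.1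
    exact ⟨⟨i, hi⟩, rfl⟩).to_subtype
  let Tw := {j : J // (s.kind j).isTwisted = true}
  let Tf : Tw → Set O' := fun j => {z | z ∈ T ∧ z ^ s.n j.1 = z}
  have : ∀ j, Finite (Tf j) := fun j => ((Set.toFinite T).subset fun z hz => hz.1).to_subtype
  have hprm : ∀ (j : Tw) (z : Tf j), ∃ pr : Prm O', pr.Good (s.n j.1) ∧ pr.z = z ∧
      pr.z ^ p ^ m = 1 ∧ pr.z' ^ p ^ m = 1 := fun j z =>
    exists_prm hprime hp hpO' hsq z.2.1.1 z.2.1.2 (s.twisted j.1 j.2).2.1 z.2.2
      (s.twisted j.1 j.2).2.2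
  choose prm hprm using hprm
  let prc : (∀ j, Tf j) → J → Prm O' := fun c j =>
    if h : (s.kind j).isTwisted = true then prm ⟨j, h⟩ (c ⟨j, h⟩) else Prm.triv O'
  have htw : ∀ j, (s'.kind j).isTwisted = true → (s.kind j).isTwisted = true := fun j hj => by
    rwa [isTwisted_extend] at hj
  have hadm : ∀ c, Admissible s' (prc c) := fun c => by
    refine ⟨hpO', h2, fun j => ?_, fun j hj => ?_⟩
    · by_cases h : (s.kind j).isTwisted = true
      · simp only [prc, dif_pos h]; exact (hprm ⟨j, h⟩ _).1.small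
      · simp only [prc, dif_neg h]; exact Prm.small_triv
    · simp only [prc, dif_pos (htw j hj)]; exact (hprm ⟨j, htw j hj⟩ _).1
  -- base change
  have := mvPowerSeries_isAdicComplete (O := O') (σ := Idx J τ)
  have := mvPowerSeries_isAdicComplete (O := O') (σ := (J × Fin 3) ⊕ τ)
  obtain ⟨ι, hι⟩ := exists_eval (L := O) (R := PSR J τ O')
    (MvPowerSeries.X : Idx J τ → PSR J τ O') X_mem_maximalIdeal
  let G : (∀ j, Tf j) → PSR J τ O →ₐ[O] Om J τ O' := fun c =>
    ((omHom τ (hadm c)).restrictScalars O).comp ι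
  have hG : ∀ c, (G c : PSR J τ O → Om J τ O') ∘ MvPowerSeries.X =
      omHom τ (hadm c) ∘ MvPowerSeries.X := fun c => funext fun i => by
    simp only [G, Function.comp_apply, AlgHom.comp_apply, hι, AlgHom.restrictScalars_apply]
  refine ⟨(Set.finite_range fun c => RingHom.ker (G c)).toFinset, ?_, ?_, ?_⟩
  · intro K hK
    rw [Set.Finite.mem_toFinset] at hK
    obtain ⟨c, rfl⟩ := hK
    have := isDomain_series (V := O') (σ := (J × Fin 3) ⊕ τ)
    refine ⟨RingHom.ker_isPrime _, fun a ha => ?_, finite_of_core (s := s) hp hpO (G c) ?_⟩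
    · rw [RingHom.mem_ker, AlgHom.commutes,
        IsScalarTower.algebraMap_apply O O' (Om J τ O')] at ha
      refine hinj ?_
      rw [map_zero]
      simpa [MvPowerSeries.algebraMap_apply] using congrArg MvPowerSeries.constantCoeff ha
    · rw [hG]
      refine Core.of_extend (O' := O') s (core_omHom (hadm c) fun j hj => ?_)
      simp only [prc, dif_pos (htw j hj)]
      exact ⟨(hprm ⟨j, htw j hj⟩ _).2.2.1, (hprm ⟨j, htw j hj⟩ _).2.2.2⟩
  · intro j₀ hj₀
    have hj₀' : (s'.kind j₀).isTwisted = true := by rwa [isTwisted_extend]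
    refine ⟨(zeroPrime τ hpO' s' j₀).comap ι, ?_, ?_, ?_, ?_, ?_⟩
    · have := isPrime_zeroPrime (τ := τ) (s := s') hpO' j₀
      exact Ideal.IsPrime.comap ι
    · rw [Ideal.mem_comap, map_natCast]
      exact natCast_mem_zeroPrime hpO' j₀
    · refine Ideal.map_le_iff_le_comap.mpr fun a ha => ?_
      rw [Ideal.mem_comap, Ideal.mem_comap, AlgHom.commutes,
        IsScalarTower.algebraMap_apply O O' (PSR J τ O')]
      exact map_maximalIdeal_le_zeroPrime hpO' j₀
        (Ideal.mem_map_of_mem _ (map_nonunit (algebraMap O O') a ha))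
    · rw [Ideal.mem_comap, map_fAt, show ι ∘ MvPowerSeries.X = MvPowerSeries.X from funext hι,
        ← fAt_extend (O' := O')]
      exact fAt_notMem_zeroPrime hpO' h2 hj₀'
    · intro K hK
      rw [Set.Finite.mem_toFinset] at hK
      obtain ⟨c, rfl⟩ := hK
      exact fun f hf => chartKer_le_zeroPrime (hadm c) hj₀' hf
  · intro V _ _ _ _ _ _ _ hV F hF hpoint
    obtain ⟨V', _, _, _, _, _, _, _, _, hinj', g, hg, hgm⟩ :=
      exists_compositum O O' hinj V hV hprime.ne_zero hpO'
    set w : Idx J τ → V' := g ∘ (F ∘ MvPowerSeries.X) with hw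
    have hwm : ∀ i, w i ∈ maximalIdeal V' := fun i => hgm _ (hF i)
    have hpt : IsPoint s w := hpoint.map g hg
    have hζ' : IsPrimitiveRoot (algebraMap O' V' ζ) (p ^ m) := hζ.map_of_injective hinj'
    have hc : ∀ j : Tw, ∃ z : Tf j, algebraMap O' V' z * (sigAt s' w j.1).trace =
        algebraMap O' V' z * algebraMap O' V' z + 1 := by
      intro j
      obtain ⟨z, hz, hz1, hztr⟩ := (hpt j.1).2.2.2.1 j.2
      obtain ⟨h1, h2', h3, -⟩ := hpt j.1
      obtain ⟨-, hn1, hn⟩ := s.twisted j.1 j.2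
      obtain ⟨q, hq⟩ : ∃ q, p ^ m = q + 1 :=
        ⟨p ^ m - 1, (Nat.sub_add_cancel (pow_pos hprime.pos m)).symm⟩
      have hzn : z ^ s.n j.1 = z := by
        have : CharZero V' := charZero_of_injective_ringHom hinj'
        have hzz : z * z ^ q = 1 := by rw [← pow_succ', ← hq, hz]
        refine pow_eq_self_of_rel hprime hp hn1 hn h1 ?_ hz hz1 hzz ?_ h3
        · rw [h2', Nat.cast_ne_zero]; omega
        · linear_combination z ^ q * hztr - ((sigAt s w j.1).trace - z) * hzz
      obtain ⟨i, -, rfl⟩ := hζ'.eq_pow_of_pow_eq_one hz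
      refine ⟨⟨ζ ^ i, ⟨?_, fun e => hz1 ?_⟩, ?_⟩, ?_⟩
      · rw [← pow_mul, mul_comm, pow_mul, hζ.pow_eq_one, one_pow]
      · rw [← map_pow, e, map_one]
      · refine hinj' ?_
        simpa only [map_pow] using hzn
      · rw [sigAt_extend, map_pow]
        exact hztr
    choose c hc using hc
    have hadj : ∀ j, Adm s' (prc c) j ((cfgC s'.cen w).1 j) := by
      intro j
      refine ⟨near_cfgC hwm j, ?_⟩
      obtain ⟨h1, h2', h3, -, h5, h6⟩ := hpt j
      rw [Rel, ← phiAt_eq, ← sigAt_eq, phiAt_extend, sigAt_extend, isTwisted_extend]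
      refine ⟨h2', h3, fun ht => ?_, fun ht => ⟨h1, h5 ht⟩, fun β' hβ' => ?_⟩
      rotate_left
      · rcases hk : s.kind j with e | e | ⟨b, y⟩ | b <;>
          simp [s', Setup.extend, Kind.map, hk] at hβ'
        subst hβ'
        rw [← IsScalarTower.algebraMap_apply O O' V']
        exact h6 b hk
      obtain ⟨hgood, hz, -, -⟩ := hprm ⟨j, ht⟩ (c ⟨j, ht⟩)
      have hcj := hc ⟨j, ht⟩
      simp only [prc, dif_pos ht]
      rw [sigAt_extend, ← hz] at hcj
      set z := algebraMap O' V' (prm ⟨j, ht⟩ (c ⟨j, ht⟩)).z with hzdef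
      set z' := algebraMap O' V' (prm ⟨j, ht⟩ (c ⟨j, ht⟩)).z' with hz'def
      have hzz : z * z' = 1 := by rw [hzdef, hz'def, ← map_mul, hgood.z_mul, map_one]
      have htr : (sigAt s w j).trace = z + z' := by
        linear_combination z' * hcj - ((sigAt s w j).trace - z) * hzz
      have hne : z ≠ z' := fun e => hgood.z_ne (hinj' e)
      rw [pow_eq_self hne htr (h3.trans hzz.symm) (by rw [hzdef, ← map_pow, hgood.z_pow])
        (by rw [hz'def, ← map_pow, hgood.z'_pow])] at h1
      exact ⟨h1, htr⟩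
    refine ⟨RingHom.ker (G c), (Set.Finite.mem_toFinset _).mpr ⟨c, rfl⟩, fun f hf => ?_⟩
    have hkill := killed_of_adm (hadm c) hinj' (x := cfgC s'.cen w)
      (fun t => hwm (Sum.inr t)) hadj
    obtain ⟨F', hF'⟩ := exists_hom s' (x := cfgC s'.cen w) (near_cfgC hwm)
      fun t => hwm (Sum.inr t)
    have h0 : F' (ι f) = 0 := hkill F' hF' hf
    have e : g.comp F = (F'.restrictScalars O).comp ι := by
      refine algHom_ext_X hwm fun i => ?_
      rw [AlgHom.comp_apply, AlgHom.comp_apply, hι, AlgHom.restrictScalars_apply, hF',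
        coordsC_cfgC]
      rfl
    have := AlgHom.congr_fun e f
    rw [AlgHom.comp_apply, AlgHom.comp_apply, AlgHom.restrictScalars_apply, h0] at this
    exact hg (this.trans (map_zero g).symm)

end Fermat.Agent.RT.LocalParam
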