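import Fermat.Agent.RT.LocalRing.Eval
import Mathlib.Algebra.Polynomial.Eval.Coeff
import Mathlib.RingTheory.PowerSeries.Trunc

/-!
# Vanishing on a circle of an annulus

A series `F(R, L)` over a complete local domain whose restriction to the circle
`R = ρ(1+T)`, `L = σ/(1+T)` vanishes is divisible by `R L - ρσ`.
-/

set_option autoImplicit false

noncomputable section

namespace Fermat.Agent.RT.LocalParam

open IsLocalRing Fermat.Agent.RT.LocalRing

variable {C : Type*} [CommRing C]

/-- The exponent `(i, k)`. -/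
def pairExp (i k : ℕ) : Fin 2 →₀ ℕ := Finsupp.single 0 i + Finsupp.single 1 k

theorem pairExp_apply_zero (i k : ℕ) : pairExp i k 0 = i := by simp [pairExp]

theorem pairExp_apply_one (i k : ℕ) : pairExp i k 1 = k := by simp [pairExp]

theorem pairExp_eq (d : Fin 2 →₀ ℕ) : pairExp (d 0) (d 1) = d := by
  ext i; fin_cases i <;> simp [pairExp]

theorem X_zero_mul_X_one : (MvPowerSeries.X 0 * MvPowerSeries.X 1 : MvPowerSeries (Fin 2) C) =
    MvPowerSeries.monomial (pairExp 1 1) 1 := by
  rw [MvPowerSeries.X, MvPowerSeries.X, MvPowerSeries.monomial_mul_monomial, one_mul]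
  rfl

/-- Every series is congruent modulo `R L - π` to one supported on the axes. -/
theorem exists_axes [IsLocalRing C] [IsAdicComplete (maximalIdeal C) C] {π : C}
    (hπ : π ∈ maximalIdeal C) (F : MvPowerSeries (Fin 2) C) :
    ∃ G E : MvPowerSeries (Fin 2) C,
      F = (MvPowerSeries.X 0 * MvPowerSeries.X 1 - MvPowerSeries.C π) * G + E ∧
      ∀ i k, i ≠ 0 → k ≠ 0 → MvPowerSeries.coeff (pairExp i k) E = 0 := by
  classical
  let f : ℕ → ℕ → C := fun i k => MvPowerSeries.coeff (pairExp i k) F
  let S : ℕ → ℕ → ℕ → C := fun i k N => ∑ l ∈ Finset.range N, π ^ l * f (i + l) (k + l)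
  have hcauchy : ∀ i k {a b : ℕ}, a ≤ b → S i k a - S i k b ∈ maximalIdeal C ^ a := by
    intro i k a b hab
    rw [← neg_sub, neg_mem_iff, ← Finset.sum_Ico_eq_sub _ hab]
    refine sum_mem fun l hl => Ideal.mul_mem_right _ _ ?_
    exact Ideal.pow_le_pow_right (Finset.mem_Ico.mp hl).1 (Ideal.pow_mem_pow hπ l)
  have hlim : ∀ i k, ∃ L : C, ∀ N, S i k N - L ∈ maximalIdeal C ^ N := by
    intro i k
    obtain ⟨L, hL⟩ := IsPrecomplete.prec' (I := maximalIdeal C) (M := C) (S i k)
      (fun {a b} hab => by
        rw [SModEq.sub_mem, smul_eq_mul, Ideal.mul_top]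
        exact hcauchy i k hab)
    exact ⟨L, fun N => by simpa [SModEq.sub_mem, smul_eq_mul, Ideal.mul_top] using hL N⟩
  choose Z hZ using hlim
  have hrec : ∀ i k, Z i k = f i k + π * Z (i + 1) (k + 1) := by
    intro i k
    refine sub_eq_zero.mp (IsHausdorff.haus' (I := maximalIdeal C) (M := C) _ fun N => ?_)
    rw [SModEq.zero, smul_eq_mul, Ideal.mul_top]
    have h1 : S i k (N + 1) = f i k + π * S (i + 1) (k + 1) N := by
      simp only [S, Finset.sum_range_succ', Finset.mul_sum, pow_zero, one_mul, add_zero]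
      rw [add_comm]
      congr 1
      exact Finset.sum_congr rfl fun l _ => by
        rw [pow_succ', mul_assoc, add_assoc i, add_comm 1 l, add_assoc k, add_comm 1 l]
    have e : Z i k - (f i k + π * Z (i + 1) (k + 1)) =
        -(S i k (N + 1) - Z i k) + π * (S (i + 1) (k + 1) N - Z (i + 1) (k + 1)) := by
      rw [h1]; ring
    rw [e]
    exact add_mem (neg_mem (Ideal.pow_le_pow_right N.le_succ (hZ i k (N + 1))))
      (Ideal.mul_mem_left _ _ (hZ (i + 1) (k + 1) N))
  let G : MvPowerSeries (Fin 2) C := fun d => Z (d 0 + 1) (d 1 + 1)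
  let E : MvPowerSeries (Fin 2) C := fun d => if d 0 = 0 ∨ d 1 = 0 then Z (d 0) (d 1) else 0
  have hG : ∀ d, MvPowerSeries.coeff d G = Z (d 0 + 1) (d 1 + 1) := fun d => rfl
  have hE : ∀ d, MvPowerSeries.coeff d E = if d 0 = 0 ∨ d 1 = 0 then Z (d 0) (d 1) else 0 :=
    fun d => rfl
  refine ⟨G, E, MvPowerSeries.ext fun d => ?_, fun i k hi hk => ?_⟩
  · rw [map_add, sub_mul, map_sub, MvPowerSeries.coeff_C_mul, X_zero_mul_X_one,
      MvPowerSeries.coeff_monomial_mul, hE]
    have hf : MvPowerSeries.coeff d F = f (d 0) (d 1) := by rw [← pairExp_eq d]; simp [f, pairExp]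
    rw [hf]
    by_cases h : d 0 = 0 ∨ d 1 = 0
    · have hle : ¬ pairExp 1 1 ≤ d := fun hle => by
        rcases h with h | h
        · have := hle 0; rw [pairExp_apply_zero, h] at this; omega
        · have := hle 1; rw [pairExp_apply_one, h] at this; omega
      rw [if_neg hle, if_pos h, hG]
      linear_combination (-1 : C) * hrec (d 0) (d 1)
    · push Not at h
      have hle : pairExp 1 1 ≤ d := fun i => by
        fin_cases i <;> simp [pairExp] <;> omega
      rw [if_pos hle, if_neg (by tauto), one_mul, hG, hG]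
      have e0 : (d - pairExp 1 1 : Fin 2 →₀ ℕ) 0 + 1 = d 0 := by
        simp [pairExp_apply_zero]; omega
      have e1 : (d - pairExp 1 1 : Fin 2 →₀ ℕ) 1 + 1 = d 1 := by
        simp [pairExp_apply_one]; omega
      rw [e0, e1]
      linear_combination (-1 : C) * hrec (d 0) (d 1)
  · rw [hE, pairExp_apply_zero, pairExp_apply_one, if_neg (by tauto)]

/-- If the restriction of `F` to the circle `R = ρ(1+T)`, `L = σ/(1+T)` vanishes, then `R L - ρσ`
divides `F`. -/
theorem mem_of_circle [IsDomain C] [IsLocalRing C] [IsAdicComplete (maximalIdeal C) C]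
    {ρ σ : C} (hρ : ρ ∈ maximalIdeal C) (hσ : σ ∈ maximalIdeal C) (hρ0 : ρ ≠ 0) (hσ0 : σ ≠ 0)
    (F : MvPowerSeries (Fin 2) C) (Ev : MvPowerSeries (Fin 2) C →ₐ[C] PowerSeries C)
    (h0 : Ev (MvPowerSeries.X 0) = PowerSeries.C ρ * (1 + PowerSeries.X))
    (h1 : Ev (MvPowerSeries.X 1) = PowerSeries.C σ * Ring.inverse (1 + PowerSeries.X))
    (hF : Ev F = 0) :
    ∃ G, F = (MvPowerSeries.X 0 * MvPowerSeries.X 1 - MvPowerSeries.C (ρ * σ)) * G := by
  classical
  obtain ⟨G, E, hFE, hE⟩ := exists_axes (Ideal.mul_mem_left _ ρ hσ) F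
  refine ⟨G, ?_⟩
  suffices hE0 : E = 0 by rw [hFE, hE0, add_zero]
  have hu : IsUnit (1 + PowerSeries.X : PowerSeries C) := by
    rw [PowerSeries.isUnit_iff_constantCoeff]; simp
  have hker : Ev E = 0 := by
    have hc : Ev (MvPowerSeries.C (ρ * σ)) = PowerSeries.C (ρ * σ) := Ev.commutes _
    have hz : Ev (MvPowerSeries.X 0 * MvPowerSeries.X 1 - MvPowerSeries.C (ρ * σ)) = 0 := by
      rw [map_sub, map_mul, h0, h1, hc, map_mul]
      linear_combination PowerSeries.C ρ * PowerSeries.C σ * Ring.mul_inverse_cancel _ hu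
    rw [hFE, map_add, map_mul, hz, zero_mul, zero_add] at hF
    exact hF
  let a : ℕ → C := fun n => MvPowerSeries.coeff (pairExp n 0) E
  let b : ℕ → C := fun n => if n = 0 then 0 else MvPowerSeries.coeff (pairExp 0 n) E
  have key : ∀ M, ∀ n < M, a n * ρ ^ n ∈ maximalIdeal C ^ M ∧
      b n * σ ^ n ∈ maximalIdeal C ^ M := by
    intro M
    -- split off the high order terms
    let R₀ : MvPowerSeries (Fin 2) C := fun d => if d 1 = 0 then a (d 0 + M) else 0
    let R₁ : MvPowerSeries (Fin 2) C := fun d => if d 0 = 0 then b (d 1 + M) else 0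
    let P : MvPowerSeries (Fin 2) C :=
      ∑ n ∈ Finset.range M, (MvPowerSeries.C (a n) * MvPowerSeries.X 0 ^ n +
        MvPowerSeries.C (b n) * MvPowerSeries.X 1 ^ n)
    have hsplit : E = P + MvPowerSeries.X 0 ^ M * R₀ + MvPowerSeries.X 1 ^ M * R₁ := by
      refine MvPowerSeries.ext fun d => ?_
      obtain ⟨i, k, rfl⟩ : ∃ i k, d = pairExp i k := ⟨_, _, (pairExp_eq d).symm⟩
      have hR₀ : ∀ i k, MvPowerSeries.coeff (pairExp i k) R₀ = if k = 0 then a (i + M) else 0 :=
        fun i k => by
          show (if pairExp i k 1 = 0 then a (pairExp i k 0 + M) else 0) = _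
          rw [pairExp_apply_zero, pairExp_apply_one]
      have hR₁ : ∀ i k, MvPowerSeries.coeff (pairExp i k) R₁ = if i = 0 then b (k + M) else 0 :=
        fun i k => by
          show (if pairExp i k 0 = 0 then b (pairExp i k 1 + M) else 0) = _
          rw [pairExp_apply_zero, pairExp_apply_one]
      have hs0 : Finsupp.single (0 : Fin 2) M = pairExp M 0 := by simp [pairExp]
      have hs1 : Finsupp.single (1 : Fin 2) M = pairExp 0 M := by simp [pairExp]
      have hle0 : pairExp M 0 ≤ pairExp i k ↔ M ≤ i := by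
        refine ⟨fun h => by simpa [pairExp_apply_zero] using h 0, fun h l => ?_⟩
        fin_cases l <;> simp [pairExp, h]
      have hle1 : pairExp 0 M ≤ pairExp i k ↔ M ≤ k := by
        refine ⟨fun h => by simpa [pairExp_apply_one] using h 1, fun h l => ?_⟩
        fin_cases l <;> simp [pairExp, h]
      have hd0 : pairExp i k - pairExp M 0 = pairExp (i - M) k := by
        ext l; fin_cases l <;> simp [pairExp]
      have hd1 : pairExp i k - pairExp 0 M = pairExp i (k - M) := by
        ext l; fin_cases l <;> simp [pairExp]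
      have heq : ∀ i' k', pairExp i k = pairExp i' k' ↔ i = i' ∧ k = k' := fun i' k' =>
        ⟨fun h => ⟨by simpa [pairExp_apply_zero] using congrArg (· 0) h,
          by simpa [pairExp_apply_one] using congrArg (· 1) h⟩, fun h => by rw [h.1, h.2]⟩
      have hP : MvPowerSeries.coeff (pairExp i k) P =
          (if k = 0 ∧ i < M then a i else 0) + (if i = 0 ∧ k < M then b k else 0) := by
        simp only [P, map_sum, map_add, MvPowerSeries.coeff_C_mul, MvPowerSeries.coeff_X_pow]
        have e0 : ∀ n, Finsupp.single (0 : Fin 2) n = pairExp n 0 := fun n => by simp [pairExp]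
        have e1 : ∀ n, Finsupp.single (1 : Fin 2) n = pairExp 0 n := fun n => by simp [pairExp]
        simp only [e0, e1, heq, mul_ite, mul_one, mul_zero, Finset.sum_add_distrib]
        congr 1
        · by_cases hk : k = 0
          · simp [hk, Finset.sum_ite_eq]
          · simp [hk]
        · by_cases hi : i = 0
          · simp [hi, Finset.sum_ite_eq]
          · simp [hi]
      simp only [map_add, hP, MvPowerSeries.X_pow_eq, hs0, hs1, MvPowerSeries.coeff_monomial_mul,
        hd0, hd1, hR₀, hR₁, one_mul, hle0, hle1]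
      rcases Nat.eq_zero_or_pos i with rfl | hi <;> rcases Nat.eq_zero_or_pos k with rfl | hk
      · rcases Nat.eq_zero_or_pos M with rfl | hM
        · simp [a, b]
        · simp [a, b, hM, hM.ne', Nat.not_le.mpr hM]
      · by_cases hkM : k < M
        · simp [b, hk.ne', hkM, Nat.not_le.mpr hkM]
        · push Not at hkM
          simp [b, hk.ne', hkM, Nat.not_lt.mpr hkM, Nat.sub_add_cancel hkM]
      · by_cases hiM : i < M
        · simp [a, hi.ne', hiM, Nat.not_le.mpr hiM]
        · push Not at hiM
          simp [a, hi.ne', hiM, Nat.not_lt.mpr hiM, Nat.sub_add_cancel hiM]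
      · simp [hE i k hi.ne' hk.ne', hi.ne', hk.ne']
    -- reduce modulo `𝔪 ^ M`
    let q : PowerSeries C →+* PowerSeries (C ⧸ maximalIdeal C ^ M) :=
      PowerSeries.map (Ideal.Quotient.mk _)
    let η := Ideal.Quotient.mk (maximalIdeal C ^ M)
    have hq : ∀ c : C, q (PowerSeries.C c) = PowerSeries.C (η c) := fun c => by
      simp [q, η, PowerSeries.map_C]
    have hqX : q (1 + PowerSeries.X) = 1 + PowerSeries.X := by simp [q]
    have hpow : ∀ {x : C}, x ∈ maximalIdeal C → η (x ^ M) = 0 := fun hx =>
      Ideal.Quotient.eq_zero_iff_mem.mpr (Ideal.pow_mem_pow hx M)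
    have hEP : q (Ev P) = 0 := by
      have := congrArg q (congrArg Ev hsplit)
      simp only [hker, map_zero, map_add, map_mul, map_pow, h0, h1, hq] at this
      rw [mul_pow, mul_pow, ← map_pow, ← map_pow, ← map_pow, ← map_pow, hpow hρ, hpow hσ] at this
      simpa using this.symm
    -- clear the denominators
    let p : Polynomial (C ⧸ maximalIdeal C ^ M) :=
      ∑ n ∈ Finset.range M, (Polynomial.C (η (a n * ρ ^ n)) * Polynomial.X ^ (M + n) +
        Polynomial.C (η (b n * σ ^ n)) * Polynomial.X ^ (M - n))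
    have hp : ((p.comp (1 + Polynomial.X) : Polynomial _) : PowerSeries _) =
        q ((1 + PowerSeries.X) ^ M * Ev P) := by
      simp only [p, P, map_sum, Polynomial.sum_comp, Finset.mul_sum,
        ← Polynomial.coeToPowerSeries.ringHom_apply]
      refine Finset.sum_congr rfl fun n hn => ?_
      have hca : Ev (MvPowerSeries.C (a n)) = PowerSeries.C (a n) := Ev.commutes _
      have hcb : Ev (MvPowerSeries.C (b n)) = PowerSeries.C (b n) := Ev.commutes _
      have hMn : (1 + PowerSeries.X : PowerSeries C) ^ M * Ring.inverse (1 + PowerSeries.X) ^ n =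
          (1 + PowerSeries.X) ^ (M - n) := by
        conv_lhs => rw [← Nat.sub_add_cancel (Finset.mem_range.mp hn).le, pow_add, mul_assoc,
          ← mul_pow, Ring.mul_inverse_cancel _ hu, one_pow, mul_one]
      have e : (1 + PowerSeries.X) ^ M * (Ev (MvPowerSeries.C (a n) * MvPowerSeries.X 0 ^ n +
            MvPowerSeries.C (b n) * MvPowerSeries.X 1 ^ n)) =
          PowerSeries.C (a n * ρ ^ n) * (1 + PowerSeries.X) ^ (M + n) +
            PowerSeries.C (b n * σ ^ n) * (1 + PowerSeries.X) ^ (M - n) := by
        rw [map_add, map_mul, map_mul, map_pow, map_pow, h0, h1, hca, hcb, mul_pow, mul_pow,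
          map_mul, map_mul, map_pow, map_pow, ← hMn]
        ring
      rw [e]
      simp [q, η, PowerSeries.map_C, Polynomial.add_comp, Polynomial.mul_comp, Polynomial.X_pow_comp]
    have hp0 : p = 0 := by
      rw [map_mul, hEP, mul_zero, ← Polynomial.coe_zero, Polynomial.coe_inj] at hp
      have := congrArg (fun r => r.comp (Polynomial.X - 1)) hp
      simpa [Polynomial.comp_assoc] using this
    intro n hn
    have hco : ∀ l, p.coeff l = ∑ k ∈ Finset.range M,
        ((if l = M + k then η (a k * ρ ^ k) else 0) + if l = M - k then η (b k * σ ^ k) else 0) := by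
      intro l
      simp only [p, Polynomial.finsetSum_coeff, Polynomial.coeff_add, Polynomial.coeff_C_mul_X_pow]
    constructor
    · rcases Nat.eq_zero_or_pos n with rfl | hn0
      · have := hco M
        rw [hp0, Polynomial.coeff_zero, Finset.sum_eq_single 0 (fun k hk hk0 => by
          have := Finset.mem_range.mp hk
          rw [if_neg (by omega), if_neg (by omega), add_zero]) (fun h => absurd (Finset.mem_range.mpr hn) h)] at this
        rw [← Ideal.Quotient.eq_zero_iff_mem]
        simpa [b, η] using this.symm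
      · have := hco (M + n)
        rw [hp0, Polynomial.coeff_zero, Finset.sum_eq_single n (fun k hk hk0 => by
          rw [if_neg (by omega), if_neg (by omega), add_zero])
          (fun h => absurd (Finset.mem_range.mpr hn) h), if_pos rfl, if_neg (by omega),
          add_zero] at this
        exact Ideal.Quotient.eq_zero_iff_mem.mp this.symm
    · rcases Nat.eq_zero_or_pos n with rfl | hn0
      · simp [b]
      · have := hco (M - n)
        rw [hp0, Polynomial.coeff_zero, Finset.sum_eq_single n (fun k hk hk0 => by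
          have := Finset.mem_range.mp hk
          rw [if_neg (by omega), if_neg (by omega), add_zero])
          (fun h => absurd (Finset.mem_range.mpr hn) h), if_neg (by omega), if_pos rfl,
          zero_add] at this
        exact Ideal.Quotient.eq_zero_iff_mem.mp this.symm
  have hzero : ∀ n, a n = 0 ∧ b n = 0 := by
    intro n
    constructor
    · refine (mul_eq_zero.mp (IsHausdorff.haus' (I := maximalIdeal C) (M := C) _ fun M => ?_)
        ).resolve_right (pow_ne_zero n hρ0)
      rw [SModEq.zero, smul_eq_mul, Ideal.mul_top]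
      exact Ideal.pow_le_pow_right (by omega) ((key (M + n + 1) n (by omega)).1)
    · refine (mul_eq_zero.mp (IsHausdorff.haus' (I := maximalIdeal C) (M := C) _ fun M => ?_)
        ).resolve_right (pow_ne_zero n hσ0)
      rw [SModEq.zero, smul_eq_mul, Ideal.mul_top]
      exact Ideal.pow_le_pow_right (by omega) ((key (M + n + 1) n (by omega)).2)
  refine MvPowerSeries.ext fun d => ?_
  obtain ⟨i, k, rfl⟩ : ∃ i k, d = pairExp i k := ⟨_, _, (pairExp_eq d).symm⟩
  rw [map_zero]
  by_cases hk : k = 0
  · subst hk; exact (hzero i).1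
  by_cases hi : i = 0
  · subst hi; simpa [b, hk] using (hzero k).2
  exact hE i k hi hk

end Fermat.Agent.RT.LocalParam
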