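import Fermat.Agent.RT.LocalParam.Setup

/-!
# Coordinates of pairs of matrices around their residual centres
-/

set_option autoImplicit false

noncomputable section

namespace Fermat.Agent.RT.LocalParam

open IsLocalRing Matrix Fermat.Agent.RT.LocalRing

variable {J τ O : Type} [CommRing O]

section

variable {B : Type} [CommRing B] [Algebra O B]

/-- The coordinates of a family of pairs with centres `cen`. -/
def coordsC (cen : J → Mat O × Mat O) (x : Cfg J τ B) : Idx J τ → B
  | Sum.inl (j, false, a, b) => (x.1 j).1 a b - algebraMap O B ((cen j).1 a b)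
  | Sum.inl (j, true, a, b) => (x.1 j).2 a b - algebraMap O B ((cen j).2 a b)
  | Sum.inr t => x.2 t

/-- The family with given coordinates. -/
def cfgC (cen : J → Mat O × Mat O) (v : Idx J τ → B) : Cfg J τ B :=
  (fun j => ((cen j).1.map (algebraMap O B) + Matrix.of fun a b => v (Sum.inl (j, false, a, b)),
      (cen j).2.map (algebraMap O B) + Matrix.of fun a b => v (Sum.inl (j, true, a, b))),
    fun t => v (Sum.inr t))

theorem coordsC_cfgC (cen : J → Mat O × Mat O) (v : Idx J τ → B) :
    coordsC cen (cfgC cen v) = v := by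
  funext i
  rcases i with ⟨j, s, a, b⟩ | t
  · cases s <;> simp [coordsC, cfgC]
  · rfl

theorem cfgC_coordsC (cen : J → Mat O × Mat O) (x : Cfg J τ B) :
    cfgC cen (coordsC cen x) = x := by
  refine Prod.ext (funext fun j => Prod.ext ?_ ?_) rfl <;> ext a b <;> simp [coordsC, cfgC]

variable {C : Type} [CommRing C] [Algebra O C]

theorem map_coordsC (f : B →ₐ[O] C) (cen : J → Mat O × Mat O) (x : Cfg J τ B) (i : Idx J τ) :
    f (coordsC cen x i) = coordsC cen (mapCfg f x) i := by
  rcases i with ⟨j, s, a, b⟩ | t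
  · cases s <;> simp [coordsC, mapCfg]
  · rfl

theorem mapCfg_cfgC (f : B →ₐ[O] C) (cen : J → Mat O × Mat O) (v : Idx J τ → B) :
    mapCfg f (cfgC cen v) = cfgC cen (f ∘ v) := by
  refine Prod.ext (funext fun j => Prod.ext ?_ ?_) rfl <;> ext a b <;> simp [cfgC, mapCfg]

theorem mapCfg_comp {D : Type} [CommRing D] [Algebra O D] (g : C →ₐ[O] D) (f : B →ₐ[O] C)
    (x : Cfg J τ B) : mapCfg g (mapCfg f x) = mapCfg (g.comp f) x := by
  refine Prod.ext (funext fun j => Prod.ext ?_ ?_) rfl <;> ext a b <;> simp [mapCfg]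

/-- The pair reduces to the centre. -/
def Near [IsLocalRing B] (c : Mat O × Mat O) (q : Mat B × Mat B) : Prop :=
  MemMax (q.1 - c.1.map (algebraMap O B)) ∧ MemMax (q.2 - c.2.map (algebraMap O B))

theorem coordsC_mem [IsLocalRing B] {cen : J → Mat O × Mat O} {x : Cfg J τ B}
    (h : ∀ j, Near (cen j) (x.1 j)) (h3 : ∀ t, x.2 t ∈ maximalIdeal B) (i : Idx J τ) :
    coordsC cen x i ∈ maximalIdeal B := by
  rcases i with ⟨j, s, a, b⟩ | t
  · cases s
    · exact (h j).1 a b
    · exact (h j).2 a b
  · exact h3 t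

theorem near_cfgC [IsLocalRing B] {cen : J → Mat O × Mat O} {v : Idx J τ → B}
    (h : ∀ i, v i ∈ maximalIdeal B) (j : J) : Near (cen j) ((cfgC cen v).1 j) :=
  ⟨fun a b => by simpa [cfgC] using h (Sum.inl (j, false, a, b)),
    fun a b => by simpa [cfgC] using h (Sum.inl (j, true, a, b))⟩

theorem Near.map [IsLocalRing B] [IsLocalRing C] {c : Mat O × Mat O} {q : Mat B × Mat B}
    (h : Near c q) (f : B →ₐ[O] C) (hf : ∀ x ∈ maximalIdeal B, f x ∈ maximalIdeal C) :
    Near c (q.1.map f, q.2.map f) :=
  ⟨fun a b => by simpa using hf _ (h.1 a b), fun a b => by simpa using hf _ (h.2 a b)⟩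

end

variable [IsLocalRing O] {p m : ℕ}

/-- The centres of a setup. -/
def Setup.cen (s : Setup J O p m) (j : J) : Mat O × Mat O := (s.kind j).centre (s.n j)

theorem phiAt_eq {B : Type} [CommRing B] [Algebra O B] (s : Setup J O p m) (v : Idx J τ → B)
    (j : J) : phiAt s v j = ((cfgC s.cen v).1 j).1 := rfl

theorem sigAt_eq {B : Type} [CommRing B] [Algebra O B] (s : Setup J O p m) (v : Idx J τ → B)
    (j : J) : sigAt s v j = ((cfgC s.cen v).1 j).2 := rfl

section Unipotent

variable {A : Type} [CommRing A]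

/-- Powers of a matrix with characteristic polynomial `(X - 1)²`. -/
theorem unipotent_pow {M : Mat A} (ht : M.trace = 2) (hd : M.det = 1) (k : ℕ) :
    M ^ k = !![1 + k * (M 0 0 - 1), k * M 0 1; k * M 1 0, 1 - k * (M 0 0 - 1)] := by
  rw [Matrix.trace_fin_two] at ht
  rw [Matrix.det_fin_two] at hd
  have h11 : M 1 1 = 2 - M 0 0 := by linear_combination ht
  rw [h11] at hd
  induction k with
  | zero => ext i j; fin_cases i <;> fin_cases j <;> simp
  | succ k ih =>
    rw [pow_succ, ih]
    ext i j
    fin_cases i <;> fin_cases j <;> simp [Matrix.mul_apply, Fin.sum_univ_two, h11]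
    · linear_combination -(k : A) * hd
    · ring
    · ring
    · linear_combination -(k : A) * hd

/-- Unipotent inertia for a diagonalisable Frobenius with eigenvalue ratio `n`, `n² - 1` a
unit, is upper triangular. -/
theorem special_unipotent {n β y : A} {k : ℕ} (hk : (k : A) = n) (hn : IsUnit n)
    (hn2 : IsUnit (n * n - 1)) (hβ : β * β = 1) {M : Mat A} (ht : M.trace = 2) (hd : M.det = 1)
    (hcomm : upT (n * β) β y * M = M ^ k * upT (n * β) β y) : M = upT 1 1 (M 0 1) := by
  rw [unipotent_pow ht hd, hk] at hcomm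
  have e00 := congrFun (congrFun hcomm 0) 0
  have e10 := congrFun (congrFun hcomm 1) 0
  simp [Matrix.mul_apply, Fin.sum_univ_two, upT] at e00 e10
  have hβu : IsUnit β := IsUnit.of_mul_eq_one _ hβ
  have hn1 : IsUnit (n - 1) := isUnit_of_mul_isUnit_left
    (show IsUnit ((n - 1) * (n + 1)) by rwa [show (n - 1) * (n + 1) = n * n - 1 by ring])
  have h10 : M 1 0 = 0 := (hβu.mul hn2).mul_left_cancel (by
    rw [mul_zero]; linear_combination -e10)
  have h00 : M 0 0 = 1 := ((hn.mul hβu).mul hn1).mul_left_cancel (by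
    rw [h10, mul_zero] at e00; linear_combination -e00)
  have h11 : M 1 1 = 1 := by
    rw [Matrix.trace_fin_two, h00] at ht
    linear_combination ht
  ext i j
  fin_cases i <;> fin_cases j <;> simp [upT, h00, h10, h11]

end Unipotent

end Fermat.Agent.RT.LocalParam
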