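import Fermat.Agent.RT.LocalParam.StepJordan

/-!
# Every admissible family kills the kernel of the product of charts
-/

set_option autoImplicit false

noncomputable section

namespace Fermat.Agent.RT.LocalParam

open IsLocalRing Fermat.Agent.RT.LocalRing

variable {J τ O : Type} [CommRing O] [IsLocalRing O] [IsAdicComplete (maximalIdeal O) O]
  [Finite J] [Finite τ] {p m : ℕ} {s : Setup J O p m} {pr : J → Prm O}
  {V : Type} [CommRing V] [IsDomain V] [IsDiscreteValuationRing V]
  [IsAdicComplete (maximalIdeal V) V] [Algebra O V] [IsLocalHom (algebraMap O V)]

/-- Every admissible family is killed: one prime at a time. -/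
theorem killed_of_adm (h : Admissible s pr) (hinj : Function.Injective (algebraMap O V))
    {x : Cfg J τ V} (ht : ∀ t, x.2 t ∈ maximalIdeal V) (hx : ∀ j, Adm s pr j (x.1 j)) :
    Killed h x := by
  classical
  have hfin : Set.Finite (Set.univ : Set J) := Set.finite_univ
  suffices key : ∀ (S : Finset J) (y : J → Mat V × Mat V),
      (∀ j ∈ S, Adm s pr j (y j)) → (∀ j, j ∉ S → Base s pr j (y j)) → Killed h (y, x.2) from
    key hfin.toFinset x.1 (fun j _ => hx j) (fun j hj => absurd (hfin.mem_toFinset.mpr trivial) hj)
  intro S
  induction S using Finset.induction_on with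
  | empty => exact fun y _ hy => killed_of_base h (fun j => hy j (Finset.notMem_empty j)) ht
  | insert j S hj ih =>
    intro y hadm hy
    have hq := hadm j (Finset.mem_insert_self j S)
    have hnear : ∀ i, i ≠ j → Near (s.cen i) (y i) := fun i hi => by
      by_cases hiS : i ∈ S
      · exact (hadm i (Finset.mem_insert_of_mem hiS)).1
      · exact (hy i (by simp [hi, hiS])).near h
    have hbase : ∀ q, Base s pr j q → Killed h (Function.update y j q, x.2) := fun q hq => by
      refine ih _ (fun i hi => ?_) fun i hi => ?_
      · have : i ≠ j := fun e => hj (e ▸ hi)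
        simpa [Function.update_of_ne this] using hadm i (Finset.mem_insert_of_mem hi)
      · rcases eq_or_ne i j with rfl | hij
        · simpa using hq
        · simpa [Function.update_of_ne hij] using hy i (by simp [hi, hij])
    rw [show y = Function.update y j (y j) from (Function.update_eq_self j y).symm]
    rcases hk : s.kind j with ε | ε | ⟨β, y₀⟩ | β
    · exact killed_scalar h hinj (x := (y, x.2)) hk ht hnear hbase hq
    · exact killed_jordan h hinj (x := (y, x.2)) hk ht hnear hbase hq
    · exact hbase _ (base_steinberg h hk hq)
    · exact hbase _ (base_special hk hq)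

end Fermat.Agent.RT.LocalParam
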