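import Fermat.Agent.RT.LocalParam.Charts
import Fermat.Agent.RT.LocalParam.Circle
import Mathlib.RingTheory.MvPowerSeries.NoZeroDivisors

/-!
# The kernel of a product of charts, and the points killing it
-/

set_option autoImplicit false

noncomputable section

namespace Fermat.Agent.RT.LocalParam

open IsLocalRing Matrix Fermat.Agent.RT.LocalRing

section Targets

variable {O V : Type} [CommRing O] [CommRing V] [Algebra O V] {σ : Type}

/-- The map `O → V⟦X⟧` is local if `O → V` is. -/
theorem isLocalHom_series [IsLocalHom (algebraMap O V)] :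
    IsLocalHom (algebraMap O (MvPowerSeries σ V)) := by
  have : IsLocalHom (algebraMap V (MvPowerSeries σ V)) :=
    ⟨fun c hc => by
      rw [MvPowerSeries.algebraMap_apply, MvPowerSeries.isUnit_iff_constantCoeff,
        MvPowerSeries.constantCoeff_C] at hc
      simpa using hc⟩
  rw [IsScalarTower.algebraMap_eq O V (MvPowerSeries σ V)]
  exact RingHom.isLocalHom_comp _ _

theorem X_mem [IsLocalRing V] (i : σ) :
    (MvPowerSeries.X i : MvPowerSeries σ V) ∈ maximalIdeal (MvPowerSeries σ V) := by
  rw [IsLocalRing.mem_maximalIdeal, mem_nonunits_iff, MvPowerSeries.isUnit_iff_constantCoeff,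
    MvPowerSeries.constantCoeff_X]
  exact not_isUnit_zero

theorem C_mem [IsLocalRing V] {v : V} (h : v ∈ maximalIdeal V) :
    algebraMap V (MvPowerSeries σ V) v ∈ maximalIdeal (MvPowerSeries σ V) := by
  rw [IsLocalRing.mem_maximalIdeal, mem_nonunits_iff, MvPowerSeries.algebraMap_apply,
    MvPowerSeries.isUnit_iff_constantCoeff, MvPowerSeries.constantCoeff_C]
  exact h

theorem isDomain_series [IsDomain V] : IsDomain (MvPowerSeries σ V) := NoZeroDivisors.to_isDomain _

end Targets

variable {J τ O : Type} [CommRing O] [IsLocalRing O] {p m : ℕ}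

/-- The parameter ring: `(u, t₁, t₂)` at each `j`, and the free variables. -/
abbrev Om (J τ O : Type) : Type := MvPowerSeries ((J × Fin 3) ⊕ τ) O

/-- The universal family of charts. -/
def omCfg (s : Setup J O p m) (pr : J → Prm O) : Cfg J τ (Om J τ O) :=
  (fun j => chart s (pr j) j (MvPowerSeries.X (Sum.inl (j, 0))) (MvPowerSeries.X (Sum.inl (j, 1)))
      (MvPowerSeries.X (Sum.inl (j, 2))),
    fun t => MvPowerSeries.X (Sum.inr t))

/-- Constants for every prime: small, and valid at the twisted primes. -/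
structure Admissible (s : Setup J O p m) (pr : J → Prm O) : Prop where
  prime_mem : (p : O) ∈ maximalIdeal O
  two : IsUnit (2 : O)
  small : ∀ j, (pr j).Small
  good : ∀ j, (s.kind j).isTwisted = true → (pr j).Good (s.n j)

variable {s : Setup J O p m} {pr : J → Prm O}

section MapChart

variable {A B : Type} [CommRing A] [CommRing B] [Algebra O A] [Algebra O B] [IsLocalRing A]
  [IsLocalHom (algebraMap O A)]

theorem map_chart (h : Admissible s pr) (f : A →ₐ[O] B) (j : J) (u : A) {t₁ t₂ : A}
    (h1 : t₁ ∈ maximalIdeal A) (h2 : t₂ ∈ maximalIdeal A) :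
    ((chart s (pr j) j u t₁ t₂).1.map f, (chart s (pr j) j u t₁ t₂).2.map f) =
      chart s (pr j) j (f u) (f t₁) (f t₂) := by
  show mapPair (f : A →+* B) _ = _
  have hc : ∀ x, (f : A →+* B) (algebraMap O A x) = algebraMap O B x := f.commutes
  have hn : ∀ k : ℕ, (f : A →+* B) (k : A) = k := map_natCast _
  rcases hk : s.kind j with ε | ε | ⟨β, y₀⟩ | β
  · simp only [chart, hk]
    rw [mapPair_scalarPair _ _ _ _ _ _ _ _ (isUnit_one_add h1)]
    simp only [hc, hn]
    rfl
  · obtain ⟨-, -, -, hρ, hσ⟩ := h.small j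
    have hR : algebraMap O A (pr j).ρ * (1 + t₂) ∈ maximalIdeal A :=
      Ideal.mul_mem_right _ _ (algebraMap_mem hρ)
    have hL : algebraMap O A (pr j).σ * Ring.inverse (1 + t₂) ∈ maximalIdeal A :=
      Ideal.mul_mem_right _ _ (algebraMap_mem hσ)
    simp only [chart, hk]
    rw [mapPair_jordanPair _ _ _ _ _ _ _ _ _ _ (isUnit_one_add hR) ?_]
    · simp only [map_mul, map_add, map_one, hc, hn, map_inverse_of_isUnit _ (isUnit_one_add h2)]
      rfl
    · rw [add_sub_assoc]
      exact isUnit_two_add (by have := h.two.map (algebraMap O A); rwa [map_ofNat] at this)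
        (sub_mem hR (Ideal.mul_mem_left _ _ hL))
  · simp only [chart, hk]
    rw [mapPair_steinbergPair]
    simp only [hc, hn]
    rfl
  · simp only [chart, hk]
    rw [mapPair_specialPair]
    simp only [hc, hn]
    rfl

end MapChart

variable [Finite J] [Finite τ] [IsAdicComplete (maximalIdeal O) O]

/-- Local homomorphisms out of `P` with given coordinates exist. -/
theorem exists_hom (s : Setup J O p m) {B : Type} [CommRing B] [Algebra O B] [IsLocalRing B]
    [IsAdicComplete (maximalIdeal B) B] {x : Cfg J τ B} (hx : ∀ j, Near (s.cen j) (x.1 j))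
    (hx' : ∀ t, x.2 t ∈ maximalIdeal B) :
    ∃ H : PSR J τ O →ₐ[O] B, ∀ i, H (MvPowerSeries.X i) = coordsC s.cen x i :=
  exists_eval (L := O) (R := B) (coordsC s.cen x) (coordsC_mem hx hx')

omit [Finite J] [Finite τ] [IsAdicComplete (maximalIdeal O) O] in
theorem near_omCfg (h : Admissible s pr) (j : J) :
    Near (s.cen j) ((omCfg (τ := τ) s pr).1 j) := by
  have := isLocalHom_series (O := O) (V := O) (σ := (J × Fin 3) ⊕ τ)
  exact near_chart s h.prime_mem (h.small j) j (X_mem _) (X_mem _) (X_mem _)

variable (τ) in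
theorem exists_omHom (h : Admissible s pr) :
    ∃ F : PSR J τ O →ₐ[O] Om J τ O, ∀ i, F (MvPowerSeries.X i) = coordsC s.cen (omCfg s pr) i := by
  have := mvPowerSeries_isAdicComplete (O := O) (σ := (J × Fin 3) ⊕ τ)
  exact exists_hom s (near_omCfg h) fun t => X_mem _

variable (τ) in
/-- The universal product of charts. -/
def omHom (h : Admissible s pr) : PSR J τ O →ₐ[O] Om J τ O := (exists_omHom τ h).choose

theorem omHom_X (h : Admissible s pr) (i : Idx J τ) :
    omHom τ h (MvPowerSeries.X i) = coordsC s.cen (omCfg s pr) i :=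
  (exists_omHom τ h).choose_spec i

variable (τ) in
/-- The kernel of the universal product of charts. -/
def chartKer (h : Admissible s pr) : Ideal (PSR J τ O) := RingHom.ker (omHom τ h)

theorem isPrime_chartKer [IsDomain O] (h : Admissible s pr) : (chartKer τ h).IsPrime :=
  have := isDomain_series (V := O) (σ := (J × Fin 3) ⊕ τ)
  RingHom.ker_isPrime _

section Killed

variable {V : Type} [CommRing V] [IsLocalRing V] [IsAdicComplete (maximalIdeal V) V]
  [Algebra O V] [IsLocalHom (algebraMap O V)]

/-- The point with the given coordinates kills the kernel. -/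
def Killed (h : Admissible s pr) (x : Cfg J τ V) : Prop :=
  ∀ F : PSR J τ O →ₐ[O] V, (∀ i, F (MvPowerSeries.X i) = coordsC s.cen x i) →
    chartKer τ h ≤ RingHom.ker F

/-- A pair in the chart at `j`. -/
def Base (s : Setup J O p m) (pr : J → Prm O) (j : J) (q : Mat V × Mat V) : Prop :=
  ∃ u t₁ t₂ : V, u ∈ maximalIdeal V ∧ t₁ ∈ maximalIdeal V ∧ t₂ ∈ maximalIdeal V ∧
    q = chart s (pr j) j u t₁ t₂

omit [Finite J] [IsAdicComplete (maximalIdeal O) O] [IsAdicComplete (maximalIdeal V) V] in
theorem Base.near {j : J} {q : Mat V × Mat V} (hb : Base s pr j q) (h : Admissible s pr) :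
    Near (s.cen j) q := by
  obtain ⟨u, t₁, t₂, hu, h1, h2, rfl⟩ := hb
  exact near_chart s h.prime_mem (h.small j) j hu h1 h2

omit [IsLocalRing V] [IsAdicComplete (maximalIdeal V) V] [IsLocalHom (algebraMap O V)] in
/-- A killed point annihilates every presentation of it. -/
theorem Killed.eq_zero {h : Admissible s pr} {B : Type} [CommRing B] [Algebra O B]
    {xB : Cfg J τ B} {x : Cfg J τ V} (hx : Killed h x) {H : PSR J τ O →ₐ[O] B}
    (hH : ∀ i, H (MvPowerSeries.X i) = coordsC s.cen xB i) {E : B →ₐ[O] V}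
    (hE : mapCfg E xB = x) {f : PSR J τ O} (hf : f ∈ chartKer τ h) : E (H f) = 0 :=
  RingHom.mem_ker.mp (hx (E.comp H) (fun i => by rw [AlgHom.comp_apply, hH, map_coordsC, hE]) hf)

omit [IsLocalHom (algebraMap O V)] in
/-- A point with a presentation annihilating the kernel is killed. -/
theorem killed_of_hom (h : Admissible s pr) {B : Type} [CommRing B] [Algebra O B]
    {xB : Cfg J τ B} {x : Cfg J τ V} (hn : ∀ j, Near (s.cen j) (x.1 j))
    (ht : ∀ t, x.2 t ∈ maximalIdeal V) {H : PSR J τ O →ₐ[O] B}
    (hH : ∀ i, H (MvPowerSeries.X i) = coordsC s.cen xB i) {E : B →ₐ[O] V}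
    (hE : mapCfg E xB = x) (hK : ∀ f ∈ chartKer τ h, E (H f) = 0) : Killed h x := by
  intro F hF f hf
  have : F = E.comp H := algHom_ext_X (fun i => hF i ▸ coordsC_mem hn ht i) fun i => by
    rw [hF, AlgHom.comp_apply, hH, map_coordsC, hE]
  rw [RingHom.mem_ker, this, AlgHom.comp_apply, hK f hf]

/-- Families of pairs in the charts are killed. -/
theorem killed_of_base (h : Admissible s pr) {x : Cfg J τ V} (hx : ∀ j, Base s pr j (x.1 j))
    (ht : ∀ t, x.2 t ∈ maximalIdeal V) : Killed h x := by
  choose u t₁ t₂ hu h1 h2 hpair using hx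
  obtain ⟨G, hG⟩ := exists_eval (L := O) (R := V)
    (Sum.elim (fun i : J × Fin 3 => ![u i.1, t₁ i.1, t₂ i.1] i.2) x.2) (by
      rintro (⟨j, k⟩ | t)
      · fin_cases k <;> simp [hu j, h1 j, h2 j, -IsLocalRing.mem_maximalIdeal]
      · exact ht t)
  have := isLocalHom_series (O := O) (V := O) (σ := (J × Fin 3) ⊕ τ)
  refine killed_of_hom h (fun j => ?_) ht (omHom_X h) (E := G) ?_
    fun f hf => by rw [RingHom.mem_ker.mp hf, map_zero]
  · rw [hpair]
    exact near_chart s h.prime_mem (h.small j) j (hu j) (h1 j) (h2 j)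
  · refine Prod.ext (funext fun j => ?_) (funext fun t => hG _)
    refine (map_chart h G j _ (X_mem _) (X_mem _)).trans ?_
    rw [hG, hG, hG, hpair j]
    rfl

end Killed

end Fermat.Agent.RT.LocalParam
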