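import Fermat.Agent.RT.LocalParam.StepScalar

/-!
# Pairs with residual Jordan block, or unipotent inertia, are in triangular charts

* Jordan: a point lies on the annulus `R L = z - z'`; restricted to the circle of the chart it is
  killed, hence so is it;
* Steinberg and special: every point is in the chart.
-/

set_option autoImplicit false

noncomputable section

namespace Fermat.Agent.RT.LocalParam

open IsLocalRing Matrix Fermat.Agent.RT.LocalRing

variable {J τ O : Type} [CommRing O] [IsLocalRing O] {p m : ℕ} {s : Setup J O p m}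
  {pr : J → Prm O}
  {V : Type} [CommRing V] [IsDomain V] [IsDiscreteValuationRing V]
  [Algebra O V] [IsLocalHom (algebraMap O V)]

theorem cj_injective {A : Type} [CommRing A] (g : (Mat A)ˣ) :
    Function.Injective (cj g : Mat A → Mat A) := fun M N e => by
  simpa only [← cj_mul, inv_mul_cancel, cj_one] using congrArg (cj g⁻¹) e

/-- Annulus coordinates of an admissible pair with residual Jordan block. -/
theorem exists_jordan_coords (h : Admissible s pr) (hinj : Function.Injective (algebraMap O V))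
    {j : J} {ε₀ : O} (hk : s.kind j = .jordan ε₀) {q : Mat V × Mat V} (hq : Adm s pr j q) :
    ∃ u y R L : V, u ∈ maximalIdeal V ∧ y ∈ maximalIdeal V ∧ R ∈ maximalIdeal V ∧
      L ∈ maximalIdeal V ∧ R * L = algebraMap O V ((pr j).z - (pr j).z') ∧
      q = jordanPair (algebraMap O V ε₀) (s.n j : V) (algebraMap O V (pr j).z)
        (algebraMap O V (pr j).z') (algebraMap O V (pr j).c) u y R L := by
  have htw : (s.kind j).isTwisted = true := by rw [hk]; rfl
  have hg := h.good j htw
  set ε := algebraMap O V ε₀ with hεdef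
  set z := algebraMap O V (pr j).z with hzdef
  set z' := algebraMap O V (pr j).z' with hz'def
  set c := algebraMap O V (pr j).c with hcdef
  have hε : ε * ε = 1 := eps_sq_of_kind s (Or.inr hk)
  have hne : z ≠ z' := fun e => hg.z_ne (hinj e)
  have hn : (s.n j : V) = 1 + (z - z') * c := by
    rw [← map_natCast (algebraMap O V), hg.n_eq]; simp [hzdef, hz'def, hcdef]
  have hcm : c ∈ maximalIdeal V := algebraMap_mem (h.small j).2.2.1
  obtain ⟨hnear, hdet, hSdet, hrelq, -⟩ := hq
  obtain ⟨hcomm, hStr⟩ := hrelq htw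
  obtain ⟨g, a, a', b, y, hup, -, haa⟩ := exists_up hne hcomm hStr
    (by rw [hSdet, hzdef, hz'def, ← map_mul, hg.z_mul, map_one])
  rw [hdet] at haa
  change q = _ at hup
  have hcen : s.cen j = (!![ε₀, 1; 0, ε₀], 1) := by rw [Setup.cen, hk]; rfl
  rw [hcen] at hnear
  have f00 : q.1 0 0 - ε ∈ maximalIdeal V := by simpa using hnear.1 0 0
  have f01 : q.1 0 1 - 1 ∈ maximalIdeal V := by simpa using hnear.1 0 1
  have f11 : q.1 1 1 - ε ∈ maximalIdeal V := by simpa using hnear.1 1 1
  have s01 : q.2 0 1 ∈ maximalIdeal V := by simpa using hnear.2 0 1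
  have hFg : q.1 * (g : Mat V) = (g : Mat V) * upT a a' y := by
    rw [hup]
    simp only [up, cj, mul_assoc, Units.inv_mul, mul_one]
  have e00 := congrFun (congrFun hFg 0) 0
  simp [Matrix.mul_apply, Fin.sum_univ_two, upT] at e00
  have htr : q.1.trace = a + a' := by rw [hup, up, trace_cj, trace_upT]
  rw [Matrix.trace_fin_two] at htr
  have ha : a - ε ∈ maximalIdeal V := by
    refine (Ideal.IsPrime.mem_or_mem (maximalIdeal.isMaximal V).isPrime ?_).elim id id
    have e : (a - ε) * (a - ε) =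
        a * ((q.1 0 0 - ε) + (q.1 1 1 - ε)) - ((s.n j : V) - 1) := by
      linear_combination hε - haa - a * htr
    rw [e]
    exact sub_mem (Ideal.mul_mem_left _ _ (add_mem f00 f11)) (n_sub_one_mem s h.prime_mem htw)
  have h10 : (g : Mat V) 1 0 ∈ maximalIdeal V := by
    have e : (g : Mat V) 1 0 = (g : Mat V) 0 0 * (a - ε) - (q.1 0 0 - ε) * (g : Mat V) 0 0 -
        (q.1 0 1 - 1) * (g : Mat V) 1 0 := by linear_combination e00
    rw [e]
    exact sub_mem (sub_mem (Ideal.mul_mem_left _ _ ha) (Ideal.mul_mem_right _ _ f00))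
      (Ideal.mul_mem_right _ _ f01)
  obtain ⟨hg00, -⟩ := isUnit_of_mul_sub
    (by rw [← Matrix.det_fin_two]; exact (Matrix.isUnit_iff_isUnit_det _).mp g.isUnit)
    (Ideal.mul_mem_left _ ((g : Mat V) 0 1) h10)
  obtain ⟨P, hP⟩ := hg00
  set u := (g : Mat V) 1 0 * ((P⁻¹ : Vˣ) : V) with hu
  set T := (uL u)⁻¹ * g with hT
  have hT10 : (T : Mat V) 1 0 = 0 := by
    simp [hT, uL, Matrix.mul_apply, Fin.sum_univ_two]
    linear_combination ((g : Mat V) 1 0 * ((P⁻¹ : Vˣ) : V)) * hP - (g : Mat V) 1 0 * Units.inv_mul P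
  obtain ⟨y', hy'⟩ := exists_cj_upper hT10 a a' y
  obtain ⟨b', hb'⟩ := exists_cj_upper hT10 z z' b
  have hgT : g = uL u * T := by rw [hT, mul_inv_cancel_left]
  have hq' : q = up (uL u) z z' a a' b' y' := by
    rw [hup]
    simp only [up]
    rw [← hy', ← hb', ← cj_mul, ← cj_mul, ← hgT]
  have hy1 : q.1 0 1 = y' := by rw [hq', up, cj_uL]; simp [upT]
  have hb1 : q.2 0 1 = b' := by rw [hq']; simp [up, cj_uL, upT]
  have hrel : (z - z') * y' = (a - a') * b' := by
    refine rel_of_comm (cj_injective (uL u) ?_)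
    rw [← cj_mul_cj, ← cj_mul_cj]
    rw [hq'] at hcomm
    exact hcomm
  rw [hy1] at f01
  rw [hb1] at s01
  obtain ⟨Y, hY⟩ := isUnit_of_sub_mem f01 isUnit_one
  set lam := b' * ((Y⁻¹ : Vˣ) : V) with hlam
  have hlamm : lam ∈ maximalIdeal V := Ideal.mul_mem_right _ _ s01
  have hlamy : lam * y' = b' := by rw [hlam, ← hY, mul_assoc, Units.inv_mul, mul_one]
  have hπ : z - z' = (a - a') * lam := by
    refine mul_right_cancel₀ (show y' ≠ 0 from hY ▸ Y.ne_zero) ?_
    rw [mul_assoc, hlamy]; exact hrel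
  set R := ε * a - 1 with hR
  have hRm : R ∈ maximalIdeal V := by
    rw [hR, show ε * a - 1 = ε * (a - ε) by linear_combination hε]
    exact Ideal.mul_mem_left _ _ ha
  have hεu : IsUnit ε := IsUnit.of_mul_eq_one _ hε
  have hden : IsUnit (ε * (1 + R) + c * lam) :=
    isUnit_of_sub_mem (b := ε * (1 + R)) (by simpa using Ideal.mul_mem_left _ c hlamm)
      (hεu.mul (isUnit_one_add hRm))
  set L := lam * (2 + R) * Ring.inverse (ε * (1 + R) + c * lam) with hL
  have hLm : L ∈ maximalIdeal V :=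
    Ideal.mul_mem_right _ _ (Ideal.mul_mem_right _ _ hlamm)
  have hLeq : L * (ε * (1 + R) + c * lam) = lam * (2 + R) := by
    rw [hL, mul_assoc, Ring.inverse_mul_cancel _ hden, mul_one]
  have hu2 : IsUnit (2 + R - c * L) := by
    rw [add_sub_assoc]
    exact isUnit_two_add (by have := h.two.map (algebraMap O V); rwa [map_ofNat] at this)
      (sub_mem hRm (Ideal.mul_mem_left _ _ hLm))
  have hlamL : jordanLam ε c R L = lam := by
    unfold jordanLam
    refine hu2.mul_right_cancel ?_
    rw [mul_assoc, Ring.inverse_mul_cancel _ hu2, mul_one]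
    linear_combination hLeq
  have hua : IsUnit a := isUnit_of_sub_mem ha hεu
  have hone : (1 : V) + R = ε * a := by rw [hR]; ring
  have ha' : a' = ε * (s.n j : V) * Ring.inverse (1 + R) := by
    rw [hone]
    apply (hεu.mul hua).mul_left_cancel
    rw [mul_comm (ε * (s.n j : V)), ← mul_assoc, Ring.mul_inverse_cancel _ (hεu.mul hua), one_mul,
      ← haa, mul_assoc]
  refine ⟨u, y' - 1, R, L, Ideal.mul_mem_right _ _ h10, f01, hRm, hLm, ?_, ?_⟩
  · rw [map_sub]
    refine hden.mul_right_cancel ?_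
    rw [mul_assoc, hLeq]
    have e1 : ε * (1 + R) = a := by rw [hone, ← mul_assoc, hε, one_mul]
    rw [e1]
    linear_combination (lam * (R + ε * a + 1)) * hR + lam * a ^ 2 * hε - (a + c * lam) * hπ +
      lam * haa + lam * hn + lam * c * hπ
  · rw [hq', jordanPair, hlamL, show 1 + (y' - 1) = y' by ring, hlamy, ← ha',
      show ε * (1 + R) = a by rw [hone, ← mul_assoc, hε, one_mul]]

/-- Admissible pairs with unipotent inertia are in the chart. -/
theorem base_steinberg (h : Admissible s pr) {j : J} {β₀ y₀ : O}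
    (hk : s.kind j = .steinberg β₀ y₀) {q : Mat V × Mat V} (hq : Adm s pr j q) :
    Base s pr j q := by
  have htw : (s.kind j).isTwisted = false := by rw [hk]; rfl
  obtain ⟨hβ₀, hnu⟩ := s.steinberg j β₀ y₀ hk
  obtain ⟨hnear, hdet, hSdet, -, hrelq, -⟩ := hq
  obtain ⟨hcomm, hStr⟩ := hrelq htw
  set β := algebraMap O V β₀ with hβdef
  have hβ : β * β = 1 := by rw [hβdef, ← map_mul, hβ₀, map_one]
  have hcen : s.cen j = (!![(s.n j : O) * β₀, y₀; 0, β₀], !![1, 1; 0, 1]) := by
    rw [Setup.cen, hk]; rfl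
  rw [hcen] at hnear
  have f01 : q.1 0 1 - algebraMap O V y₀ ∈ maximalIdeal V := by simpa using hnear.1 0 1
  have f11 : q.1 1 1 - β ∈ maximalIdeal V := by simpa using hnear.1 1 1
  have s01 : q.2 0 1 - 1 ∈ maximalIdeal V := by simpa using hnear.2 0 1
  have s11 : q.2 1 1 - 1 ∈ maximalIdeal V := by simpa using hnear.2 1 1
  rw [Matrix.trace_fin_two] at hStr
  rw [Matrix.det_fin_two] at hSdet
  obtain ⟨B, hB⟩ := isUnit_of_sub_mem s01 isUnit_one
  set u := (q.2 1 1 - 1) * ((B⁻¹ : Vˣ) : V) with hu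
  have hum : u ∈ maximalIdeal V := Ideal.mul_mem_right _ _ s11
  have hub : u * q.2 0 1 = q.2 1 1 - 1 := by rw [hu, ← hB, mul_assoc, Units.inv_mul, mul_one]
  have hS : q.2 = cj (uL u) (upT 1 1 (q.2 0 1)) := by
    rw [cj_uL]
    ext i k
    fin_cases i <;> fin_cases k <;> simp [upT]
    · linear_combination hStr + hub
    · refine B.isUnit.mul_right_cancel ?_
      rw [hB]
      linear_combination -hSdet + (q.2 1 1) * hStr + (u * q.2 0 1 + q.2 1 1 - 1) * hub
    · linear_combination -hub
  set M := cj (uL u)⁻¹ q.1 with hM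
  have hF : q.1 = cj (uL u) M := by rw [hM, ← cj_mul, mul_inv_cancel, cj_one]
  have hMU : M * upT 1 1 (q.2 0 1) = upT 1 1 ((s.n j : V) * q.2 0 1) * M := by
    refine cj_injective (uL u) ?_
    rw [← cj_mul_cj, ← cj_mul_cj, ← upT_one_pow, ← cj_pow, ← hS, ← hF]
    exact hcomm
  have e11 := congrFun (congrFun hMU 1) 1
  have e01 := congrFun (congrFun hMU 0) 1
  simp [Matrix.mul_apply, Fin.sum_univ_two, upT] at e11 e01
  have hb0 : q.2 0 1 ≠ 0 := hB ▸ B.ne_zero
  have hM10 : M 1 0 = 0 := e11.resolve_right hb0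
  have hM00 : M 0 0 = (s.n j : V) * M 1 1 :=
    mul_right_cancel₀ hb0 (by linear_combination e01)
  have hFe : q.1 0 1 = M 0 1 ∧ q.1 1 1 = M 1 1 + u * M 0 1 := by
    rw [hF, cj_uL]; simp
  have hM11m : M 1 1 - β ∈ maximalIdeal V := by
    rw [show M 1 1 - β = (q.1 1 1 - β) - u * M 0 1 by linear_combination -hFe.2]
    exact sub_mem f11 (Ideal.mul_mem_right _ _ hum)
  have hnu' : IsUnit (s.n j : V) := by simpa using hnu.map (algebraMap O V)
  have hM11 : M 1 1 = β := by
    have hd : M.det = (s.n j : V) := by rw [← det_cj (uL u), ← hF, hdet]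
    rw [Matrix.det_fin_two, hM10, hM00, mul_zero, sub_zero] at hd
    have hsq : M 1 1 * M 1 1 = 1 := hnu'.mul_left_cancel (by linear_combination hd)
    refine sub_eq_zero.mp ((mul_eq_zero.mp
      (show (M 1 1 - β) * (M 1 1 + β) = 0 by linear_combination hsq - hβ)).resolve_right ?_)
    refine IsUnit.ne_zero (isUnit_of_sub_mem (b := 2 * β) ?_ ?_)
    · rw [show M 1 1 + β - 2 * β = M 1 1 - β by ring]; exact hM11m
    · exact (by have := h.two.map (algebraMap O V); rwa [map_ofNat] at this :
        IsUnit (2 : V)).mul (IsUnit.of_mul_eq_one _ hβ)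
  refine ⟨u, q.1 0 1 - algebraMap O V y₀, q.2 0 1 - 1, hum, f01, s01, ?_⟩
  simp only [chart, hk, steinbergPair, up]
  refine Prod.ext ?_ ?_
  · conv_lhs => rw [hF]
    congr 1
    ext i k
    fin_cases i <;> fin_cases k <;> simp [upT, hM10, hM00, hM11, hFe.1, ← hβdef]
  · simpa using hS

/-- Admissible pairs at a special place are in the chart. -/
theorem base_special {j : J} {β₀ : O} (hk : s.kind j = .special β₀) {q : Mat V × Mat V}
    (hq : Adm s pr j q) : Base s pr j q := by
  have htw : (s.kind j).isTwisted = false := by rw [hk]; rfl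
  obtain ⟨hβ₀, hnu, hn2⟩ := s.special j β₀ hk
  obtain ⟨hnear, hdet, hSdet, -, hrelq, htrq⟩ := hq
  obtain ⟨hcomm, hStr⟩ := hrelq htw
  have htrF := htrq β₀ hk
  set β := algebraMap O V β₀ with hβdef
  set n := (s.n j : V) with hndef
  have hβ : β * β = 1 := by rw [hβdef, ← map_mul, hβ₀, map_one]
  have hn : IsUnit n := by simpa using hnu.map (algebraMap O V)
  have hn2' : IsUnit (n * n - 1) := by simpa using hn2.map (algebraMap O V)
  have hn1 : IsUnit (n - 1) := isUnit_of_mul_isUnit_left
    (show IsUnit ((n - 1) * (n + 1)) by rwa [show (n - 1) * (n + 1) = n * n - 1 by ring])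
  have hcen : s.cen j = (!![(s.n j : O) * β₀, 0; 0, β₀], 1) := by rw [Setup.cen, hk]; rfl
  rw [hcen] at hnear
  have f01 : q.1 0 1 ∈ maximalIdeal V := by simpa using hnear.1 0 1
  have f10 : q.1 1 0 ∈ maximalIdeal V := by simpa using hnear.1 1 0
  have f11 : q.1 1 1 - β ∈ maximalIdeal V := by simpa using hnear.1 1 1
  have s01 : q.2 0 1 ∈ maximalIdeal V := by simpa using hnear.2 0 1
  rw [Matrix.trace_fin_two] at htrF
  rw [Matrix.det_fin_two] at hdet
  have hden : IsUnit (n * β - q.1 1 1) := isUnit_of_sub_mem (b := (n - 1) * β)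
    (by rw [show n * β - q.1 1 1 - (n - 1) * β = -(q.1 1 1 - β) by ring]; exact neg_mem f11)
    (hn1.mul (IsUnit.of_mul_eq_one _ hβ))
  set u := q.1 1 0 * Ring.inverse (n * β - q.1 1 1) with hu
  have hum : u ∈ maximalIdeal V := Ideal.mul_mem_right _ _ f10
  have hue : u * (n * β - q.1 1 1) = q.1 1 0 := by
    rw [hu, mul_assoc, Ring.inverse_mul_cancel _ hden, mul_one]
  have h00 : q.1 0 0 = n * β - u * q.1 0 1 := hden.mul_right_cancel (by
    linear_combination q.1 0 1 * hue + n * β * htrF + n * hβ - hdet)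
  have hF : q.1 = cj (uL u) (upT (n * β) β (q.1 0 1)) := by
    rw [cj_uL]
    ext i k
    fin_cases i <;> fin_cases k <;> simp [upT]
    · exact h00
    · linear_combination -hue - u * (htrF - h00)
    · linear_combination htrF - h00
  set M := cj (uL u)⁻¹ q.2 with hM
  have hS : q.2 = cj (uL u) M := by rw [hM, ← cj_mul, mul_inv_cancel, cj_one]
  have hMU : upT (n * β) β (q.1 0 1) * M = M ^ s.n j * upT (n * β) β (q.1 0 1) := by
    refine cj_injective (uL u) ?_
    rw [← cj_mul_cj, ← cj_mul_cj, ← cj_pow, ← hS, ← hF]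
    exact hcomm
  have hMe : M = upT 1 1 (M 0 1) := special_unipotent hndef.symm hn hn2' hβ
    (by rw [hM, trace_cj]; exact hStr) (by rw [hM, det_cj]; exact hSdet) hMU
  have hS01 : q.2 0 1 = M 0 1 := by rw [hS, cj_uL]; simp
  refine ⟨u, q.1 0 1, q.2 0 1, hum, f01, s01, ?_⟩
  simp only [chart, hk, specialPair, up]
  exact Prod.ext hF (by rw [hS01, ← hMe]; exact hS)

variable [IsAdicComplete (maximalIdeal V) V] [Finite J] [Finite τ]
  [IsAdicComplete (maximalIdeal O) O] [DecidableEq J]

/-- If all families obtained from `x` by a pair of the chart at `j` are killed, so are those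
obtained by an admissible pair with residual Jordan block. -/
theorem killed_jordan (h : Admissible s pr) (hinj : Function.Injective (algebraMap O V))
    {x : Cfg J τ V} {j : J} {ε₀ : O} (hk : s.kind j = .jordan ε₀)
    (ht : ∀ t, x.2 t ∈ maximalIdeal V) (hx : ∀ i, i ≠ j → Near (s.cen i) (x.1 i))
    (hbase : ∀ q, Base s pr j q → Killed h (Function.update x.1 j q, x.2))
    {q : Mat V × Mat V} (hq : Adm s pr j q) : Killed h (Function.update x.1 j q, x.2) := by
  have htw : (s.kind j).isTwisted = true := by rw [hk]; rfl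
  obtain ⟨u, y, R₀, L₀, hum, hym, hRm, hLm, hRL, rfl⟩ := exists_jordan_coords h hinj hk hq
  have hg := h.good j htw
  set ρ := algebraMap O V (pr j).ρ with hρdef
  set σ := algebraMap O V (pr j).σ with hσdef
  have hρσ : ρ * σ = algebraMap O V ((pr j).z - (pr j).z') := by
    rw [hρdef, hσdef, ← map_mul, hg.rad]
  have hπ0 : algebraMap O V ((pr j).z - (pr j).z') ≠ 0 := fun e =>
    hg.z_ne (sub_eq_zero.mp (hinj (e.trans (map_zero _).symm)))
  have hρ0 : ρ ≠ 0 := left_ne_zero_of_mul (hρσ ▸ hπ0)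
  have hσ0 : σ ≠ 0 := right_ne_zero_of_mul (hρσ ▸ hπ0)
  have hρm : ρ ∈ maximalIdeal V := algebraMap_mem (h.small j).2.2.2.1
  have hσm : σ ∈ maximalIdeal V := algebraMap_mem (h.small j).2.2.2.2
  -- the family over `V⟦R, L⟧`
  have := mvPowerSeries_isAdicComplete (O := V) (σ := Fin 2)
  have := mvPowerSeries_isAdicComplete (O := V) (σ := Unit)
  have := isLocalHom_series (O := O) (V := V) (σ := Fin 2)
  have := isLocalHom_series (O := O) (V := V) (σ := Unit)
  let cc : V →ₐ[O] MvPowerSeries (Fin 2) V := IsScalarTower.toAlgHom O V (MvPowerSeries (Fin 2) V)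
  have hcm : ∀ v ∈ maximalIdeal V, cc v ∈ maximalIdeal (MvPowerSeries (Fin 2) V) :=
    fun v hv => C_mem hv
  let xT : Cfg J τ (MvPowerSeries (Fin 2) V) :=
    (Function.update (fun i => ((x.1 i).1.map cc, (x.1 i).2.map cc)) j
      (jordanPair (algebraMap O _ ε₀) (s.n j : MvPowerSeries (Fin 2) V) (algebraMap O _ (pr j).z)
        (algebraMap O _ (pr j).z') (algebraMap O _ (pr j).c) (cc u) (cc y)
        (MvPowerSeries.X 0) (MvPowerSeries.X 1)), fun t => cc (x.2 t))
  have hnT : ∀ i, Near (s.cen i) (xT.1 i) := by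
    intro i
    by_cases hi : i = j
    · subst hi
      simp only [xT, Function.update_self]
      refine near_jordanPair (by rw [Setup.cen, hk]; rfl) (n_sub_one_mem s h.prime_mem htw) ?_ ?_
        (hcm u hum) (hcm y hym) (X_mem 0) (X_mem 1)
      · rw [← map_one (algebraMap O (MvPowerSeries (Fin 2) V)), ← map_sub]
        exact algebraMap_mem (h.small i).1
      · rw [← map_one (algebraMap O (MvPowerSeries (Fin 2) V)), ← map_sub]
        exact algebraMap_mem (h.small i).2.1
    · simp only [xT, Function.update_of_ne hi]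
      exact (hx i hi).map cc hcm
  have h2B : IsUnit (2 : MvPowerSeries (Fin 2) V) := by
    have := h.two.map (algebraMap O (MvPowerSeries (Fin 2) V))
    rwa [map_ofNat] at this
  -- its specialisations
  have hspec : ∀ {R L : V} (E : MvPowerSeries (Fin 2) V →ₐ[V] V), E (MvPowerSeries.X 0) = R →
      E (MvPowerSeries.X 1) = L → mapCfg (E.restrictScalars O) xT =
        (Function.update x.1 j (jordanPair (algebraMap O V ε₀) (s.n j : V)
          (algebraMap O V (pr j).z) (algebraMap O V (pr j).z') (algebraMap O V (pr j).c) u y R L),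
          x.2) := by
    intro R L E hR hL
    have hEc : ∀ v, E.restrictScalars O (cc v) = v := fun v => E.commutes v
    refine Prod.ext (funext fun i => ?_) (funext fun t => hEc _)
    by_cases hi : i = j
    · subst hi
      simp only [mapCfg, xT, Function.update_self]
      show mapPair (E.restrictScalars O : (MvPowerSeries (Fin 2) V) →+* V) _ = _
      rw [mapPair_jordanPair _ _ _ _ _ _ _ _ _ _ (isUnit_one_add (X_mem 0)) ?_]
      · simp only [RingHom.coe_coe, AlgHom.commutes, map_natCast, hEc]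
        simp only [AlgHom.restrictScalars_apply, map_natCast, hR, hL]
      · rw [add_sub_assoc]
        exact isUnit_two_add h2B (sub_mem (X_mem 0) (Ideal.mul_mem_left _ _ (X_mem 1)))
    · simp only [mapCfg, xT, Function.update_of_ne hi]
      refine Prod.ext ?_ ?_ <;> (ext k l; exact hEc _)
  obtain ⟨H, hH⟩ := exists_hom s hnT fun t => hcm _ (ht t)
  obtain ⟨E₂, hE₂⟩ := exists_eval (L := V) (R := V) (σ := Fin 2) ![R₀, L₀]
    (fun i => by fin_cases i <;> assumption)
  refine killed_of_hom h (fun i => ?_) ht hH (E := E₂.restrictScalars O)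
    (hspec E₂ (hE₂ 0) (hE₂ 1)) fun f hf => ?_
  · dsimp only
    by_cases hi : i = j
    · subst hi
      rw [Function.update_self]
      exact hq.1
    · rw [Function.update_of_ne hi]
      exact hx i hi
  -- on the circle
  have huT : IsUnit (1 + PowerSeries.X : PowerSeries V) := by
    rw [PowerSeries.isUnit_iff_constantCoeff]; simp
  obtain ⟨Ev, hEv⟩ := exists_eval (L := V) (R := MvPowerSeries Unit V) (σ := Fin 2)
    ![algebraMap V _ ρ * (1 + MvPowerSeries.X ()),
      algebraMap V _ σ * Ring.inverse (1 + MvPowerSeries.X ())]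
    (fun i => by fin_cases i <;> exact Ideal.mul_mem_right _ _ (C_mem (by assumption)))
  obtain ⟨ϖ, hϖ⟩ := IsDiscreteValuationRing.exists_irreducible V
  have hzero : Ev (H f) = 0 := by
    refine powerSeries_eq_zero_of_eval hϖ _ 1 fun k hk' E hE => ?_
    have hϖk : ϖ ^ k ∈ maximalIdeal V := by
      rw [hϖ.maximalIdeal_eq, Ideal.mem_span_singleton]
      exact dvd_pow_self ϖ (by omega)
    have hinv : E (Ring.inverse (1 + MvPowerSeries.X ())) = Ring.inverse (1 + ϖ ^ k) := by
      rw [show E (Ring.inverse _) = (E : MvPowerSeries Unit V →+* V) (Ring.inverse _) from rfl,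
        map_inverse_of_isUnit _ (isUnit_one_add (X_mem ())), map_add, map_one,
        show (E : MvPowerSeries Unit V →+* V) (MvPowerSeries.X ()) = E (MvPowerSeries.X ()) from rfl,
        hE]
    have hR : E.comp Ev (MvPowerSeries.X 0) = ρ * (1 + ϖ ^ k) := by
      rw [AlgHom.comp_apply, hEv]
      show E (algebraMap V _ ρ * (1 + MvPowerSeries.X ())) = _
      rw [map_mul, AlgHom.commutes, map_add, map_one, hE]
      rfl
    have hL : E.comp Ev (MvPowerSeries.X 1) = σ * Ring.inverse (1 + ϖ ^ k) := by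
      rw [AlgHom.comp_apply, hEv]
      show E (algebraMap V _ σ * Ring.inverse (1 + MvPowerSeries.X ())) = _
      rw [map_mul, AlgHom.commutes, hinv]
      rfl
    have hb : Base s pr j (chart s (pr j) j u y (ϖ ^ k)) := ⟨u, y, _, hum, hym, hϖk, rfl⟩
    refine (hbase _ hb).eq_zero hH (E := (E.comp Ev).restrictScalars O) ?_ hf
    rw [hspec _ hR hL]
    simp only [chart, hk]
    rfl
  obtain ⟨G, hG⟩ := mem_of_circle hρm hσm hρ0 hσ0 (H f) Ev (hEv 0) (hEv 1) hzero
  rw [hG, AlgHom.restrictScalars_apply, map_mul, map_sub, map_mul, hE₂, hE₂,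
    show E₂ (MvPowerSeries.C (ρ * σ)) = ρ * σ from E₂.commutes _]
  simp [hRL, hρσ]

end Fermat.Agent.RT.LocalParam
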