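import Fermat.Agent.RT.LocalParam.Killed

/-!
# Deforming triangular pairs with residually scalar Frobenius into the chart

All points with scalar residual pair and inertia eigenvalues `z, z'` kill the kernel of the split
chart: explicit one-parameter triangular deformations join them to split pairs.
-/

set_option autoImplicit false

noncomputable section

namespace Fermat.Agent.RT.LocalParam

open IsLocalRing Matrix Fermat.Agent.RT.LocalRing

variable {J τ O : Type} [CommRing O] [IsLocalRing O] {p m : ℕ} {s : Setup J O p m}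
  {pr : J → Prm O}

/-- An admissible pair at `j`: near the centre, with the relations. -/
def Adm (s : Setup J O p m) (pr : J → Prm O) {V : Type} [CommRing V] [IsLocalRing V]
    [Algebra O V] (j : J) (q : Mat V × Mat V) : Prop :=
  Near (s.cen j) q ∧ Rel s j (algebraMap O V (pr j).z) (algebraMap O V (pr j).z') q

variable [Finite J] [Finite τ] [IsAdicComplete (maximalIdeal O) O]
  {V : Type} [CommRing V] [IsDomain V] [IsDiscreteValuationRing V]
  [IsAdicComplete (maximalIdeal V) V] [Algebra O V] [IsLocalHom (algebraMap O V)]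

/-- If the specialisations of a family at `ϖ ^ k`, `k` large, are killed, so are all. -/
theorem killed_line {h : Admissible s pr} {ϖ : V} (hϖ : Irreducible ϖ)
    {xT : Cfg J τ (MvPowerSeries Unit V)} (hT : ∀ i, Near (s.cen i) (xT.1 i))
    (hT' : ∀ t, xT.2 t ∈ maximalIdeal (MvPowerSeries Unit V)) (N : ℕ)
    (hK : ∀ k, N ≤ k → ∀ E : MvPowerSeries Unit V →ₐ[V] V, E (MvPowerSeries.X ()) = ϖ ^ k →
      Killed h (mapCfg (E.restrictScalars O) xT))
    (E₀ : MvPowerSeries Unit V →ₐ[V] V) {x : Cfg J τ V}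
    (hx : mapCfg (E₀.restrictScalars O) xT = x) (hn : ∀ i, Near (s.cen i) (x.1 i))
    (ht : ∀ t, x.2 t ∈ maximalIdeal V) : Killed h x := by
  have := mvPowerSeries_isAdicComplete (O := V) (σ := Unit)
  have := isLocalHom_series (O := O) (V := V) (σ := Unit)
  obtain ⟨H, hH⟩ := exists_hom s hT hT'
  refine killed_of_hom h hn ht hH hx fun f hf => ?_
  have hzero : H f = 0 := powerSeries_eq_zero_of_eval hϖ (H f) N fun k hk E hE =>
    (hK k hk E hE).eq_zero hH rfl hf
  rw [hzero, map_zero]

omit [IsAdicComplete (maximalIdeal O) O] [IsAdicComplete (maximalIdeal V) V] [Finite J] [IsDomain V]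
  [IsDiscreteValuationRing V] [IsLocalHom (algebraMap O V)] in
theorem near_scalar [IsLocalRing V] {j : J} {ε₀ : O} (hk : s.kind j = .scalar ε₀)
    {q : Mat V × Mat V} :
    Near (s.cen j) q ↔
      MemMax (q.1 - algebraMap O V ε₀ • 1) ∧ MemMax (q.2 - (1 : V) • 1) := by
  have e1 : (ε₀ • (1 : Mat O)).map (algebraMap O V) = algebraMap O V ε₀ • (1 : Mat V) := by
    ext i k; rcases eq_or_ne i k with rfl | hik <;> simp_all
  have e2 : (1 : Mat O).map (algebraMap O V) = (1 : V) • (1 : Mat V) := by simp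
  rw [Near, show s.cen j = (ε₀ • (1 : Mat O), 1) by rw [Setup.cen, hk]; rfl]
  simp only [e1, e2]

omit [IsAdicComplete (maximalIdeal O) O] [IsAdicComplete (maximalIdeal V) V] [Finite J] in
theorem dual_mem (h : Admissible s pr) {j : J} {ε₀ : O}
    (hk : s.kind j = .scalar ε₀ ∨ s.kind j = .jordan ε₀) {a a' : V}
    (ha : a - algebraMap O V ε₀ ∈ maximalIdeal V) (hdet : a * a' = (s.n j : V)) :
    a' - algebraMap O V ε₀ ∈ maximalIdeal V := by
  set ε := algebraMap O V ε₀
  have hε : ε * ε = 1 := eps_sq_of_kind s hk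
  have e : a' - ε = ε * ((s.n j : V) - 1) - ε * a' * (a - ε) := by
    linear_combination -a' * hε + ε * hdet
  rw [e]
  exact sub_mem (Ideal.mul_mem_left _ _ (n_sub_one_mem s h.prime_mem
    (by rcases hk with hk | hk <;> rw [hk] <;> rfl))) (Ideal.mul_mem_left _ _ ha)

omit [IsAdicComplete (maximalIdeal O) O] [IsAdicComplete (maximalIdeal V) V] [Finite J] in
/-- Split pairs with eigenlines near the standard ones are in the chart. -/
theorem base_split (h : Admissible s pr) {j : J} {ε₀ : O} (hk : s.kind j = .scalar ε₀)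
    (g : (Mat V)ˣ) (h10 : (g : Mat V) 1 0 ∈ maximalIdeal V)
    (h01 : (g : Mat V) 0 1 ∈ maximalIdeal V) {a a' : V} (hdet : a * a' = (s.n j : V))
    (ha : a - algebraMap O V ε₀ ∈ maximalIdeal V) :
    Base s pr j (up g (algebraMap O V (pr j).z) (algebraMap O V (pr j).z') a a' 0 0) := by
  set p := (g : Mat V) 0 0
  set sg := (g : Mat V) 0 1
  set r := (g : Mat V) 1 0
  set t := (g : Mat V) 1 1
  have hg : IsUnit (p * t - sg * r) := by
    rw [← Matrix.det_fin_two]
    exact (Matrix.isUnit_iff_isUnit_det _).mp g.isUnit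
  obtain ⟨hpu, -⟩ := isUnit_of_mul_sub hg (Ideal.mul_mem_left _ _ h10)
  obtain ⟨P, hP⟩ := hpu
  set u := r * ((P⁻¹ : Vˣ) : V) with hu
  have hPP : p * ((P⁻¹ : Vˣ) : V) = 1 := by rw [← hP, Units.mul_inv]
  obtain ⟨D, hD⟩ : IsUnit (t - u * sg) := by
    refine (IsUnit.mul_iff.mp (show IsUnit (p * (t - u * sg)) from ?_)).2
    have : p * (t - u * sg) = p * t - sg * r := by
      rw [hu]; linear_combination (-(r * sg)) * hPP
    rwa [this]
  set e := sg * ((D⁻¹ : Vˣ) : V) with he
  set ε := algebraMap O V ε₀ with hεdef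
  have hε : ε * ε = 1 := eps_sq_of_kind s (Or.inl hk)
  refine ⟨u, ε * a - 1, e, Ideal.mul_mem_right _ _ h10, ?_, Ideal.mul_mem_right _ _ h01, ?_⟩
  · rw [show ε * a - 1 = ε * (a - ε) by linear_combination hε]
    exact Ideal.mul_mem_left _ _ ha
  have hgeq : g = uL u * uU e * uD P D := by
    ext i k
    fin_cases i <;> fin_cases k <;>
      simp only [Units.val_mul, uL, uU, uD, Matrix.mul_apply, Fin.sum_univ_two] <;> simp
    · exact hP.symm
    · show sg = e * (D : V)
      rw [he, mul_assoc, Units.inv_mul, mul_one]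
    · show r = u * (P : V)
      rw [hu, mul_assoc, Units.inv_mul, mul_one]
    · show t = (u * e + 1) * (D : V)
      linear_combination (-1 : V) * hD - u * sg * Units.inv_mul D
  have hone : (1 : V) + (ε * a - 1) = ε * a := by ring
  have hua : IsUnit a := isUnit_of_sub_mem ha (IsUnit.of_mul_eq_one _ hε)
  have ha' : a' = ε * (s.n j : V) * Ring.inverse (ε * a) := by
    have hu2 : IsUnit (ε * a) := (IsUnit.of_mul_eq_one _ hε).mul hua
    apply hu2.mul_left_cancel
    rw [mul_comm (ε * (s.n j : V)), ← mul_assoc, Ring.mul_inverse_cancel _ hu2,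
      one_mul, ← hdet, mul_assoc]
  simp only [chart, hk, scalarPair]
  rw [hgeq, up_mul_uD, hone, ← hεdef, ha',
    show ε * (ε * a) = a by rw [← mul_assoc, hε, one_mul]]

variable [DecidableEq J]

/-- The triangular deformation: if all nearby split pairs are killed, so is the triangular one. -/
theorem killed_update_up (h : Admissible s pr) {x : Cfg J τ V} {j : J} {ε₀ : O}
    (hk : s.kind j = .scalar ε₀) (ht : ∀ t, x.2 t ∈ maximalIdeal V)
    (hx : ∀ i, i ≠ j → Near (s.cen i) (x.1 i))
    (g : (Mat V)ˣ) {w w' a a' b y : V} (hne : w ≠ w')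
    (hw : w - 1 ∈ maximalIdeal V) (hw' : w' - 1 ∈ maximalIdeal V)
    (ha : a - algebraMap O V ε₀ ∈ maximalIdeal V)
    (ha' : a' - algebraMap O V ε₀ ∈ maximalIdeal V)
    (hb : b ∈ maximalIdeal V) (hy : y ∈ maximalIdeal V) (hrel : (w - w') * y = (a - a') * b)
    (hK : ∀ e ∈ maximalIdeal V,
      Killed h (Function.update x.1 j (up (g * uU e) w w' a a' 0 0), x.2)) :
    Killed h (Function.update x.1 j (up g w w' a a' b y), x.2) := by
  obtain ⟨ϖ, hϖ⟩ := IsDiscreteValuationRing.exists_irreducible V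
  rw [hϖ.maximalIdeal_eq, Ideal.mem_span_singleton] at hb hy
  obtain ⟨b₁, rfl⟩ := hb
  obtain ⟨y₁, rfl⟩ := hy
  have hrel₁ : (w - w') * y₁ = (a - a') * b₁ :=
    mul_left_cancel₀ hϖ.ne_zero (by linear_combination hrel)
  obtain ⟨i₀, v₀, hv₀⟩ :=
    IsDiscreteValuationRing.eq_unit_mul_pow_irreducible (sub_ne_zero.mpr hne.symm) hϖ
  have := isLocalHom_series (O := O) (V := V) (σ := Unit)
  let T : MvPowerSeries Unit V := MvPowerSeries.X ()
  let c : V →+* MvPowerSeries Unit V := algebraMap V _
  let cc : V →ₐ[O] MvPowerSeries Unit V := IsScalarTower.toAlgHom O V _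
  let gT : (Mat (MvPowerSeries Unit V))ˣ := Units.map c.mapMatrix.toMonoidHom g
  let xT : Cfg J τ (MvPowerSeries Unit V) :=
    (Function.update (fun i => ((x.1 i).1.map c, (x.1 i).2.map c)) j
      (up gT (c w) (c w') (c a) (c a') (T * c b₁) (T * c y₁)), fun t => c (x.2 t))
  have hcmem : ∀ v ∈ maximalIdeal V, c v ∈ maximalIdeal (MvPowerSeries Unit V) :=
    fun v hv => C_mem hv
  have hT : T ∈ maximalIdeal (MvPowerSeries Unit V) := X_mem _
  have hsub : ∀ u : V, ∀ s : O, c u - algebraMap O (MvPowerSeries Unit V) s =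
      c (u - algebraMap O V s) := fun u s => by
    rw [map_sub, IsScalarTower.algebraMap_apply O V (MvPowerSeries Unit V)]
  have hnT : ∀ i, Near (s.cen i) (xT.1 i) := by
    intro i
    by_cases hi : i = j
    · subst hi
      simp only [xT, Function.update_self]
      exact (near_scalar hk).mpr (memMax_up gT (by simpa using hcmem _ hw) (by simpa using hcmem _ hw')
        (by rw [hsub]; exact hcmem _ ha) (by rw [hsub]; exact hcmem _ ha')
        (Ideal.mul_mem_right _ _ hT) (Ideal.mul_mem_right _ _ hT))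
    · simp only [xT, Function.update_of_ne hi]
      exact (hx i hi).map cc hcmem
  -- specialisation at `T = v`
  have hspec : ∀ (v : V) (E : MvPowerSeries Unit V →ₐ[V] V), E T = v →
      mapCfg (E.restrictScalars O) xT =
        (Function.update x.1 j (up g w w' a a' (v * b₁) (v * y₁)), x.2) := by
    intro v E hE
    have hEc : ∀ u, E (c u) = u := fun u => E.commutes u
    refine Prod.ext (funext fun i => ?_) (funext fun t => hEc _)
    by_cases hi : i = j
    · subst hi
      simp only [mapCfg, xT, Function.update_self, up]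
      have hgg : Units.map (E.toRingHom.mapMatrix).toMonoidHom gT = g := by
        ext k l
        exact hEc _
      refine Prod.ext ?_ ?_
      all_goals
        show Matrix.map (cj gT _) (E.toRingHom : MvPowerSeries Unit V →+* V) = _
        rw [map_cj, hgg, map_upT]
        simp [hEc, hE]
    · simp only [mapCfg, xT, Function.update_of_ne hi]
      refine Prod.ext ?_ ?_ <;> (ext k l; exact hEc _)
  obtain ⟨E₁, hE₁⟩ := exists_eval (L := V) (R := V) (σ := Unit) (fun _ => ϖ) fun _ => by
    rw [hϖ.maximalIdeal_eq, Ideal.mem_span_singleton]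
  refine killed_line hϖ hnT (fun t => hcmem _ (ht t)) (i₀ + 1) (fun k hk' E hE => ?_) E₁
    (hspec _ E₁ (hE₁ ())) (fun i => ?_) ht
  · obtain ⟨l, rfl⟩ := Nat.exists_eq_add_of_le hk'
    set e := ϖ ^ (l + 1) * ((v₀⁻¹ : Vˣ) : V) * b₁ with he
    have hem : e ∈ maximalIdeal V := by
      refine Ideal.mul_mem_right _ _ (Ideal.mul_mem_right _ _ ?_)
      rw [hϖ.maximalIdeal_eq, Ideal.mem_span_singleton]
      exact dvd_pow_self ϖ l.succ_ne_zero
    have h1 : e * (w' - w) = ϖ ^ (i₀ + 1 + l) * b₁ := by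
      rw [he, hv₀]
      linear_combination (ϖ ^ (i₀ + 1 + l) * b₁) * Units.inv_mul v₀
    have h2 : e * (a' - a) = ϖ ^ (i₀ + 1 + l) * y₁ := by
      refine mul_left_cancel₀ (sub_ne_zero.mpr hne.symm) ?_
      linear_combination (a' - a) * h1 + ϖ ^ (i₀ + 1 + l) * hrel₁
    rw [hspec _ E hE, ← h1, ← h2, ← up_mul_uU]
    exact hK e hem
  · have hbm : ∀ v, ϖ * v ∈ maximalIdeal V := fun v => by
      rw [hϖ.maximalIdeal_eq, Ideal.mem_span_singleton]
      exact Dvd.intro _ rfl
    dsimp only
    by_cases hi : i = j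
    · subst hi
      rw [Function.update_self]
      exact (near_scalar hk).mpr (memMax_up g hw hw' ha ha' (hbm b₁) (hbm y₁))
    · rw [Function.update_of_ne hi]
      exact hx i hi

/-- If all families obtained from `x` by a pair of the chart at `j` are killed, so are those
obtained by an admissible pair. -/
theorem killed_scalar (h : Admissible s pr) (hinj : Function.Injective (algebraMap O V))
    {x : Cfg J τ V} {j : J} {ε₀ : O} (hk : s.kind j = .scalar ε₀)
    (ht : ∀ t, x.2 t ∈ maximalIdeal V) (hx : ∀ i, i ≠ j → Near (s.cen i) (x.1 i))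
    (hbase : ∀ q, Base s pr j q → Killed h (Function.update x.1 j q, x.2))
    {q : Mat V × Mat V} (hq : Adm s pr j q) : Killed h (Function.update x.1 j q, x.2) := by
  have htw : (s.kind j).isTwisted = true := by rw [hk]; rfl
  set zV := algebraMap O V (pr j).z with hzV
  set zV' := algebraMap O V (pr j).z' with hzV'
  set ε := algebraMap O V ε₀ with hεV
  have hne : zV ≠ zV' := fun e => (h.good j htw).z_ne (hinj e)
  have hz : zV - 1 ∈ maximalIdeal V := by
    simpa [zV] using algebraMap_mem (A := V) (h.small j).1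
  have hz' : zV' - 1 ∈ maximalIdeal V := by
    simpa [zV'] using algebraMap_mem (A := V) (h.small j).2.1
  have hzz : ∀ e : V, e * (zV' - zV) ∈ maximalIdeal V := fun e =>
    Ideal.mul_mem_left _ _ (by simpa using sub_mem hz' hz)
  have hdual : ∀ {a a' : V}, a - ε ∈ maximalIdeal V → a * a' = (s.n j : V) →
      a' - ε ∈ maximalIdeal V := fun ha hdet => dual_mem h (Or.inl hk) ha hdet
  -- split pairs in the basis `g`
  let Q : (Mat V)ˣ → Prop := fun g => ∀ a a' : V, a * a' = (s.n j : V) →
    a - ε ∈ maximalIdeal V → Killed h (Function.update x.1 j (up g zV zV' a a' 0 0), x.2)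
  have hdetu : ∀ g : (Mat V)ˣ,
      IsUnit ((g : Mat V) 0 0 * (g : Mat V) 1 1 - (g : Mat V) 0 1 * (g : Mat V) 1 0) := fun g => by
    rw [← Matrix.det_fin_two]
    exact (Matrix.isUnit_iff_isUnit_det _).mp g.isUnit
  have stepA : ∀ g : (Mat V)ˣ, (g : Mat V) 1 0 ∈ maximalIdeal V →
      (g : Mat V) 0 1 ∈ maximalIdeal V → Q g :=
    fun g h1 h2 a a' h3 h4 => hbase _ (base_split h hk g h1 h2 h3 h4)
  -- move along the first line
  have move : ∀ (g₀ : (Mat V)ˣ), (∀ e ∈ maximalIdeal V, Q (g₀ * uU e)) →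
      ∀ (e : V) (d₁ d₂ : Vˣ) (g : (Mat V)ˣ),
        (g : Mat V) = ((g₀ * uU e * uD d₁ d₂ : (Mat V)ˣ) : Mat V) → Q g := by
    intro g₀ h₀ e d₁ d₂ g hg a a' hdet ha
    have ha' := hdual ha hdet
    rw [Units.ext hg, up_mul_uD, up_mul_uU]
    refine killed_update_up h hk ht hx g₀ hne hz hz' ha ha' (hzz e)
      (Ideal.mul_mem_left _ _ (by rw [← sub_sub_sub_cancel_right a' a ε]; exact sub_mem ha' ha)) (by ring) ?_
    exact fun e' he' => h₀ e' he' a a' hdet ha
  have stepB : ∀ g : (Mat V)ˣ, (g : Mat V) 1 0 ∈ maximalIdeal V → Q g := by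
    intro g hr
    obtain ⟨hp', -⟩ := isUnit_of_mul_sub (hdetu g) (Ideal.mul_mem_left _ _ hr)
    obtain ⟨P, hP⟩ := hp'
    set pp := (g : Mat V) 0 0 with hpp
    set s := (g : Mat V) 0 1 with hs
    set r := (g : Mat V) 1 0 with hrr
    set t := (g : Mat V) 1 1 with htt
    have hu : IsUnit (t - r * (s * ((P⁻¹ : Vˣ) : V))) := by
      refine (IsUnit.mul_iff.mp (show IsUnit (pp * (t - r * (s * ((P⁻¹ : Vˣ) : V)))) from ?_)).2
      have : pp * (t - r * (s * ((P⁻¹ : Vˣ) : V))) = pp * t - s * r := by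
        rw [← hP]; linear_combination (-(r * s)) * Units.mul_inv P
      rw [this]; exact hdetu g
    obtain ⟨D, hD⟩ := hu
    refine move (uM pp 0 r 1 (by rw [mul_one, zero_mul, sub_zero]; exact ⟨P, hP⟩)) ?_
      (s * ((P⁻¹ : Vˣ) : V) * ((D⁻¹ : Vˣ) : V)) 1 D g ?_
    · intro e he
      refine stepA _ ?_ ?_ <;>
        simp [Units.val_mul, uM_val, uU, Matrix.mul_apply, Fin.sum_univ_two,
          -IsLocalRing.mem_maximalIdeal, -mem_nonunits_iff]
      · exact hr
      · exact Ideal.mul_mem_left _ _ he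
    · ext i k
      fin_cases i <;> fin_cases k <;>
        simp [Units.val_mul, uM_val, uU, uD, Matrix.mul_apply, Fin.sum_univ_two]
      · exact hpp.symm
      · show s = _
        linear_combination (-s) * Units.mul_inv P + s * ((P⁻¹ : Vˣ) : V) * hP -
          (pp * s * ((P⁻¹ : Vˣ) : V)) * Units.inv_mul D
      · exact hrr.symm
      · show t = _
        linear_combination (-1 : V) * hD - (r * s * ((P⁻¹ : Vˣ) : V)) * Units.inv_mul D
  have stepC : ∀ g : (Mat V)ˣ, IsUnit ((g : Mat V) 1 1) → Q g := by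
    intro g htu a a' hdet ha
    obtain ⟨T, hT⟩ := htu
    set pp := (g : Mat V) 0 0 with hpp
    set s := (g : Mat V) 0 1 with hs
    set r := (g : Mat V) 1 0 with hrr
    set t := (g : Mat V) 1 1 with htt
    set f := r * ((T⁻¹ : Vˣ) : V) with hf
    have hu : IsUnit (pp - s * f) := by
      refine (IsUnit.mul_iff.mp (show IsUnit ((pp - s * f) * t) from ?_)).1
      have : (pp - s * f) * t = pp * t - s * r := by
        rw [hf, ← hT]; linear_combination (-(r * s)) * Units.inv_mul T
      rw [this]; exact hdetu g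
    obtain ⟨D, hD⟩ := hu
    have h1 : IsUnit ((1 : V) * t - s * 0) := by
      rw [one_mul, mul_zero, sub_zero]; exact ⟨T, hT⟩
    have hgeq : g = uM 1 s 0 t h1 * uS V * uU (f * ((D⁻¹ : Vˣ) : V)) * uS V * uD D 1 := by
      ext i k
      fin_cases i <;> fin_cases k <;>
        simp [Units.val_mul, uM_val, uU, uS, uD, Matrix.mul_apply, Fin.sum_univ_two]
      · show pp = _
        linear_combination (-1 : V) * hD - (s * f) * Units.inv_mul D
      · exact hs.symm
      · show r = _
        linear_combination (-(t * f)) * Units.inv_mul D - r * Units.mul_inv T +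
          (r * ((T⁻¹ : Vˣ) : V)) * hT - t * hf
      · exact htt.symm
    have ha' := hdual ha hdet
    rw [hgeq, up_mul_uD, up_mul_uS, up_mul_uU]
    refine killed_update_up h hk ht hx _ hne.symm hz' hz ha' ha
      (Ideal.mul_mem_left _ _ (by simpa using sub_mem hz hz'))
      (Ideal.mul_mem_left _ _ (by rw [← sub_sub_sub_cancel_right a a' ε]; exact sub_mem ha ha')) (by ring) fun e he => ?_
    rw [← up_mul_uS]
    refine stepB _ ?_ a a' hdet ha
    simp [Units.val_mul, uM_val, uU, uS, Matrix.mul_apply, Fin.sum_univ_two,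
      -IsLocalRing.mem_maximalIdeal, -mem_nonunits_iff]
    exact Ideal.mul_mem_left _ _ he
  have stepD : ∀ g : (Mat V)ˣ, Q g := by
    intro g
    by_cases htu : IsUnit ((g : Mat V) 1 1)
    · exact stepC g htu
    set pp := (g : Mat V) 0 0 with hpp
    set s := (g : Mat V) 0 1 with hs
    set r := (g : Mat V) 1 0 with hrr
    set t := (g : Mat V) 1 1 with htt
    have htm : t ∈ maximalIdeal V := (IsLocalRing.mem_maximalIdeal _).mpr htu
    have hru : IsUnit r := by
      have hsr : IsUnit (-(s * r)) := isUnit_of_sub_mem (b := pp * t - s * r)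
        (by
          rw [show -(s * r) - (pp * t - s * r) = -(pp * t) by ring]
          exact neg_mem (Ideal.mul_mem_left _ _ htm)) (hdetu g)
      exact (IsUnit.mul_iff.mp (IsUnit.neg_iff _ |>.mp hsr)).2
    obtain ⟨R, hR⟩ := hru
    obtain ⟨s', t', ht', hd2⟩ : ∃ s' t' : V, IsUnit t' ∧ IsUnit (pp * t' - s' * r) := by
      by_cases hpu : IsUnit pp
      · exact ⟨0, 1, isUnit_one, by simpa using hpu⟩
      · refine ⟨1, 1, isUnit_one, ?_⟩
        refine isUnit_of_sub_mem (b := -r) ?_ ⟨-R, by simp [hR]⟩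
        simpa using (IsLocalRing.mem_maximalIdeal pp).mpr hpu
    obtain ⟨E, hE⟩ := hd2
    obtain ⟨G, hG⟩ := hdetu g
    set k₂ := (G : V) * ((E⁻¹ : Vˣ) : V) with hk₂
    set k₁ := (t - t' * k₂) * ((R⁻¹ : Vˣ) : V) with hk₁
    refine move (uM pp s' r t' (by rw [← hE]; exact E.isUnit)) ?_
      (k₁ * ((E : V) * ((G⁻¹ : Vˣ) : V))) 1 (G * E⁻¹) g ?_
    · intro e he
      refine stepC _ ?_
      simp [Units.val_mul, uM_val, uU, Matrix.mul_apply, Fin.sum_univ_two]
      exact isUnit_of_sub_mem (by simpa using Ideal.mul_mem_left _ r he) ht'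
    · have hcancel : (E : V) * ((G⁻¹ : Vˣ) : V) * ((G : V) * ((E⁻¹ : Vˣ) : V)) = 1 := by
        linear_combination (E : V) * ((E⁻¹ : Vˣ) : V) * Units.inv_mul G + Units.mul_inv E
      have hk1r : k₁ * r = t - t' * k₂ := by
        rw [hk₁, ← hR, mul_assoc, Units.inv_mul, mul_one]
      have hk2E : k₂ * (pp * t' - s' * r) = pp * t - s * r := by
        rw [hk₂, ← hE, ← hG, mul_assoc, Units.inv_mul, mul_one]
      have hsr : s * r = (pp * k₁ + s' * k₂) * r := by
        linear_combination (-pp) * hk1r + hk2E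
      have hs' : s = pp * k₁ + s' * k₂ :=
        mul_right_cancel₀ (show r ≠ 0 from hR ▸ R.ne_zero) hsr
      ext i k
      fin_cases i <;> fin_cases k <;>
        simp [Units.val_mul, uM_val, uU, uD, Matrix.mul_apply, Fin.sum_univ_two]
      · exact hpp.symm
      · show s = _
        linear_combination hs' + s' * hk₂ - (pp * k₁) * hcancel
      · exact hrr.symm
      · show t = _
        linear_combination (-1 : V) * hk1r + t' * hk₂ - (r * k₁) * hcancel
  obtain ⟨hnear, hdet, hSdet, hrelq, -⟩ := hq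
  obtain ⟨hcomm, hStr⟩ := hrelq htw
  obtain ⟨h1, h2⟩ := (near_scalar hk).mp hnear
  obtain ⟨g, a, a', b, y, hup, hrel, haa⟩ := exists_up hne hcomm hStr
    (by rw [hSdet, hzV, hzV', ← map_mul, (h.good j htw).z_mul, map_one])
  have hdiag1 := (memMax_cj (g := g⁻¹) (M := q.1) (c := ε) h1)
  have hdiag2 := (memMax_cj (g := g⁻¹) (M := q.2) (c := (1 : V)) h2)
  rw [show q.1 = (up g zV zV' a a' b y).1 from congrArg Prod.fst hup, up, ← cj_mul,
    inv_mul_cancel, cj_one] at hdiag1
  rw [show q.2 = (up g zV zV' a a' b y).2 from congrArg Prod.snd hup, up, ← cj_mul,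
    inv_mul_cancel, cj_one] at hdiag2
  have ha : a - ε ∈ maximalIdeal V := by simpa [upT] using hdiag1 0 0
  have hy : y ∈ maximalIdeal V := by simpa [upT] using hdiag1 0 1
  have hb : b ∈ maximalIdeal V := by simpa [upT] using hdiag2 0 1
  rw [hdet] at haa
  rw [show q = up g zV zV' a a' b y from hup]
  exact killed_update_up h hk ht hx g hne hz hz' ha (hdual ha haa) hb hy hrel
    fun e _ => stepD _ a a' haa ha

end Fermat.Agent.RT.LocalParam
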